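import Mathlib

/-!
# Descent along `Aut(ℂ)`

* `exists_ringEquiv_ne`: every non-rational complex number is moved by some ring automorphism of `ℂ`.
* `span_rational_eq_of_aut_stable`: a finite-dimensional subspace of `ℂ⟦X⟧` stable under the
  coefficientwise action of all ring automorphisms of `ℂ` is spanned by its elements with rational
  coefficients.
-/

set_option autoImplicit false

namespace Fermat.Agent.S23.H8

open MvPolynomial

section Translate

variable (ι : Type*)

/-- Translation automorphism `X i ↦ X i + c i` of a polynomial ring. -/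
noncomputable def translateEquiv (c : ι → ℚ) : MvPolynomial ι ℚ ≃ₐ[ℚ] MvPolynomial ι ℚ :=
  AlgEquiv.ofAlgHom (aeval fun i => X i + C (c i)) (aeval fun i => X i - C (c i))
    (by ext i; simp) (by ext i; simp)

@[simp]
theorem translateEquiv_X (c : ι → ℚ) (i : ι) : translateEquiv ι c (X i) = X i + C (c i) := by
  simp [translateEquiv]

end Translate

variable {K : Type*} [Field K] [IsAlgClosed K] [CharZero K]

theorem exists_ringEquiv_ne_of_transcendental {z : K} (hz : Transcendental ℚ z) :
    ∃ σ : K ≃+* K, σ z ≠ z := by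
  classical
  have h1 : AlgebraicIndepOn ℚ id ({z} : Set K) := by
    rw [AlgebraicIndepOn]
    refine (algebraicIndependent_singleton_iff (⟨z, rfl⟩ : ({z} : Set K))).mpr ?_
    simpa using hz
  obtain ⟨t, hzt, ht⟩ := exists_isTranscendenceBasis_superset h1
  let v : t → K := (↑)
  have : IsAlgClosure (Algebra.adjoin ℚ (Set.range v)) K :=
    IsAlgClosed.isAlgClosure_of_transcendence_basis v ht
  let i0 : t := ⟨z, hzt rfl⟩
  let e0 := translateEquiv t (fun i => if i = i0 then 1 else 0)
  let e : Algebra.adjoin ℚ (Set.range v) ≃+* Algebra.adjoin ℚ (Set.range v) :=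
    (ht.1.aevalEquiv.symm.trans (e0.trans ht.1.aevalEquiv)).toRingEquiv
  refine ⟨IsAlgClosure.equivOfEquiv K K e, ?_⟩
  have hzA : z = algebraMap (Algebra.adjoin ℚ (Set.range v)) K (ht.1.aevalEquiv (X i0)) := by
    rw [AlgebraicIndependent.algebraMap_aevalEquiv]
    simp [v, i0]
  have he : e (ht.1.aevalEquiv (X i0)) = ht.1.aevalEquiv (X i0 + C 1) := by
    simp [e, e0]
  have hz1 : IsAlgClosure.equivOfEquiv K K e z = z + 1 := by
    conv_lhs => rw [hzA]
    rw [IsAlgClosure.equivOfEquiv_algebraMap, he, AlgebraicIndependent.algebraMap_aevalEquiv]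
    simp [v, i0]
  rw [hz1]
  simp


/-- A transcendence basis generates a subfield containing no algebraic element outside the
base field. -/
theorem notMem_adjoin_of_isAlgebraic {F E : Type*} [Field F] [Field E] [Algebra F E]
    {ι : Type*} {v : ι → E} (hv : AlgebraicIndependent F v)
    {z : E} (hz : IsAlgebraic F z) (hzQ : z ∉ Set.range (algebraMap F E)) :
    z ∉ IntermediateField.adjoin F (Set.range v) := by
  intro hzL
  -- write `z = P(v) / Q(v)`
  obtain ⟨a, ha⟩ := hv.aevalEquivField.surjective ⟨z, hzL⟩
  obtain ⟨P, Q, hQ, rfl⟩ := IsFractionRing.div_surjective (A := MvPolynomial ι F) a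
  have hQ0 : Q ≠ 0 := nonZeroDivisors.ne_zero hQ
  have hQv : aeval v Q ≠ 0 := by
    intro h
    exact hQ0 (hv (by simpa using h))
  have hzPQ : z * aeval v Q = aeval v P := by
    have h1 := congrArg Subtype.val ha
    rw [map_div₀] at h1
    simp only [AlgebraicIndependent.aevalEquivField_algebraMap_apply_coe,
      IntermediateField.coe_div] at h1
    rw [← h1]
    field_simp
  -- extend scalars to `F(z)`
  let S := IntermediateField.adjoin F ({z} : Set E)
  have : Algebra.IsAlgebraic F S := IntermediateField.isAlgebraic_adjoin_simple hz.isIntegral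
  have hvS : AlgebraicIndependent S v := hv.extendScalars S
  let zS : S := ⟨z, IntermediateField.mem_adjoin_simple_self F z⟩
  have hR : C zS * MvPolynomial.map (algebraMap F S) Q - MvPolynomial.map (algebraMap F S) P = 0 := by
    apply hvS
    rw [map_sub, map_mul, map_zero, aeval_C, MvPolynomial.aeval_map_algebraMap,
      MvPolynomial.aeval_map_algebraMap, sub_eq_zero]
    exact hzPQ
  obtain ⟨m, hm⟩ := MvPolynomial.ne_zero_iff.mp hQ0
  have hcoeff := congrArg (MvPolynomial.coeff m) hR
  rw [MvPolynomial.coeff_sub, MvPolynomial.coeff_C_mul, MvPolynomial.coeff_map,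
    MvPolynomial.coeff_map, MvPolynomial.coeff_zero, sub_eq_zero] at hcoeff
  apply hzQ
  refine ⟨MvPolynomial.coeff m P / MvPolynomial.coeff m Q, ?_⟩
  have h2 := congrArg (algebraMap S E) hcoeff
  rw [map_mul, ← IsScalarTower.algebraMap_apply, ← IsScalarTower.algebraMap_apply] at h2
  have h3 : algebraMap S E zS = z := rfl
  rw [h3] at h2
  have h4 : algebraMap F E (MvPolynomial.coeff m Q) ≠ 0 := by
    simpa using hm
  rw [map_div₀, ← h2]
  field_simp

theorem exists_ringEquiv_ne_of_isAlgebraic {z : K} (hz : IsAlgebraic ℚ z)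
    (hzQ : z ∉ Set.range (algebraMap ℚ K)) : ∃ σ : K ≃+* K, σ z ≠ z := by
  obtain ⟨ι, v, hv⟩ := exists_isTranscendenceBasis' ℚ K
  let L := IntermediateField.adjoin ℚ (Set.range v)
  have : Algebra.IsAlgebraic L K := hv.isAlgebraic_field
  have : IsAlgClosure L K := ⟨inferInstance, inferInstance⟩
  have : IsGalois L K := IsAlgClosure.isGalois L K
  have hzL : z ∉ Set.range (algebraMap L K) := by
    rintro ⟨⟨w, hw⟩, rfl⟩
    exact notMem_adjoin_of_isAlgebraic hv.1 hz hzQ hw
  rw [InfiniteGalois.mem_range_algebraMap_iff_fixed] at hzL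
  simp only [not_forall] at hzL
  obtain ⟨f, hf⟩ := hzL
  exact ⟨f.toRingEquiv, hf⟩

/-- **E0**: every non-rational element of an algebraically closed field of characteristic zero is
moved by some ring automorphism. -/
theorem exists_ringEquiv_ne {z : K} (hzQ : z ∉ Set.range (algebraMap ℚ K)) :
    ∃ σ : K ≃+* K, σ z ≠ z := by
  by_cases hz : IsAlgebraic ℚ z
  · exact exists_ringEquiv_ne_of_isAlgebraic hz hzQ
  · exact exists_ringEquiv_ne_of_transcendental hz

/-- An element fixed by all ring automorphisms is rational. -/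
theorem mem_range_of_forall_ringEquiv_eq {z : K} (h : ∀ σ : K ≃+* K, σ z = z) :
    z ∈ Set.range (algebraMap ℚ K) := by
  by_contra hz
  obtain ⟨σ, hσ⟩ := exists_ringEquiv_ne hz
  exact hσ (h σ)


section LinearAlgebra

variable {k : Type*} [Field k]

/-- Pure linear algebra: in a finite-dimensional space with a separating family of functionals
`φ`, one can choose finitely many indices `idx j` and a family `e` that is dual to `φ ∘ idx`. -/
theorem exists_dual_family {V ι : Type*} [AddCommGroup V] [Module k V] [FiniteDimensional k V]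
    (φ : ι → Module.Dual k V) (hφ : ∀ v : V, (∀ i, φ i v = 0) → v = 0) :
    ∃ (n : ℕ) (idx : Fin n → ι) (e : Fin n → V),
      (∀ j l, φ (idx j) (e l) = if j = l then 1 else 0) ∧
      (∀ v : V, (∀ j, φ (idx j) v = 0) → v = 0) ∧
      (∀ v : V, v = ∑ l, φ (idx l) v • e l) := by
  classical
  -- the functionals span the dual
  have hspan : (⊤ : Submodule k (Module.Dual k V)) ≤ Submodule.span k (Set.range φ) := by
    have h0 : (Submodule.span k (Set.range φ)).dualCoannihilator = ⊥ := by
      rw [eq_bot_iff]
      intro v hv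
      rw [Submodule.mem_dualCoannihilator] at hv
      rw [Submodule.mem_bot]
      exact hφ v fun i => hv (φ i) (Submodule.subset_span ⟨i, rfl⟩)
    have h1 := Subspace.dualCoannihilator_dualAnnihilator_eq
      (W := Submodule.span k (Set.range φ))
    rw [h0, Submodule.dualAnnihilator_bot] at h1
    exact h1.le
  let b := Module.Basis.ofSpan hspan
  have hb_mem : ∀ x, b x ∈ Set.range φ := fun x =>
    Module.Basis.ofSpan_subset hspan ⟨x, rfl⟩
  have : Finite ((linearIndepOn_empty k id).extend (Set.empty_subset (Set.range φ))) :=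
    Module.Finite.finite_basis b
  have : Fintype ((linearIndepOn_empty k id).extend (Set.empty_subset (Set.range φ))) :=
    Fintype.ofFinite _
  let I := ((linearIndepOn_empty k id).extend (Set.empty_subset (Set.range φ)))
  let eqv : Fin (Fintype.card I) ≃ I := (Fintype.equivFin I).symm
  let b' : Module.Basis (Fin (Fintype.card I)) k (Module.Dual k V) := b.reindex eqv.symm
  have hb'_mem : ∀ j, b' j ∈ Set.range φ := fun j => by
    simp only [b', Module.Basis.reindex_apply]
    exact hb_mem _
  choose idx hidx using hb'_mem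
  let e : Fin (Fintype.card I) → V := fun l => (Module.evalEquiv k V).symm (b'.dualBasis l)
  have hdual : ∀ j l, φ (idx j) (e l) = if j = l then 1 else 0 := by
    intro j l
    rw [hidx j]
    have h1 : Module.evalEquiv k V (e l) = b'.dualBasis l := by
      simp [e]
    have h2 : (b' j) (e l) = Module.evalEquiv k V (e l) (b' j) := by
      simp [Module.evalEquiv]
    rw [h2, h1, Module.Basis.dualBasis_apply_self]
  have hsep : ∀ v : V, (∀ j, φ (idx j) v = 0) → v = 0 := by
    intro v hv
    rw [← Module.forall_dual_apply_eq_zero_iff k v]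
    intro f
    have hf : f = ∑ j, b'.repr f j • b' j := (b'.sum_repr f).symm
    rw [hf, LinearMap.sum_apply]
    refine Finset.sum_eq_zero fun j _ => ?_
    rw [LinearMap.smul_apply, ← hidx j, hv j, smul_zero]
  refine ⟨Fintype.card I, idx, e, hdual, hsep, fun v => ?_⟩
  rw [← sub_eq_zero]
  apply hsep
  intro j
  rw [map_sub, map_sum, sub_eq_zero]
  simp only [map_smul, hdual, smul_eq_mul, mul_ite, mul_one, mul_zero]
  simp

end LinearAlgebra

section Descent

variable {M ι : Type*} [AddCommGroup M] [Module K M]

/-- **E1 (abstract form)**: a finite-dimensional subspace stable under the semilinear action of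
all automorphisms of `K` is spanned by its rational points. -/
theorem span_rational_eq_of_stable
    (c : ι → M →ₗ[K] K) (hc : ∀ m : M, (∀ i, c i m = 0) → m = 0)
    (T : (K ≃+* K) → M → M) (hT : ∀ σ m i, c i (T σ m) = σ (c i m))
    (V : Submodule K M) [FiniteDimensional K V] (hV : ∀ σ, ∀ v ∈ V, T σ v ∈ V) :
    Submodule.span K {v | v ∈ V ∧ ∀ i, c i v ∈ Set.range (algebraMap ℚ K)} = V := by
  classical
  apply le_antisymm
  · exact Submodule.span_le.mpr fun v hv => hv.1
  · let φ : ι → Module.Dual K V := fun i => (c i).comp V.subtype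
    have hφ : ∀ v : V, (∀ i, φ i v = 0) → v = 0 := fun v hv =>
      Subtype.ext (hc v.1 hv)
    obtain ⟨n, idx, e, hdual, hsep, hsum⟩ := exists_dual_family φ hφ
    -- each `e l` is fixed by every automorphism
    have hfix : ∀ σ l, T σ (e l).1 = (e l).1 := by
      intro σ l
      have h1 : (⟨T σ (e l).1, hV σ _ (e l).2⟩ : V) - e l = 0 := by
        apply hsep
        intro j
        rw [map_sub, sub_eq_zero]
        show c (idx j) (T σ (e l).1) = φ (idx j) (e l)
        rw [hT]
        show σ (φ (idx j) (e l)) = φ (idx j) (e l)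
        rw [hdual]
        split_ifs <;> simp
      have h2 := congrArg Subtype.val (sub_eq_zero.mp h1)
      exact h2
    have hrat : ∀ l i, c i (e l).1 ∈ Set.range (algebraMap ℚ K) := by
      intro l i
      apply mem_range_of_forall_ringEquiv_eq
      intro σ
      rw [← hT, hfix]
    intro v hv
    have hv' := congrArg Subtype.val (hsum ⟨v, hv⟩)
    simp only [Submodule.coe_sum, Submodule.coe_smul] at hv'
    rw [hv']
    refine Submodule.sum_mem _ fun l _ => Submodule.smul_mem _ _ ?_
    exact Submodule.subset_span ⟨(e l).2, hrat l⟩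

/-- **E1** for power series: a finite-dimensional subspace of `K⟦X⟧` stable under the
coefficientwise action of all ring automorphisms of `K` is spanned by its elements with rational
coefficients. -/
theorem span_rational_eq_of_aut_stable (V : Submodule K (PowerSeries K)) [FiniteDimensional K V]
    (hV : ∀ σ : K ≃+* K, ∀ v ∈ V, PowerSeries.map (σ : K →+* K) v ∈ V) :
    Submodule.span K {v | v ∈ V ∧ ∀ n, ∃ r : ℚ, PowerSeries.coeff n v = (r : K)} = V := by
  have h := span_rational_eq_of_stable (K := K) (M := PowerSeries K) (ι := ℕ)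
    (fun n => PowerSeries.coeff n) (fun m hm => PowerSeries.ext hm)
    (fun σ v => PowerSeries.map (σ : K →+* K) v) (fun σ m i => by simp) V hV
  have hset : {v : PowerSeries K | v ∈ V ∧ ∀ n, ∃ r : ℚ, PowerSeries.coeff n v = (r : K)} =
      {v | v ∈ V ∧ ∀ i, PowerSeries.coeff i v ∈ Set.range (algebraMap ℚ K)} := by
    ext v
    simp only [Set.mem_ofPred_eq, Set.mem_range, eq_ratCast]
    constructor
    · rintro ⟨hv, h⟩
      exact ⟨hv, fun n => (h n).imp fun r hr => hr.symm⟩
    · rintro ⟨hv, h⟩
      exact ⟨hv, fun n => (h n).imp fun r hr => hr.symm⟩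
  rw [hset]
  exact h

end Descent

end Fermat.Agent.S23.H8
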