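import Mathlib

/-!
# (D) Analytic converse: forms-level core (helper58)

Let `D`, `G` be modular forms of weights `w`, `k + w` on an arithmetic subgroup `Γ`, `D ≠ 0`, and
let `R i` (`i < m`) be holomorphic functions on `ℍ`, `SL(2, ℤ)`-invariant of weight `(i + 1) k`
and bounded at `i∞`, such that
`G ^ m + ∑ i < m, R i * G ^ (m - 1 - i) * D ^ (i + 1) = 0`
(i.e. `G / D` is a root of `X ^ m + ∑ R i X ^ (m - 1 - i)`).  Then `G / D` is a modular form of
weight `k` on `Γ` (`conv_exists_modularForm`); it is a cusp form if all `R i` vanish at `i∞`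
(`conv_exists_cuspForm`).

All declarations are prefixed `conv_` and live in `Fermat.Agent.S23`.
-/

set_option autoImplicit false

open Filter Topology Set Function

namespace Fermat.Agent.S23

/-! ## Algebra -/

/-- The basic homogenisation identity. -/
theorem conv_homog_identity {A : Type*} [CommRing A] (m : ℕ) (c : ℕ → A) (x d : A) :
    (x * d) ^ m + ∑ i ∈ Finset.range m, c i * (x * d) ^ (m - 1 - i) * d ^ (i + 1)
      = d ^ m * (x ^ m + ∑ i ∈ Finset.range m, c i * x ^ (m - 1 - i)) := by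
  rw [mul_add, Finset.mul_sum, mul_pow, mul_comm (x ^ m)]
  congr 1
  refine Finset.sum_congr rfl fun i hi => ?_
  have hi' : i < m := Finset.mem_range.mp hi
  have hm : m = (m - 1 - i) + (i + 1) := by omega
  have : d ^ m = d ^ (m - 1 - i) * d ^ (i + 1) := by rw [← pow_add, ← hm]
  rw [this, mul_pow]
  ring

/-- A root of a monic polynomial is bounded by `max 1 (∑ ‖cᵢ‖)`. -/
theorem conv_norm_le_of_root {m : ℕ} (c : ℕ → ℂ) (x : ℂ)
    (h : x ^ m + ∑ i ∈ Finset.range m, c i * x ^ (m - 1 - i) = 0) :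
    ‖x‖ ≤ max 1 (∑ i ∈ Finset.range m, ‖c i‖) := by
  by_cases hx : ‖x‖ ≤ 1
  · exact le_max_of_le_left hx
  rw [not_le] at hx
  refine le_max_of_le_right ?_
  have hm : m ≠ 0 := by
    rintro rfl
    simp at h
  have hxm : x ^ m = -∑ i ∈ Finset.range m, c i * x ^ (m - 1 - i) := eq_neg_of_add_eq_zero_left h
  have h1 : ‖x‖ ^ m ≤ (∑ i ∈ Finset.range m, ‖c i‖) * ‖x‖ ^ (m - 1) := by
    rw [← norm_pow, hxm, norm_neg, Finset.sum_mul]
    refine (norm_sum_le _ _).trans (Finset.sum_le_sum fun i _ => ?_)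
    rw [norm_mul, norm_pow]
    exact mul_le_mul_of_nonneg_left (pow_le_pow_right₀ hx.le (by omega)) (norm_nonneg _)
  have hpos : 0 < ‖x‖ ^ (m - 1) := pow_pos (lt_trans one_pos hx) _
  have h2 : ‖x‖ ^ m = ‖x‖ * ‖x‖ ^ (m - 1) := by
    rw [← pow_succ']
    congr 1
    omega
  rw [h2] at h1
  exact le_of_mul_le_mul_right h1 hpos

/-- If the coefficients are small, then so is the root. -/
theorem conv_norm_pow_le_of_root {m : ℕ} (c : ℕ → ℂ) (x : ℂ)
    (h : x ^ m + ∑ i ∈ Finset.range m, c i * x ^ (m - 1 - i) = 0)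
    (hc : ∑ i ∈ Finset.range m, ‖c i‖ ≤ 1) :
    ‖x‖ ^ m ≤ ∑ i ∈ Finset.range m, ‖c i‖ := by
  have hx1 : ‖x‖ ≤ 1 := by
    have := conv_norm_le_of_root c x h
    rwa [max_eq_left hc] at this
  have hxm : x ^ m = -∑ i ∈ Finset.range m, c i * x ^ (m - 1 - i) := eq_neg_of_add_eq_zero_left h
  rw [← norm_pow, hxm, norm_neg]
  refine (norm_sum_le _ _).trans (Finset.sum_le_sum fun i _ => ?_)
  rw [norm_mul, norm_pow]
  exact mul_le_of_le_one_right (norm_nonneg _) (pow_le_one₀ (norm_nonneg _) hx1)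


/-! ## Complex analysis: removable singularities of a locally bounded quotient -/

/-- A holomorphic function on a preconnected open set which is not identically zero has
isolated zeros. -/
theorem conv_isolated_zeros {S : Set ℂ} (hS : IsOpen S) (hSc : IsPreconnected S) {Dc : ℂ → ℂ}
    (hDc : DifferentiableOn ℂ Dc S) (hne : ∃ z ∈ S, Dc z ≠ 0) :
    ∀ z ∈ S, ∀ᶠ w in 𝓝[≠] z, Dc w ≠ 0 := by
  intro z hz
  have hA : AnalyticOnNhd ℂ Dc S := hDc.analyticOnNhd hS
  rcases (hA z hz).eventually_eq_zero_or_eventually_ne_zero with h | h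
  · exfalso
    obtain ⟨z1, hz1, hz1'⟩ := hne
    exact hz1' (hA.eqOn_zero_of_preconnected_of_eventuallyEq_zero hSc hz h hz1)
  · exact h

/-- The quotient of two holomorphic functions, if locally bounded and the denominator has
isolated zeros, extends to a holomorphic function. -/
theorem conv_exists_quotient {S : Set ℂ} (hS : IsOpen S) {Dc Gc : ℂ → ℂ}
    (hDc : DifferentiableOn ℂ Dc S) (hGc : DifferentiableOn ℂ Gc S)
    (hiso : ∀ z ∈ S, ∀ᶠ w in 𝓝[≠] z, Dc w ≠ 0)
    (hbdd : ∀ z ∈ S, ∃ B : ℝ, ∀ᶠ w in 𝓝[≠] z, Dc w ≠ 0 → ‖Gc w / Dc w‖ ≤ B) :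
    ∃ Fc : ℂ → ℂ, DifferentiableOn ℂ Fc S ∧ ∀ z ∈ S, Fc z * Dc z = Gc z := by
  set q : ℂ → ℂ := fun w => Gc w / Dc w with hq
  set Fc : ℂ → ℂ := fun z => limUnder (𝓝[≠] z) q with hFc
  -- Claim 1
  have h1 : ∀ z ∈ S, Dc z ≠ 0 → Fc z = q z := by
    intro z hz hDz
    have hcont : ContinuousAt q z :=
      ((hGc.differentiableAt (hS.mem_nhds hz)).div
        (hDc.differentiableAt (hS.mem_nhds hz)) hDz).continuousAt
    exact (hcont.tendsto.mono_left nhdsWithin_le_nhds).limUnder_eq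
  -- Claim 2
  have h2 : ∀ z ∈ S, DifferentiableAt ℂ Fc z := by
    intro z0 hz0
    obtain ⟨B, hB⟩ := hbdd z0 hz0
    have hiso0 := hiso z0 hz0
    rw [eventually_nhdsWithin_iff] at hB hiso0
    have ht : {w | w ∈ S ∧ (w ∈ ({z0}ᶜ : Set ℂ) → Dc w ≠ 0) ∧
        (w ∈ ({z0}ᶜ : Set ℂ) → Dc w ≠ 0 → ‖Gc w / Dc w‖ ≤ B)} ∈ 𝓝 z0 := by
      filter_upwards [hS.mem_nhds hz0, hiso0, hB] with w hw1 hw2 hw3
      exact ⟨hw1, hw2, hw3⟩
    set s := interior {w | w ∈ S ∧ (w ∈ ({z0}ᶜ : Set ℂ) → Dc w ≠ 0) ∧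
        (w ∈ ({z0}ᶜ : Set ℂ) → Dc w ≠ 0 → ‖Gc w / Dc w‖ ≤ B)} with hs
    have hs_nhds : s ∈ 𝓝 z0 := interior_mem_nhds.mpr ht
    have hs_open : IsOpen s := isOpen_interior
    have hs_prop : ∀ w ∈ s, w ∈ S ∧ (w ≠ z0 → Dc w ≠ 0 ∧ ‖q w‖ ≤ B) := by
      intro w hw
      have := interior_subset hw
      exact ⟨this.1, fun hne => ⟨this.2.1 hne, this.2.2 hne (this.2.1 hne)⟩⟩
    have hd : DifferentiableOn ℂ q (s \ {z0}) := by
      intro w hw
      have hwS := (hs_prop w hw.1).1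
      have hwD := ((hs_prop w hw.1).2 hw.2).1
      exact ((hGc.differentiableAt (hS.mem_nhds hwS)).div
        (hDc.differentiableAt (hS.mem_nhds hwS)) hwD).differentiableWithinAt
    have hb : BddAbove (norm ∘ q '' (s \ {z0})) := by
      refine ⟨B, ?_⟩
      rintro _ ⟨w, hw, rfl⟩
      exact ((hs_prop w hw.1).2 hw.2).2
    have H := Complex.differentiableOn_update_limUnder_of_bddAbove hs_nhds hd hb
    have heq : Fc =ᶠ[𝓝 z0] update q z0 (limUnder (𝓝[≠] z0) q) := by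
      filter_upwards [hs_nhds] with w hw
      by_cases hwz : w = z0
      · subst hwz
        simp [hFc]
      · rw [update_of_ne hwz]
        exact h1 w (hs_prop w hw).1 ((hs_prop w hw).2 hwz).1
    exact (H.differentiableAt hs_nhds).congr_of_eventuallyEq heq
  refine ⟨Fc, fun z hz => (h2 z hz).differentiableWithinAt, ?_⟩
  intro z hz
  by_cases hDz : Dc z = 0
  · -- continuity argument
    have hF : Tendsto (fun w => Fc w * Dc w) (𝓝[≠] z) (𝓝 (Fc z * Dc z)) :=
      (((h2 z hz).continuousAt.mul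
        (hDc.differentiableAt (hS.mem_nhds hz)).continuousAt).tendsto).mono_left
        nhdsWithin_le_nhds
    have hG : Tendsto Gc (𝓝[≠] z) (𝓝 (Gc z)) :=
      ((hGc.differentiableAt (hS.mem_nhds hz)).continuousAt.tendsto).mono_left
        nhdsWithin_le_nhds
    have hev : (fun w => Fc w * Dc w) =ᶠ[𝓝[≠] z] Gc := by
      have hSev : ∀ᶠ w in 𝓝[≠] z, w ∈ S :=
        eventually_nhdsWithin_of_eventually_nhds (hS.mem_nhds hz)
      filter_upwards [hiso z hz, hSev] with w hw hwS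
      show Fc w * Dc w = Gc w
      rw [h1 w hwS hw, hq]
      field_simp
    exact tendsto_nhds_unique_of_eventuallyEq hF hG hev
  · rw [h1 z hz hDz, hq]
    field_simp



/-! ## The quotient on the upper half plane -/

open UpperHalfPlane
open scoped MatrixGroups ModularForm Manifold

theorem conv_root_of_rel {m : ℕ} (c : ℕ → ℂ) (g d : ℂ) (hd : d ≠ 0)
    (hrel : g ^ m + ∑ i ∈ Finset.range m, c i * g ^ (m - 1 - i) * d ^ (i + 1) = 0) :
    (g / d) ^ m + ∑ i ∈ Finset.range m, c i * (g / d) ^ (m - 1 - i) = 0 := by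
  have h := conv_homog_identity m c (g / d) d
  rw [div_mul_cancel₀ g hd, hrel] at h
  exact (mul_eq_zero.mp h.symm).resolve_left (pow_ne_zero m hd)

/-- Core: the quotient `G / D` extends to a holomorphic function on `ℍ`. -/
theorem conv_exists_quotient_uhp {D G : ℍ → ℂ} (hD : MDiff D) (hG : MDiff G) (hD0 : D ≠ 0)
    (m : ℕ) (R : ℕ → ℍ → ℂ) (hRc : ∀ i < m, Continuous (R i))
    (hrel : ∀ z, G z ^ m + ∑ i ∈ Finset.range m, R i z * G z ^ (m - 1 - i) * D z ^ (i + 1) = 0) :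
    ∃ F : ℍ → ℂ, MDiff F ∧ F * D = G := by
  set S : Set ℂ := upperHalfPlaneSet with hSdef
  have hS : IsOpen S := isOpen_upperHalfPlaneSet
  have hSc : IsPreconnected S := (convex_halfSpace_im_gt 0).isPreconnected
  have hDc : DifferentiableOn ℂ (D ∘ ofComplex) S := mdifferentiable_iff.mp hD
  have hGc : DifferentiableOn ℂ (G ∘ ofComplex) S := mdifferentiable_iff.mp hG
  have hne : ∃ z ∈ S, (D ∘ ofComplex) z ≠ 0 := by
    obtain ⟨τ, hτ⟩ := Function.ne_iff.mp hD0
    exact ⟨τ, τ.im_pos, by simpa using hτ⟩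
  have hiso := conv_isolated_zeros hS hSc hDc hne
  have hbdd : ∀ z ∈ S, ∃ B : ℝ, ∀ᶠ w in 𝓝[≠] z, (D ∘ ofComplex) w ≠ 0 →
      ‖(G ∘ ofComplex) w / (D ∘ ofComplex) w‖ ≤ B := by
    intro z hz
    set ρ : ℂ → ℝ := fun w => ∑ i ∈ Finset.range m, ‖R i (ofComplex w)‖ with hρ
    have hofc : ContinuousAt ofComplex z := (contMDiffAt_ofComplex (n := 0) hz).continuousAt
    have hρc : ContinuousAt ρ z := by
      refine tendsto_finsetSum _ fun i hi => ?_
      exact (((hRc i (Finset.mem_range.mp hi)).continuousAt.comp hofc).norm)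
    refine ⟨max 1 (ρ z + 1), ?_⟩
    have hev : ∀ᶠ w in 𝓝 z, ρ w < ρ z + 1 := hρc.eventually (gt_mem_nhds (by linarith))
    refine eventually_nhdsWithin_of_eventually_nhds ?_
    filter_upwards [hev] with w hw hDw
    have hroot := conv_root_of_rel (fun i => R i (ofComplex w)) (G (ofComplex w))
      (D (ofComplex w)) hDw (hrel (ofComplex w))
    exact (conv_norm_le_of_root _ _ hroot).trans (max_le_max le_rfl hw.le)
  obtain ⟨Fc, hFc, hFD⟩ := conv_exists_quotient hS hDc hGc hiso hbdd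
  refine ⟨fun τ => Fc τ, ?_, ?_⟩
  · rw [mdifferentiable_iff]
    refine hFc.congr fun z hz => ?_
    simp [ofComplex_apply_of_im_pos hz]
  · ext τ
    have := hFD τ τ.im_pos
    simpa using this

/-- The quotient is a root of the monic polynomial. -/
theorem conv_root_uhp {D G F : ℍ → ℂ} (hD : MDiff D) (hF : MDiff F) (hD0 : D ≠ 0)
    (hFD : F * D = G) (m : ℕ) (R : ℕ → ℍ → ℂ) (hR : ∀ i < m, MDiff (R i))
    (hrel : ∀ z, G z ^ m + ∑ i ∈ Finset.range m, R i z * G z ^ (m - 1 - i) * D z ^ (i + 1) = 0)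
    (z : ℍ) : F z ^ m + ∑ i ∈ Finset.range m, R i z * F z ^ (m - 1 - i) = 0 := by
  set P : ℍ → ℂ := F ^ m + ∑ i ∈ Finset.range m, R i * F ^ (m - 1 - i) with hP
  have hPd : MDiff P :=
    (hF.pow m).add (MDifferentiable.sum fun i hi => (hR i (Finset.mem_range.mp hi)).mul (hF.pow _))
  have hzero : D ^ m * P = 0 := by
    ext τ
    have h := conv_homog_identity m (fun i => R i τ) (F τ) (D τ)
    have hG : F τ * D τ = G τ := congrFun hFD τ
    rw [hG, hrel τ] at h
    simpa [hP, Finset.sum_apply] using h.symm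
  rcases (UpperHalfPlane.mul_eq_zero_iff (hD.pow m) hPd).mp hzero with h | h
  · exfalso
    apply hD0
    ext τ
    have := congrFun h τ
    simp only [Pi.pow_apply, Pi.zero_apply] at this
    exact eq_zero_of_pow_eq_zero this
  · have := congrFun h z
    simpa [hP, Finset.sum_apply] using this

/-- The quotient is slash-invariant. -/
theorem conv_slash_eq {D G F : ℍ → ℂ} (hD : MDiff D) (hF : MDiff F) (hD0 : D ≠ 0)
    (hFD : F * D = G) (k w : ℤ) (γ : GL (Fin 2) ℝ) (hγ : |(γ.det : ℝ)| = 1)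
    (hDγ : D ∣[w] γ = D) (hGγ : G ∣[k + w] γ = G) : F ∣[k] γ = F := by
  have h1 : (F ∣[k] γ) * D = F * D := by
    have := ModularForm.mul_slash k w γ F D
    rw [hFD, hGγ, hγ, one_smul, hDγ] at this
    rw [hFD]
    exact this.symm
  have h2 : (F ∣[k] γ - F) * D = 0 := by rw [sub_mul, h1, sub_self]
  rcases (UpperHalfPlane.mul_eq_zero_iff ((hF.slash k γ).sub hF) hD).mp h2 with h | h
  · exact sub_eq_zero.mp h
  · exact absurd h hD0



/-- Every `SL(2, ℤ)`-translate of the quotient is a root of the same monic polynomial. -/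
theorem conv_slash_root (k : ℤ) (m : ℕ) (F : ℍ → ℂ) (R : ℕ → ℍ → ℂ)
    (hRinv : ∀ i < m, ∀ δ : SL(2, ℤ), (R i) ∣[((i : ℤ) + 1) * k] δ = R i)
    (hF : ∀ z, F z ^ m + ∑ i ∈ Finset.range m, R i z * F z ^ (m - 1 - i) = 0)
    (δ : SL(2, ℤ)) (z : ℍ) :
    (F ∣[k] δ) z ^ m + ∑ i ∈ Finset.range m, R i z * (F ∣[k] δ) z ^ (m - 1 - i) = 0 := by
  set u : ℂ := denom δ z ^ (-k) with hu
  have hFδ : (F ∣[k] δ) z = F (δ • z) * u := ModularForm.SL_slash_apply F δ z
  have hRδ : ∀ i < m, R i z = R i (δ • z) * u ^ (i + 1) := by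
    intro i hi
    have h1 := congrFun (hRinv i hi δ) z
    rw [ModularForm.SL_slash_apply] at h1
    rw [← h1]
    congr 1
    rw [hu, ← zpow_natCast, ← zpow_mul]
    congr 1
    push_cast
    ring
  have h := conv_homog_identity m (fun i => R i (δ • z)) (F (δ • z)) u
  rw [hF (δ • z), mul_zero] at h
  rw [hFδ, ← h]
  congr 1
  refine Finset.sum_congr rfl fun i hi => ?_
  rw [hRδ i (Finset.mem_range.mp hi)]
  ring

/-- A root of a monic polynomial with coefficients bounded at `i∞` is bounded at `i∞`. -/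
theorem conv_isBoundedAtImInfty_of_root (m : ℕ) (H : ℍ → ℂ) (R : ℕ → ℍ → ℂ)
    (hRb : ∀ i < m, IsBoundedAtImInfty (R i))
    (hH : ∀ z, H z ^ m + ∑ i ∈ Finset.range m, R i z * H z ^ (m - 1 - i) = 0) :
    IsBoundedAtImInfty H := by
  have hsum : ∃ M A : ℝ, ∀ z : ℍ, A ≤ im z → ∑ i ∈ Finset.range m, ‖R i z‖ ≤ M := by
    have : ∀ n ≤ m, ∃ M A : ℝ, ∀ z : ℍ, A ≤ im z → ∑ i ∈ Finset.range n, ‖R i z‖ ≤ M := by
      intro n
      induction n with
      | zero => exact fun _ => ⟨0, 0, fun z _ => by simp⟩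
      | succ n ih =>
        intro hn
        obtain ⟨M, A, hMA⟩ := ih (by omega)
        obtain ⟨M', A', hMA'⟩ := isBoundedAtImInfty_iff.mp (hRb n (by omega))
        refine ⟨M + M', max A A', fun z hz => ?_⟩
        rw [Finset.sum_range_succ]
        exact add_le_add (hMA z ((le_max_left _ _).trans hz)) (hMA' z ((le_max_right _ _).trans hz))
    exact this m le_rfl
  obtain ⟨M, A, hMA⟩ := hsum
  rw [isBoundedAtImInfty_iff]
  refine ⟨max 1 M, A, fun z hz => ?_⟩
  exact (conv_norm_le_of_root _ _ (hH z)).trans (max_le_max le_rfl (hMA z hz))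

/-- A root of a monic polynomial with coefficients vanishing at `i∞` vanishes at `i∞`. -/
theorem conv_isZeroAtImInfty_of_root (m : ℕ) (H : ℍ → ℂ) (R : ℕ → ℍ → ℂ)
    (hRz : ∀ i < m, IsZeroAtImInfty (R i))
    (hH : ∀ z, H z ^ m + ∑ i ∈ Finset.range m, R i z * H z ^ (m - 1 - i) = 0) :
    IsZeroAtImInfty H := by
  have hm : m ≠ 0 := by
    rintro rfl
    have := hH UpperHalfPlane.I
    simp at this
  have hsum : ∀ ε : ℝ, 0 < ε → ∃ A : ℝ, ∀ z : ℍ, A ≤ im z →
      ∑ i ∈ Finset.range m, ‖R i z‖ ≤ ε := by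
    intro ε hε
    have : ∀ n ≤ m, ∃ A : ℝ, ∀ z : ℍ, A ≤ im z →
        ∑ i ∈ Finset.range n, ‖R i z‖ ≤ n * (ε / m) := by
      intro n
      induction n with
      | zero => exact fun _ => ⟨0, fun z _ => by simp⟩
      | succ n ih =>
        intro hn
        obtain ⟨A, hA⟩ := ih (by omega)
        obtain ⟨A', hA'⟩ := isZeroAtImInfty_iff.mp (hRz n (by omega)) (ε / m)
          (div_pos hε (by exact_mod_cast Nat.pos_of_ne_zero hm))
        refine ⟨max A A', fun z hz => ?_⟩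
        rw [Finset.sum_range_succ]
        have := add_le_add (hA z ((le_max_left _ _).trans hz)) (hA' z ((le_max_right _ _).trans hz))
        refine this.trans (le_of_eq ?_)
        push_cast
        ring
    obtain ⟨A, hA⟩ := this m le_rfl
    refine ⟨A, fun z hz => (hA z hz).trans (le_of_eq ?_)⟩
    have : (m : ℝ) ≠ 0 := by exact_mod_cast hm
    field_simp
  rw [isZeroAtImInfty_iff]
  intro ε hε
  obtain ⟨A, hA⟩ := hsum (min 1 (ε ^ m)) (lt_min one_pos (pow_pos hε m))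
  refine ⟨A, fun z hz => ?_⟩
  have h1 := hA z hz
  have h2 := conv_norm_pow_le_of_root _ _ (hH z) (h1.trans (min_le_left _ _))
  have h3 : ‖H z‖ ^ m ≤ ε ^ m := h2.trans (h1.trans (min_le_right _ _))
  exact le_of_pow_le_pow_left₀ hm hε.le h3



/-! ## Packaging -/

/-- **Analytic converse, forms level.** If `G / D` is a root of a monic polynomial whose
coefficients are holomorphic, `SL(2, ℤ)`-invariant (of the right weights) and bounded at `i∞`,
then `G / D` is a modular form. -/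
theorem conv_exists_modularForm {Γ : Subgroup (GL (Fin 2) ℝ)} [Γ.IsArithmetic] (k w : ℤ)
    (D : ModularForm Γ w) (hD0 : (D : ℍ → ℂ) ≠ 0) (G : ModularForm Γ (k + w)) (m : ℕ)
    (R : ℕ → ℍ → ℂ) (hR : ∀ i < m, MDiff (R i))
    (hRinv : ∀ i < m, ∀ δ : SL(2, ℤ), (R i) ∣[((i : ℤ) + 1) * k] δ = R i)
    (hRb : ∀ i < m, IsBoundedAtImInfty (R i))
    (hrel : ∀ z, G z ^ m + ∑ i ∈ Finset.range m, R i z * G z ^ (m - 1 - i) * D z ^ (i + 1) = 0) :
    ∃ F : ModularForm Γ k, ∀ z, F z * D z = G z := by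
  have hDh : MDiff (D : ℍ → ℂ) := ModularFormClass.holo D
  have hGh : MDiff (G : ℍ → ℂ) := ModularFormClass.holo G
  obtain ⟨F, hF, hFD⟩ := conv_exists_quotient_uhp hDh hGh hD0 m R
    (fun i hi => (hR i hi).continuous) hrel
  have hroot := conv_root_uhp hDh hF hD0 hFD m R hR hrel
  refine ⟨{ toFun := F, slash_action_eq' := ?_, holo' := hF, bdd_at_cusps' := ?_ },
    fun z => congrFun hFD z⟩
  · intro γ hγ
    exact conv_slash_eq hDh hF hD0 hFD k w γ (Subgroup.HasDetPlusMinusOne.abs_det hγ)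
      (SlashInvariantFormClass.slash_action_eq D γ hγ)
      (SlashInvariantFormClass.slash_action_eq G γ hγ)
  · intro c hc
    rw [Subgroup.IsArithmetic.isCusp_iff_isCusp_SL2Z] at hc
    rw [OnePoint.isBoundedAt_iff_forall_SL2Z hc]
    intro δ _
    exact conv_isBoundedAtImInfty_of_root m _ R hRb (conv_slash_root k m F R hRinv hroot δ)

/-- **Analytic converse, forms level, cusp form version.** -/
theorem conv_exists_cuspForm {Γ : Subgroup (GL (Fin 2) ℝ)} [Γ.IsArithmetic] (k w : ℤ)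
    (D : ModularForm Γ w) (hD0 : (D : ℍ → ℂ) ≠ 0) (G : ModularForm Γ (k + w)) (m : ℕ)
    (R : ℕ → ℍ → ℂ) (hR : ∀ i < m, MDiff (R i))
    (hRinv : ∀ i < m, ∀ δ : SL(2, ℤ), (R i) ∣[((i : ℤ) + 1) * k] δ = R i)
    (hRz : ∀ i < m, IsZeroAtImInfty (R i))
    (hrel : ∀ z, G z ^ m + ∑ i ∈ Finset.range m, R i z * G z ^ (m - 1 - i) * D z ^ (i + 1) = 0) :
    ∃ F : CuspForm Γ k, ∀ z, F z * D z = G z := by
  have hDh : MDiff (D : ℍ → ℂ) := ModularFormClass.holo D
  have hGh : MDiff (G : ℍ → ℂ) := ModularFormClass.holo G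
  obtain ⟨F, hF, hFD⟩ := conv_exists_quotient_uhp hDh hGh hD0 m R
    (fun i hi => (hR i hi).continuous) hrel
  have hroot := conv_root_uhp hDh hF hD0 hFD m R hR hrel
  refine ⟨{ toFun := F, slash_action_eq' := ?_, holo' := hF, zero_at_cusps' := ?_ },
    fun z => congrFun hFD z⟩
  · intro γ hγ
    exact conv_slash_eq hDh hF hD0 hFD k w γ (Subgroup.HasDetPlusMinusOne.abs_det hγ)
      (SlashInvariantFormClass.slash_action_eq D γ hγ)
      (SlashInvariantFormClass.slash_action_eq G γ hγ)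
  · intro c hc
    rw [Subgroup.IsArithmetic.isCusp_iff_isCusp_SL2Z] at hc
    rw [OnePoint.isZeroAt_iff_forall_SL2Z hc]
    intro δ _
    exact conv_isZeroAtImInfty_of_root m _ R hRz (conv_slash_root k m F R hRinv hroot δ)

end Fermat.Agent.S23
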