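import Mathlib
import Fermat.Prelude.Def_CuspForm_IntegralStructure

/-!
# S23 / S22 project: shared definitions

`G0 N` is `Γ₀(N)` as a subgroup of `GL(2,ℝ)`; `𝒮ℒ` is `SL(2,ℤ)` inside `GL(2,ℝ)`.
All q-expansions are `UpperHalfPlane.qExpansion 1`.
-/

set_option autoImplicit false

namespace Fermat.Agent.S23

open UpperHalfPlane
open scoped MatrixGroups

/-- `Γ₀(N)` as a subgroup of `GL(2,ℝ)` (reducible, so it unifies with the coercion used in the
frozen statements). -/
abbrev G0 (N : ℕ) : Subgroup (GL (Fin 2) ℝ) :=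
  (CongruenceSubgroup.Gamma0 N).map (Matrix.SpecialLinearGroup.mapGL ℝ)

/-- The coset space `SL(2,ℤ) / Γ₀(N)` indexing the conjugates `f ∣[k] g⁻¹` of a form `f` of level
`Γ₀(N)` (this is the index type of `SlashInvariantForm.quotientFunc`). -/
abbrev Q0 (N : ℕ) : Type := ↥𝒮ℒ ⧸ (G0 N).subgroupOf 𝒮ℒ

noncomputable instance instFintypeQ0 (N : ℕ) [NeZero N] : Fintype (Q0 N) := Fintype.ofFinite _

/-- `h` is the `q`-expansion of a modular form of weight `k` on `Γ`. -/
def IsQM (Γ : Subgroup (GL (Fin 2) ℝ)) (k : ℤ) (h : PowerSeries ℂ) : Prop :=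
  ∃ f : ModularForm Γ k, qExpansion 1 f = h

/-- `h` is the `q`-expansion of a cusp form of weight `k` on `Γ`. -/
def IsQS (Γ : Subgroup (GL (Fin 2) ℝ)) (k : ℤ) (h : PowerSeries ℂ) : Prop :=
  ∃ f : CuspForm Γ k, qExpansion 1 f = h

/-- all coefficients are (images of) integers -/
def IsIntSeries (h : PowerSeries ℂ) : Prop :=
  ∀ n : ℕ, ∃ m : ℤ, PowerSeries.coeff n h = (m : ℂ)

/-- all coefficients are (images of) rationals -/
def IsRatSeries (h : PowerSeries ℂ) : Prop :=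
  ∀ n : ℕ, ∃ m : ℚ, PowerSeries.coeff n h = (m : ℂ)

/-- The `ℂ`-span of the `q`-expansions of weight-`k` modular forms on `Γ` with integer
coefficients. -/
def intSpanM (Γ : Subgroup (GL (Fin 2) ℝ)) (k : ℤ) : Submodule ℂ (PowerSeries ℂ) :=
  Submodule.span ℂ {h | IsQM Γ k h ∧ IsIntSeries h}

end Fermat.Agent.S23
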