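import Mathlib

/-!
# (F) `ℤ⟦q⟧` is integrally closed (helper77).

`PowerSeries ℤ` is a UFD (Mathlib instance), hence integrally closed. So a power series
`x ∈ ℚ⟦q⟧` which is a fraction `G / D` of integral power series and a root of a monic polynomial
over `ℤ⟦q⟧` has integer coefficients.
-/

set_option autoImplicit false

namespace Fermat.Agent.S23

/-- General form: let `R` be an integrally closed domain, `φ : R →+* S` an injective ring
homomorphism into a domain, `x : S` a root of a monic polynomial over `R` with
`x * φ D = φ G`, `D ≠ 0`. Then `x` is in the range of `φ`. -/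
theorem mem_range_of_frac_of_isIntegralElem {R S : Type*} [CommRing R] [IsDomain R]
    [IsIntegrallyClosed R] [CommRing S] [IsDomain S] (φ : R →+* S)
    (hφ : Function.Injective φ) (x : S) (D G : R) (hD : D ≠ 0) (h1 : x * φ D = φ G)
    (hx : φ.IsIntegralElem x) : ∃ y : R, φ y = x := by
  classical
  obtain ⟨P, hPm, hP0⟩ := hx
  set K := FractionRing R with hK
  set L := FractionRing S with hL
  let ψ : R →+* L := (algebraMap S L).comp φ
  have hψ : Function.Injective ψ :=
    (IsFractionRing.injective S L).comp hφ
  let Φ : K →+* L := IsFractionRing.lift hψ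
  have hΦ : ∀ a : R, Φ (algebraMap R K a) = algebraMap S L (φ a) := fun a => by
    simpa [ψ] using IsFractionRing.lift_algebraMap hψ a
  have hDK : algebraMap R K D ≠ 0 := by
    simpa using (IsFractionRing.injective R K).ne hD
  have hDL : algebraMap S L (φ D) ≠ 0 := by
    have : φ D ≠ 0 := by
      intro h
      exact hD (hφ (by simpa using h))
    simpa using (IsFractionRing.injective S L).ne this
  set κ : K := algebraMap R K G / algebraMap R K D with hκ
  have hκL : Φ κ = algebraMap S L x := by
    rw [hκ, map_div₀, hΦ, hΦ, div_eq_iff hDL, ← map_mul, h1]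
  have hint : IsIntegral R κ := by
    refine ⟨P, hPm, ?_⟩
    apply Φ.injective
    rw [Polynomial.hom_eval₂, map_zero, hκL]
    have : Φ.comp (algebraMap R K) = (algebraMap S L).comp φ := by
      ext a
      exact hΦ a
    rw [this, ← Polynomial.hom_eval₂, hP0, map_zero]
  obtain ⟨y, hy⟩ := IsIntegrallyClosed.isIntegral_iff.mp hint
  refine ⟨y, ?_⟩
  have h2 : Φ (algebraMap R K y) = algebraMap S L x := by rw [hy, hκL]
  rw [hΦ] at h2
  exact IsFractionRing.injective S L h2

/-- (F) fraction + integral ⇒ integral coefficients -/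
theorem int_of_frac_of_integral (x : PowerSeries ℚ) (D G : PowerSeries ℤ) (hD : D ≠ 0)
    (h1 : x * D.map (Int.castRingHom ℚ) = G.map (Int.castRingHom ℚ))
    (m : ℕ) (r : ℕ → PowerSeries ℤ)
    (h2 : x ^ m + ∑ i ∈ Finset.range m, (r i).map (Int.castRingHom ℚ) * x ^ (m - 1 - i) = 0) :
    ∃ y : PowerSeries ℤ, y.map (Int.castRingHom ℚ) = x := by
  classical
  have hφ : Function.Injective (PowerSeries.map (Int.castRingHom ℚ)) :=
    PowerSeries.map_injective _ (RingHom.injective_int _)
  refine mem_range_of_frac_of_isIntegralElem (PowerSeries.map (Int.castRingHom ℚ)) hφ x D G hD h1 ?_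
  refine ⟨Polynomial.X ^ m + ∑ i ∈ Finset.range m, Polynomial.C (r i) * Polynomial.X ^ (m - 1 - i),
    ?_, ?_⟩
  · apply Polynomial.monic_X_pow_add
    refine lt_of_le_of_lt (Polynomial.degree_sum_le _ _) ?_
    rw [Finset.sup_lt_iff (by exact WithBot.bot_lt_coe m)]
    intro i hi
    have hi' : i < m := Finset.mem_range.mp hi
    refine lt_of_le_of_lt (Polynomial.degree_C_mul_X_pow_le _ _) ?_
    exact_mod_cast (by omega : m - 1 - i < m)
  · simpa [Polynomial.eval₂_add, Polynomial.eval₂_finsetSum] using h2

end Fermat.Agent.S23
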