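import Fermat.Agent.S23.Coeff
import Fermat.Agent.S23.Normality

/-!
# (F3) Bounded denominators: scaling bookkeeping around `int_of_frac_of_integral` (helper23).
-/

set_option autoImplicit false

namespace Fermat.Agent.S23

theorem exists_int_series (z : PowerSeries ℚ) (h : ∀ n, ∃ a : ℤ, PowerSeries.coeff n z = a) :
    ∃ y : PowerSeries ℤ, y.map (Int.castRingHom ℚ) = z := by
  choose a ha using h
  exact ⟨PowerSeries.mk a, by ext n; simp [ha]⟩

theorem HasBddDenom.exists_scaled {z : PowerSeries ℚ} (h : HasBddDenom z) :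
    ∃ M : ℤ, M ≠ 0 ∧ ∃ y : PowerSeries ℤ, y.map (Int.castRingHom ℚ) = (M : ℚ) • z := by
  obtain ⟨M, hM, ha⟩ := h
  refine ⟨M, hM, exists_int_series _ fun n => ?_⟩
  obtain ⟨a, ha⟩ := ha n
  exact ⟨a, by rw [PowerSeries.coeff_smul, smul_eq_mul, ha]⟩

/-- a common denominator for finitely many series with bounded denominators -/
theorem exists_common_denom (m : ℕ) (r : ℕ → PowerSeries ℚ) (hr : ∀ i < m, HasBddDenom (r i)) :
    ∃ M : ℤ, M ≠ 0 ∧ ∀ i < m, ∀ n : ℕ, ∃ a : ℤ, (M : ℚ) * PowerSeries.coeff n (r i) = a := by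
  induction m with
  | zero => exact ⟨1, one_ne_zero, fun i hi => absurd hi (Nat.not_lt_zero i)⟩
  | succ m ih =>
    obtain ⟨M, hM, hMr⟩ := ih fun i hi => hr i (Nat.lt_succ_of_lt hi)
    obtain ⟨M', hM', hM'r⟩ := hr m (Nat.lt_succ_self m)
    refine ⟨M * M', mul_ne_zero hM hM', fun i hi n => ?_⟩
    rcases Nat.lt_succ_iff_lt_or_eq.mp hi with h | rfl
    · obtain ⟨a, ha⟩ := hMr i h n
      exact ⟨M' * a, by push_cast; rw [← ha]; ring⟩
    · obtain ⟨a, ha⟩ := hM'r n
      exact ⟨M * a, by push_cast; rw [← ha]; ring⟩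

theorem map_C_mul_int (c : ℤ) (y : PowerSeries ℤ) :
    (PowerSeries.C c * y).map (Int.castRingHom ℚ) = (c : ℚ) • y.map (Int.castRingHom ℚ) := by
  ext n
  rw [map_mul, PowerSeries.map_C, PowerSeries.coeff_C_mul, PowerSeries.coeff_smul]
  simp

/-- (F3) bounded-denominator version. -/
theorem bddDenom_of_frac_of_integral (x D G : PowerSeries ℚ) (hD : D ≠ 0)
    (hDb : HasBddDenom D) (hGb : HasBddDenom G) (h1 : x * D = G)
    (m : ℕ) (r : ℕ → PowerSeries ℚ) (hr : ∀ i < m, HasBddDenom (r i))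
    (h2 : x ^ m + ∑ i ∈ Finset.range m, r i * x ^ (m - 1 - i) = 0) :
    HasBddDenom x := by
  obtain ⟨M, hM, hMr⟩ := exists_common_denom m r hr
  obtain ⟨MD, hMD, yD, hyD⟩ := hDb.exists_scaled
  obtain ⟨MG, hMG, yG, hyG⟩ := hGb.exists_scaled
  have hMQ : (M : ℚ) ≠ 0 := by exact_mod_cast hM
  have hMDQ : (MD : ℚ) ≠ 0 := by exact_mod_cast hMD
  have hMGQ : (MG : ℚ) ≠ 0 := by exact_mod_cast hMG
  -- integral versions of the coefficients
  have hr' : ∀ i : ℕ, ∃ y : PowerSeries ℤ, i < m →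
      y.map (Int.castRingHom ℚ) = ((M : ℚ) ^ (i + 1)) • r i := by
    intro i
    by_cases hi : i < m
    · obtain ⟨y, hy⟩ := exists_int_series (((M : ℚ) ^ (i + 1)) • r i) fun n => by
        obtain ⟨a, ha⟩ := hMr i hi n
        refine ⟨M ^ i * a, ?_⟩
        rw [PowerSeries.coeff_smul, smul_eq_mul]
        push_cast
        rw [← ha]; ring
      exact ⟨y, fun _ => hy⟩
    · exact ⟨0, fun h => absurd h hi⟩
  choose ρ hρ using hr'
  have hD' : (PowerSeries.C MG * yD).map (Int.castRingHom ℚ) = ((MG : ℚ) * MD) • D := by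
    rw [map_C_mul_int, hyD, smul_smul]
  have hG' : (PowerSeries.C (M * MD) * yG).map (Int.castRingHom ℚ) =
      ((M : ℚ) * MD * MG) • G := by
    rw [map_C_mul_int, hyG, smul_smul]; push_cast; rfl
  -- apply (F1) to `M • x`
  obtain ⟨y, hy⟩ := int_of_frac_of_integral ((M : ℚ) • x) (PowerSeries.C MG * yD)
    (PowerSeries.C (M * MD) * yG)
    (by
      intro h0
      apply hD
      have h3 : (PowerSeries.C MG * yD).map (Int.castRingHom ℚ) = 0 := by rw [h0]; simp
      rw [hD'] at h3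
      have h5 : ((MG : ℚ) * MD) ≠ 0 := mul_ne_zero hMGQ hMDQ
      exact (smul_eq_zero.mp h3).resolve_left h5)
    (by
      rw [hD', hG', ← h1, smul_mul_smul_comm]
      congr 1
      ring)
    m ρ
    (by
      have key : ((M : ℚ) • x) ^ m + ∑ i ∈ Finset.range m,
          (ρ i).map (Int.castRingHom ℚ) * ((M : ℚ) • x) ^ (m - 1 - i) =
          ((M : ℚ) ^ m) • (x ^ m + ∑ i ∈ Finset.range m, r i * x ^ (m - 1 - i)) := by
        rw [smul_add, Finset.smul_sum, smul_pow]
        congr 1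
        refine Finset.sum_congr rfl fun i hi => ?_
        have hi' : i < m := Finset.mem_range.mp hi
        rw [hρ i hi', smul_pow, smul_mul_smul_comm, ← pow_add]
        congr 2
        omega
      rw [key, h2, smul_zero])
  refine ⟨M, hM, fun n => ?_⟩
  have := congrArg (PowerSeries.coeff n) hy
  simp only [PowerSeries.coeff_map, PowerSeries.coeff_smul, smul_eq_mul, eq_intCast] at this
  exact ⟨_, this.symm⟩

end Fermat.Agent.S23
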