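import Fermat.Agent.S23.IntSpan

/-!
# Coefficientwise `ℚ`-linear retractions `ℂ → ℚ` and bounded denominators (helper23).
-/

set_option autoImplicit false

namespace Fermat.Agent.S23

open UpperHalfPlane
open scoped MatrixGroups

/-- a rational power series has bounded denominators -/
def HasBddDenom (x : PowerSeries ℚ) : Prop :=
  ∃ M : ℤ, M ≠ 0 ∧ ∀ n : ℕ, ∃ a : ℤ, (M : ℚ) * PowerSeries.coeff n x = a

/-- apply a `ℚ`-linear functional `ℂ → ℚ` to every coefficient -/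
noncomputable def coeffMap (l : ℂ →ₗ[ℚ] ℚ) (h : PowerSeries ℂ) : PowerSeries ℚ :=
  PowerSeries.mk fun n => l (PowerSeries.coeff n h)

@[simp] theorem coeff_coeffMap (l : ℂ →ₗ[ℚ] ℚ) (h : PowerSeries ℂ) (n : ℕ) :
    PowerSeries.coeff n (coeffMap l h) = l (PowerSeries.coeff n h) := by
  simp [coeffMap]

theorem coeffMap_zero (l : ℂ →ₗ[ℚ] ℚ) : coeffMap l 0 = 0 := by
  ext n; simp

theorem coeffMap_add (l : ℂ →ₗ[ℚ] ℚ) (h₁ h₂ : PowerSeries ℂ) :
    coeffMap l (h₁ + h₂) = coeffMap l h₁ + coeffMap l h₂ := by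
  ext n; simp

theorem coeffMap_sum {ι : Type*} (l : ℂ →ₗ[ℚ] ℚ) (s : Finset ι) (h : ι → PowerSeries ℂ) :
    coeffMap l (∑ i ∈ s, h i) = ∑ i ∈ s, coeffMap l (h i) := by
  ext n; simp [map_sum]

theorem coeffMap_rat_mul (l : ℂ →ₗ[ℚ] ℚ) (x : PowerSeries ℚ) (h : PowerSeries ℂ) :
    coeffMap l (x.map (algebraMap ℚ ℂ) * h) = x * coeffMap l h := by
  ext n
  simp only [coeff_coeffMap, PowerSeries.coeff_mul, PowerSeries.coeff_map, map_sum]
  refine Finset.sum_congr rfl fun p _ => ?_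
  have : (algebraMap ℚ ℂ) (PowerSeries.coeff p.1 x) * PowerSeries.coeff p.2 h =
      (PowerSeries.coeff p.1 x) • PowerSeries.coeff p.2 h := by
    rw [Algebra.smul_def]
  rw [this, map_smul, smul_eq_mul]

theorem coeffMap_mul_rat (l : ℂ →ₗ[ℚ] ℚ) (x : PowerSeries ℚ) (h : PowerSeries ℂ) :
    coeffMap l (h * x.map (algebraMap ℚ ℂ)) = coeffMap l h * x := by
  rw [mul_comm, coeffMap_rat_mul, mul_comm]

theorem coeffMap_one (l : ℂ →ₗ[ℚ] ℚ) (hl : l 1 = 1) : coeffMap l 1 = 1 := by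
  ext n
  by_cases hn : n = 0
  · simp [hn, hl]
  · simp [PowerSeries.coeff_one, hn]

theorem coeffMap_rat (l : ℂ →ₗ[ℚ] ℚ) (hl : l 1 = 1) (x : PowerSeries ℚ) :
    coeffMap l (x.map (algebraMap ℚ ℂ)) = x := by
  have := coeffMap_rat_mul l x 1
  rwa [mul_one, coeffMap_one l hl, mul_one] at this

/-- there is a `ℚ`-linear retraction `ℂ → ℚ` -/
theorem exists_retraction : ∃ l : ℂ →ₗ[ℚ] ℚ, l 1 = 1 := by
  obtain ⟨f, hf⟩ := not_forall.mp
    ((Module.forall_dual_apply_eq_zero_iff ℚ (1 : ℂ)).not.mpr one_ne_zero)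
  refine ⟨(f 1)⁻¹ • f, ?_⟩
  simp [inv_mul_cancel₀ hf]

/-- nonzero complex power series stay nonzero under a suitable coefficientwise functional -/
theorem exists_coeffMap_ne_zero {D : PowerSeries ℂ} (hD : D ≠ 0) :
    ∃ l : ℂ →ₗ[ℚ] ℚ, coeffMap l D ≠ 0 := by
  obtain ⟨n, hn⟩ : ∃ n, PowerSeries.coeff n D ≠ 0 := by
    by_contra hcon
    exact hD (PowerSeries.ext fun n => by
      have := not_exists.mp hcon n
      simpa using this)
  obtain ⟨f, hf⟩ := not_forall.mp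
    ((Module.forall_dual_apply_eq_zero_iff ℚ (PowerSeries.coeff n D)).not.mpr hn)
  refine ⟨f, fun h0 => hf ?_⟩
  have := congrArg (PowerSeries.coeff n) h0
  simpa using this

theorem hasBddDenom_zero : HasBddDenom 0 := ⟨1, one_ne_zero, fun n => ⟨0, by simp⟩⟩

theorem HasBddDenom.add {x y : PowerSeries ℚ} (hx : HasBddDenom x) (hy : HasBddDenom y) :
    HasBddDenom (x + y) := by
  obtain ⟨M, hM, ha⟩ := hx
  obtain ⟨M', hM', hb⟩ := hy
  refine ⟨M * M', mul_ne_zero hM hM', fun n => ?_⟩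
  obtain ⟨a, ha⟩ := ha n
  obtain ⟨b, hb⟩ := hb n
  refine ⟨M' * a + M * b, ?_⟩
  push_cast
  rw [← ha, ← hb, map_add]
  ring

theorem HasBddDenom.smul {x : PowerSeries ℚ} (hx : HasBddDenom x) (c : ℚ) :
    HasBddDenom (c • x) := by
  obtain ⟨M, hM, ha⟩ := hx
  refine ⟨M * c.den, mul_ne_zero hM (by exact_mod_cast c.den_ne_zero), fun n => ?_⟩
  obtain ⟨a, ha⟩ := ha n
  refine ⟨c.num * a, ?_⟩
  have hc : (c.num : ℚ) = c * c.den := by
    have h1 := Rat.num_div_den c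
    have hden : (c.den : ℚ) ≠ 0 := by exact_mod_cast c.den_ne_zero
    field_simp at h1
    linarith
  push_cast
  rw [← ha, hc, PowerSeries.coeff_smul, smul_eq_mul]
  ring

theorem hasBddDenom_of_int {x : PowerSeries ℚ} (h : ∀ n, ∃ a : ℤ, PowerSeries.coeff n x = a) :
    HasBddDenom x :=
  ⟨1, one_ne_zero, fun n => by obtain ⟨a, ha⟩ := h n; exact ⟨a, by simp [ha]⟩⟩

theorem HasBddDenom.mul {x y : PowerSeries ℚ} (hx : HasBddDenom x) (hy : HasBddDenom y) :
    HasBddDenom (x * y) := by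
  obtain ⟨M, hM, ha⟩ := hx
  obtain ⟨M', hM', hb⟩ := hy
  choose a ha using ha
  choose b hb using hb
  refine ⟨M * M', mul_ne_zero hM hM', fun n => ?_⟩
  refine ⟨∑ p ∈ Finset.HasAntidiagonal.antidiagonal n, a p.1 * b p.2, ?_⟩
  rw [PowerSeries.coeff_mul, Finset.mul_sum]
  push_cast
  refine Finset.sum_congr rfl fun p _ => ?_
  rw [← ha, ← hb]; ring

/-- coefficientwise functionals send `intSpanM` to series with bounded denominators. -/
theorem coeffMap_mem_intSpanM (l : ℂ →ₗ[ℚ] ℚ) (Γ : Subgroup (GL (Fin 2) ℝ)) (k : ℤ)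
    {h : PowerSeries ℂ} (hh : h ∈ intSpanM Γ k) : HasBddDenom (coeffMap l h) := by
  induction hh using Submodule.span_induction generalizing l with
  | mem x hx =>
    choose a ha using hx.2
    have : coeffMap l x = (l 1) • (PowerSeries.mk fun n => (a n : ℚ)) := by
      ext n
      simp only [coeff_coeffMap, ha, PowerSeries.coeff_smul, PowerSeries.coeff_mk, smul_eq_mul]
      have h1 : ((a n : ℤ) : ℂ) = (a n : ℤ) • (1 : ℂ) := by simp
      rw [h1, map_zsmul]
      simp [mul_comm]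
    rw [this]
    exact (hasBddDenom_of_int fun n => ⟨a n, by simp⟩).smul _
  | zero => rw [coeffMap_zero]; exact hasBddDenom_zero
  | add x y _ _ hx hy => rw [coeffMap_add]; exact (hx l).add (hy l)
  | smul c x _ hx =>
    have : coeffMap l (c • x) =
        coeffMap (l ∘ₗ ((LinearMap.mulLeft ℂ c).restrictScalars ℚ)) x := by
      ext n; simp
    rw [this]
    exact hx _

end Fermat.Agent.S23
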