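import Fermat.Agent.S23.Defs
import Fermat.Agent.S23.ConverseCore
import Fermat.Prelude.Thm_CongruenceSubgroup_one_mem_strictPeriods_Gamma0

/-!
# (D) Analytic converse (helper58).

A formal power series `h` which is a quotient `G / D` of `q`-expansions of modular forms on
`Γ₀(N)` (weights `k + w` and `w`, `D ≠ 0`) and which is a root of a monic polynomial whose
coefficients are `q`-expansions of level-one modular forms `R_i` of weight `(i+1) k`, is the
`q`-expansion of a modular form of weight `k` on `Γ₀(N)`; a cusp form if all `R_i` vanish at `i∞`.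

The analytic core is in `ConverseCore.lean`; this file is the `q`-expansion bridge:
`ConvNice` (holomorphic, `1`-periodic, bounded at `i∞`) is a class of functions on which
`qExpansion 1` is an injective ring homomorphism.
-/

set_option autoImplicit false

namespace Fermat.Agent.S23

open UpperHalfPlane
open scoped MatrixGroups ModularForm Manifold

/-- holomorphic, `1`-periodic and bounded at `i∞`: the class of functions on which
`qExpansion 1` is an injective ring homomorphism. -/
structure ConvNice (f : ℍ → ℂ) : Prop where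
  holo : MDiff f
  per : Function.Periodic (f ∘ ofComplex) ((1 : ℝ) : ℂ)
  bdd : IsBoundedAtImInfty f

namespace ConvNice

variable {f g : ℍ → ℂ}

theorem analyticAt (hf : ConvNice f) : AnalyticAt ℂ (cuspFunction 1 f) 0 :=
  analyticAt_cuspFunction_zero one_pos hf.per hf.holo hf.bdd

theorem mul (hf : ConvNice f) (hg : ConvNice g) : ConvNice (f * g) where
  holo := hf.holo.mul hg.holo
  per := fun z => by
    have h1 := hf.per z
    have h2 := hg.per z
    simp only [Function.comp_apply, Pi.mul_apply] at h1 h2 ⊢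
    rw [h1, h2]
  bdd := hf.bdd.mul hg.bdd

theorem add (hf : ConvNice f) (hg : ConvNice g) : ConvNice (f + g) where
  holo := hf.holo.add hg.holo
  per := fun z => by
    have h1 := hf.per z
    have h2 := hg.per z
    simp only [Function.comp_apply, Pi.add_apply] at h1 h2 ⊢
    rw [h1, h2]
  bdd := hf.bdd.add hg.bdd

theorem zero : ConvNice (0 : ℍ → ℂ) where
  holo := mdifferentiable_const
  per := fun z => by simp
  bdd := zero_form_isBoundedAtImInfty

theorem one : ConvNice (1 : ℍ → ℂ) where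
  holo := mdifferentiable_const
  per := fun z => by simp
  bdd := Filter.const_boundedAtFilter _ (1 : ℂ)

theorem pow (hf : ConvNice f) (n : ℕ) : ConvNice (f ^ n) := by
  induction n with
  | zero => simpa using one
  | succ n ih => rw [pow_succ]; exact ih.mul hf

theorem sum {ι : Type*} (s : Finset ι) (F : ι → ℍ → ℂ) (hF : ∀ i ∈ s, ConvNice (F i)) :
    ConvNice (∑ i ∈ s, F i) := by
  classical
  induction s using Finset.induction_on with
  | empty => simpa using zero
  | insert a t ha ih =>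
    rw [Finset.sum_insert ha]
    exact (hF a (Finset.mem_insert_self a t)).add
      (ih fun i hi => hF i (Finset.mem_insert_of_mem hi))

theorem qExpansion_mul (hf : ConvNice f) (hg : ConvNice g) :
    qExpansion 1 (f * g) = qExpansion 1 f * qExpansion 1 g :=
  UpperHalfPlane.qExpansion_mul hf.analyticAt hg.analyticAt

theorem qExpansion_add (hf : ConvNice f) (hg : ConvNice g) :
    qExpansion 1 (f + g) = qExpansion 1 f + qExpansion 1 g :=
  UpperHalfPlane.qExpansion_add hf.analyticAt hg.analyticAt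

theorem qExpansion_pow (hf : ConvNice f) (n : ℕ) :
    qExpansion 1 (f ^ n) = qExpansion 1 f ^ n := by
  induction n with
  | zero => simpa using UpperHalfPlane.qExpansion_one 1
  | succ n ih => rw [pow_succ, (hf.pow n).qExpansion_mul hf, ih, pow_succ]

theorem qExpansion_sum {ι : Type*} (s : Finset ι) (F : ι → ℍ → ℂ)
    (hF : ∀ i ∈ s, ConvNice (F i)) :
    qExpansion 1 (∑ i ∈ s, F i) = ∑ i ∈ s, qExpansion 1 (F i) := by
  classical
  induction s using Finset.induction_on with
  | empty => simpa using UpperHalfPlane.qExpansion_zero 1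
  | insert a t ha ih =>
    rw [Finset.sum_insert ha, Finset.sum_insert ha,
      (hF a (Finset.mem_insert_self a t)).qExpansion_add
        (sum t F fun i hi => hF i (Finset.mem_insert_of_mem hi)),
      ih fun i hi => hF i (Finset.mem_insert_of_mem hi)]

theorem eq_zero_of_qExpansion (hf : ConvNice f) (h : qExpansion 1 f = 0) : f = 0 :=
  (UpperHalfPlane.qExpansion_eq_zero_iff one_pos hf.per hf.holo hf.bdd).mp h

theorem of_modularForm {Γ : Subgroup (GL (Fin 2) ℝ)} (hΓ : (1 : ℝ) ∈ Γ.strictPeriods) {k : ℤ}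
    (F : ModularForm Γ k) : ConvNice (F : ℍ → ℂ) where
  holo := ModularFormClass.holo F
  per := SlashInvariantFormClass.periodic_comp_ofComplex F hΓ
  bdd :=
    haveI : Fact (IsCusp OnePoint.infty Γ) := ⟨Γ.isCusp_of_mem_strictPeriods one_pos hΓ⟩
    ModularFormClass.bdd_at_infty F

end ConvNice



/-- The function-level relation obtained from the power series relation. -/
theorem conv_rel_of_qExpansion {D G : ℍ → ℂ} (hDn : ConvNice D) (hGn : ConvNice G)
    (m : ℕ) (R : ℕ → ℍ → ℂ) (hRn : ∀ i < m, ConvNice (R i))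
    (h : PowerSeries ℂ) (h1 : h * qExpansion 1 D = qExpansion 1 G)
    (h2 : h ^ m + ∑ i ∈ Finset.range m, qExpansion 1 (R i) * h ^ (m - 1 - i) = 0) (z : ℍ) :
    G z ^ m + ∑ i ∈ Finset.range m, R i z * G z ^ (m - 1 - i) * D z ^ (i + 1) = 0 := by
  set Φ : ℍ → ℂ := G ^ m + ∑ i ∈ Finset.range m, R i * G ^ (m - 1 - i) * D ^ (i + 1) with hΦ
  have hterm : ∀ i ∈ Finset.range m, ConvNice (R i * G ^ (m - 1 - i) * D ^ (i + 1)) :=
    fun i hi => ((hRn i (Finset.mem_range.mp hi)).mul (hGn.pow _)).mul (hDn.pow _)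
  have hΦn : ConvNice Φ := (hGn.pow m).add (ConvNice.sum _ _ hterm)
  have hΦq : qExpansion 1 Φ = 0 := by
    rw [hΦ, (hGn.pow m).qExpansion_add (ConvNice.sum _ _ hterm), hGn.qExpansion_pow,
      ConvNice.qExpansion_sum _ _ hterm]
    have hsum : ∑ i ∈ Finset.range m, qExpansion 1 (R i * G ^ (m - 1 - i) * D ^ (i + 1))
        = ∑ i ∈ Finset.range m, qExpansion 1 (R i) * (h * qExpansion 1 D) ^ (m - 1 - i) *
            qExpansion 1 D ^ (i + 1) := by
      refine Finset.sum_congr rfl fun i hi => ?_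
      rw [((hRn i (Finset.mem_range.mp hi)).mul (hGn.pow _)).qExpansion_mul (hDn.pow _),
        (hRn i (Finset.mem_range.mp hi)).qExpansion_mul (hGn.pow _), hGn.qExpansion_pow,
        hDn.qExpansion_pow, h1]
    rw [hsum, ← h1, conv_homog_identity, h2, mul_zero]
  have h0 := hΦn.eq_zero_of_qExpansion hΦq
  have := congrFun h0 z
  simpa [hΦ, Finset.sum_apply] using this

/-- (D) analytic converse, modular forms -/
theorem converse (N : ℕ) [NeZero N] (k w : ℤ) (D G : PowerSeries ℂ)
    (hD : IsQM (G0 N) w D) (hD0 : D ≠ 0) (hG : IsQM (G0 N) (k + w) G)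
    (m : ℕ) (r : ℕ → PowerSeries ℂ) (hr : ∀ i < m, IsQM 𝒮ℒ ((i + 1) * k) (r i))
    (h : PowerSeries ℂ) (h1 : h * D = G)
    (h2 : h ^ m + ∑ i ∈ Finset.range m, r i * h ^ (m - 1 - i) = 0) :
    IsQM (G0 N) k h := by
  classical
  have hΓ : (1 : ℝ) ∈ (G0 N).strictPeriods := CongruenceSubgroup.one_mem_strictPeriods_Gamma0 N
  have hSL : (1 : ℝ) ∈ (𝒮ℒ).strictPeriods := one_mem_strictPeriods_SL
  obtain ⟨Df, rfl⟩ := hD
  obtain ⟨Gf, rfl⟩ := hG
  set R : ℕ → ℍ → ℂ := fun i => if hi : i < m then ⇑(hr i hi).choose else 0 with hRdef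
  have hRcoe : ∀ i (hi : i < m), R i = ⇑(hr i hi).choose := fun i hi => by simp [hRdef, hi]
  have hRq : ∀ i (hi : i < m), qExpansion 1 (R i) = r i := fun i hi => by
    rw [hRcoe i hi]; exact (hr i hi).choose_spec
  have hRn : ∀ i < m, ConvNice (R i) := fun i hi => by
    rw [hRcoe i hi]; exact ConvNice.of_modularForm hSL _
  have hRinv : ∀ i < m, ∀ δ : SL(2, ℤ), (R i) ∣[((i : ℤ) + 1) * k] δ = R i := fun i hi δ => by
    rw [hRcoe i hi]
    exact SlashInvariantFormClass.slash_action_eq (hr i hi).choose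
      (Matrix.SpecialLinearGroup.mapGL ℝ δ) ⟨δ, rfl⟩
  have hDf0 : (Df : ℍ → ℂ) ≠ 0 := by
    intro h0
    apply hD0
    rw [h0]
    exact UpperHalfPlane.qExpansion_zero 1
  have hDn := ConvNice.of_modularForm hΓ Df
  have hGn := ConvNice.of_modularForm hΓ Gf
  have h2' : h ^ m + ∑ i ∈ Finset.range m, qExpansion 1 (R i) * h ^ (m - 1 - i) = 0 := by
    rw [← h2]
    congr 1
    exact Finset.sum_congr rfl fun i hi => by rw [hRq i (Finset.mem_range.mp hi)]
  have hrel := conv_rel_of_qExpansion hDn hGn m R hRn h h1 h2'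
  obtain ⟨F, hF⟩ := conv_exists_modularForm k w Df hDf0 Gf m R (fun i hi => (hRn i hi).holo)
    hRinv (fun i hi => (hRn i hi).bdd) hrel
  refine ⟨F, ?_⟩
  have hFD : (F : ℍ → ℂ) * (Df : ℍ → ℂ) = Gf := funext hF
  have hq := (ConvNice.of_modularForm hΓ F).qExpansion_mul hDn
  rw [hFD, ← h1] at hq
  exact (mul_right_cancel₀ hD0 hq).symm

/-- (D') analytic converse, cusp forms -/
theorem converse_cusp (N : ℕ) [NeZero N] (k w : ℤ) (D G : PowerSeries ℂ)
    (hD : IsQM (G0 N) w D) (hD0 : D ≠ 0) (hG : IsQM (G0 N) (k + w) G)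
    (m : ℕ) (r : ℕ → PowerSeries ℂ) (hr : ∀ i < m, IsQM 𝒮ℒ ((i + 1) * k) (r i))
    (hr0 : ∀ i < m, PowerSeries.coeff 0 (r i) = 0)
    (h : PowerSeries ℂ) (h1 : h * D = G)
    (h2 : h ^ m + ∑ i ∈ Finset.range m, r i * h ^ (m - 1 - i) = 0) :
    IsQS (G0 N) k h := by
  classical
  have hΓ : (1 : ℝ) ∈ (G0 N).strictPeriods := CongruenceSubgroup.one_mem_strictPeriods_Gamma0 N
  have hSL : (1 : ℝ) ∈ (𝒮ℒ).strictPeriods := one_mem_strictPeriods_SL
  obtain ⟨Df, rfl⟩ := hD
  obtain ⟨Gf, rfl⟩ := hG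
  set R : ℕ → ℍ → ℂ := fun i => if hi : i < m then ⇑(hr i hi).choose else 0 with hRdef
  have hRcoe : ∀ i (hi : i < m), R i = ⇑(hr i hi).choose := fun i hi => by simp [hRdef, hi]
  have hRq : ∀ i (hi : i < m), qExpansion 1 (R i) = r i := fun i hi => by
    rw [hRcoe i hi]; exact (hr i hi).choose_spec
  have hRn : ∀ i < m, ConvNice (R i) := fun i hi => by
    rw [hRcoe i hi]; exact ConvNice.of_modularForm hSL _
  have hRinv : ∀ i < m, ∀ δ : SL(2, ℤ), (R i) ∣[((i : ℤ) + 1) * k] δ = R i := fun i hi δ => by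
    rw [hRcoe i hi]
    exact SlashInvariantFormClass.slash_action_eq (hr i hi).choose
      (Matrix.SpecialLinearGroup.mapGL ℝ δ) ⟨δ, rfl⟩
  have hRz : ∀ i < m, IsZeroAtImInfty (R i) := fun i hi => by
    rw [hRcoe i hi]
    have hc : IsCusp OnePoint.infty 𝒮ℒ := (𝒮ℒ).isCusp_of_mem_strictPeriods one_pos hSL
    have h0 : (qExpansion 1 (hr i hi).choose).coeff 0 = 0 := by
      rw [(hr i hi).choose_spec]; exact hr0 i hi
    exact OnePoint.isZeroAt_infty_iff.mp
      (ModularForm.isZeroAt_of_coeffZero_eq_zero (hr i hi).choose h0 hc)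
  have hDf0 : (Df : ℍ → ℂ) ≠ 0 := by
    intro h0
    apply hD0
    rw [h0]
    exact UpperHalfPlane.qExpansion_zero 1
  have hDn := ConvNice.of_modularForm hΓ Df
  have hGn := ConvNice.of_modularForm hΓ Gf
  have h2' : h ^ m + ∑ i ∈ Finset.range m, qExpansion 1 (R i) * h ^ (m - 1 - i) = 0 := by
    rw [← h2]
    congr 1
    exact Finset.sum_congr rfl fun i hi => by rw [hRq i (Finset.mem_range.mp hi)]
  have hrel := conv_rel_of_qExpansion hDn hGn m R hRn h h1 h2'
  obtain ⟨F, hF⟩ := conv_exists_cuspForm k w Df hDf0 Gf m R (fun i hi => (hRn i hi).holo)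
    hRinv hRz hrel
  refine ⟨F, ?_⟩
  have hFD : (F : ℍ → ℂ) * (Df : ℍ → ℂ) = Gf := funext hF
  have hFn : ConvNice (F : ℍ → ℂ) :=
    { holo := CuspFormClass.holo F
      per := SlashInvariantFormClass.periodic_comp_ofComplex F hΓ
      bdd :=
        haveI : Fact (IsCusp OnePoint.infty (G0 N)) :=
          ⟨(G0 N).isCusp_of_mem_strictPeriods one_pos hΓ⟩
        (CuspFormClass.zero_at_infty F).isBoundedAtImInfty }
  have hq := hFn.qExpansion_mul hDn
  rw [hFD, ← h1] at hq
  exact (mul_right_cancel₀ hD0 hq).symm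

end Fermat.Agent.S23
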