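import Fermat.Agent.S23.Defs

/-!
# (B) Integrality of level `Γ₀(N)` forms over level one forms.
-/

set_option autoImplicit false

namespace Fermat.Agent.S23.H79

open UpperHalfPlane SlashInvariantForm
open scoped MatrixGroups ModularForm Manifold Topology Filter

/-- The elementary symmetric sums are invariant under a permutation of the index type. -/
theorem sum_powersetCard_prod_comp_equiv {ι R : Type*} [Fintype ι] [CommSemiring R]
    (σ : ι ≃ ι) (g : ι → R) (i : ℕ) :
    ∑ s ∈ Finset.powersetCard i (Finset.univ : Finset ι), ∏ q ∈ s, g (σ q) =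
      ∑ s ∈ Finset.powersetCard i (Finset.univ : Finset ι), ∏ q ∈ s, g q := by
  have h1 := Finset.esymm_map_val (fun q => g (σ q)) (Finset.univ : Finset ι) i
  have h2 := Finset.esymm_map_val g (Finset.univ : Finset ι) i
  simp only [Finset.sum, Finset.prod] at h1 h2 ⊢
  rw [← h1, ← h2]
  congr 1
  have : (Finset.univ : Finset ι).val.map (fun q => g (σ q)) =
      ((Finset.univ : Finset ι).val.map σ).map g := by
    rw [Multiset.map_map]; rfl
  rw [this]
  congr 1
  simp

section esymm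

variable {𝒢 : Subgroup (GL (Fin 2) ℝ)} {k : ℤ}

local notation "𝒬" => ↥𝒮ℒ ⧸ 𝒢.subgroupOf 𝒮ℒ

/-- The `i`-th elementary symmetric function of the conjugates `f_q` of `f`, as a function. -/
noncomputable def esymmFun [Fintype 𝒬] {F : Type*} [FunLike F ℍ ℂ]
    [SlashInvariantFormClass F 𝒢 k] (f : F) (i : ℕ) : ℍ → ℂ :=
  ∑ s ∈ Finset.powersetCard i (Finset.univ : Finset 𝒬), ∏ q ∈ s, quotientFunc f q

theorem esymmFun_apply [Fintype 𝒬] {F : Type*} [FunLike F ℍ ℂ]
    [SlashInvariantFormClass F 𝒢 k] (f : F) (i : ℕ) (τ : ℍ) :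
    esymmFun f i τ =
      ∑ s ∈ Finset.powersetCard i (Finset.univ : Finset 𝒬), ∏ q ∈ s, quotientFunc f q τ := by
  simp [esymmFun, Finset.sum_apply, Finset.prod_apply]

theorem esymmFun_slash [Fintype 𝒬] {F : Type*} [FunLike F ℍ ℂ]
    [SlashInvariantFormClass F 𝒢 k] (f : F) (i : ℕ) (h : GL (Fin 2) ℝ) (hh : h ∈ 𝒮ℒ) :
    esymmFun f i ∣[(i : ℤ) * k] h = esymmFun f i := by
  unfold esymmFun
  rw [SlashAction.sum_slash]
  have key : ∀ s ∈ Finset.powersetCard i (Finset.univ : Finset 𝒬),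
      (∏ q ∈ s, quotientFunc f q) ∣[(i : ℤ) * k] h =
        ∏ q ∈ s, quotientFunc f ((⟨h, hh⟩ : 𝒮ℒ)⁻¹ • q) := by
    intro s hs
    have hcard : s.card = i := (Finset.mem_powersetCard.mp hs).2
    rw [show (i : ℤ) * k = k * s.card by rw [hcard]; ring, ModularForm.prod_slash]
    simp [quotientFunc_smul f hh, Subgroup.HasDetPlusMinusOne.abs_det hh,
      -Matrix.GeneralLinearGroup.val_det_apply]
  rw [Finset.sum_congr rfl key]
  ext τ
  simp only [Finset.sum_apply, Finset.prod_apply]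
  exact sum_powersetCard_prod_comp_equiv (MulAction.toPerm ((⟨h, hh⟩ : 𝒮ℒ)⁻¹))
    (fun q => quotientFunc f q τ) i

variable [𝒢.IsFiniteRelIndex 𝒮ℒ]

/-- The `i`-th elementary symmetric function of the conjugates of a modular form `f` of level
`𝒢`, as a modular form of level one and weight `i * k`. -/
noncomputable def esymmForm [Fintype 𝒬] {F : Type*} [FunLike F ℍ ℂ]
    [ModularFormClass F 𝒢 k] (f : F) (i : ℕ) : ModularForm 𝒮ℒ ((i : ℤ) * k) where
  toFun := esymmFun f i
  slash_action_eq' h hh := esymmFun_slash f i h hh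
  holo' := by
    unfold esymmFun
    exact .sum fun s _ ↦ .prod (Quotient.forall.mpr fun ⟨r, hr⟩ _ ↦
      (ModularForm.translate f r⁻¹).holo')
  bdd_at_cusps' h γ := by
    rintro rfl
    unfold esymmFun
    rw [IsBoundedAtImInfty, Filter.BoundedAtFilter, SlashAction.sum_slash, Finset.sum_fn]
    refine .fun_sum fun s hs ↦ ?_
    have hcard : s.card = i := (Finset.mem_powersetCard.mp hs).2
    rw [show (i : ℤ) * k = k * s.card by rw [hcard]; ring, ModularForm.prod_slash]
    apply Asymptotics.IsBigO.const_smul_left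
    rw [show (1 : ℍ → ℝ) = (fun x ↦ ∏ _i ∈ s, (1 : ℝ)) by ext; simp, Finset.prod_fn]
    refine .finsetProd (Quotient.forall.mpr fun ⟨r, hr⟩ _ ↦
      (ModularForm.translate f _).bdd_at_cusps' ?_ γ rfl)
    simpa using h.of_isFiniteRelIndex_conj hr

theorem esymmForm_apply [Fintype 𝒬] {F : Type*} [FunLike F ℍ ℂ]
    [ModularFormClass F 𝒢 k] (f : F) (i : ℕ) (τ : ℍ) :
    esymmForm f i τ =
      ∑ s ∈ Finset.powersetCard i (Finset.univ : Finset 𝒬), ∏ q ∈ s, quotientFunc f q τ :=
  esymmFun_apply f i τ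

theorem coe_esymmForm [Fintype 𝒬] {F : Type*} [FunLike F ℍ ℂ]
    [ModularFormClass F 𝒢 k] (f : F) (i : ℕ) :
    ⇑(esymmForm f i) = esymmFun f i := rfl

/-- Each conjugate of a cusp form tends to zero at `i∞`. -/
theorem quotientFunc_isZeroAtImInfty {F : Type*} [FunLike F ℍ ℂ]
    [CuspFormClass F 𝒢 k] (f : F) (q : 𝒬) : IsZeroAtImInfty (quotientFunc f q) := by
  induction q using Quotient.inductionOn with
  | h r =>
    obtain ⟨r, hr⟩ := r
    have hcusp : IsCusp OnePoint.infty 𝒮ℒ :=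
      Subgroup.isCusp_of_mem_strictPeriods (𝒢 := 𝒮ℒ) one_pos (by simp)
    have := (CuspForm.translate f r⁻¹).zero_at_cusps'
      (by simpa using hcusp.of_isFiniteRelIndex_conj hr) 1 (by simp)
    simp only [SlashInvariantForm.toFun_eq_coe, SlashAction.slash_one] at this
    exact this

/-- For a cusp form and `i ≥ 1` the `i`-th elementary symmetric function of the conjugates
tends to zero at `i∞`. -/
theorem esymmFun_isZeroAtImInfty [Fintype 𝒬] {F : Type*} [FunLike F ℍ ℂ]
    [CuspFormClass F 𝒢 k] (f : F) (i : ℕ) (hi : 1 ≤ i) :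
    IsZeroAtImInfty (esymmFun f i) := by
  unfold esymmFun
  rw [IsZeroAtImInfty, Filter.ZeroAtFilter, Finset.sum_fn]
  rw [show (0 : ℂ) = ∑ _s ∈ Finset.powersetCard i (Finset.univ : Finset 𝒬), (0 : ℂ) by simp]
  refine tendsto_finsetSum _ fun s hs ↦ ?_
  have hcard : s.card = i := (Finset.mem_powersetCard.mp hs).2
  rw [Finset.prod_fn]
  rw [show (0 : ℂ) = ∏ _q ∈ s, (0 : ℂ) by
    rw [Finset.prod_const, zero_pow]; omega]
  exact tendsto_finsetProd _ fun q _ ↦ quotientFunc_isZeroAtImInfty f q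

/-- The constant term of the `q`-expansion of a function tending to zero at `i∞` is zero. -/
theorem coeff_zero_qExpansion_of_isZeroAtImInfty {g : ℍ → ℂ} (hg : IsZeroAtImInfty g) :
    PowerSeries.coeff 0 (qExpansion 1 g) = 0 := by
  simp [qExpansion_coeff, hg.cuspFunction_apply_zero one_pos]

end esymm

section nice

/-- `g` has a cusp function (for the period `1`) which is analytic at `0`. -/
def CuspAnalytic (g : ℍ → ℂ) : Prop := AnalyticAt ℂ (cuspFunction 1 g) 0

theorem CuspAnalytic.of_modularForm {Γ : Subgroup (GL (Fin 2) ℝ)} {k : ℤ} {F : Type*}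
    [FunLike F ℍ ℂ] [ModularFormClass F Γ k] (f : F) (hΓ : (1 : ℝ) ∈ Γ.strictPeriods) :
    CuspAnalytic (⇑f) :=
  ModularFormClass.analyticAt_cuspFunction_zero f one_pos hΓ

theorem CuspAnalytic.mul {f g : ℍ → ℂ} (hf : CuspAnalytic f) (hg : CuspAnalytic g) :
    CuspAnalytic (f * g) := by
  unfold CuspAnalytic at *
  rw [cuspFunction_mul hf.continuousAt hg.continuousAt]
  exact hf.mul hg

theorem CuspAnalytic.add {f g : ℍ → ℂ} (hf : CuspAnalytic f) (hg : CuspAnalytic g) :
    CuspAnalytic (f + g) := by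
  unfold CuspAnalytic at *
  rw [cuspFunction_add hf.continuousAt hg.continuousAt]
  exact hf.add hg

theorem CuspAnalytic.smul {f : ℍ → ℂ} (hf : CuspAnalytic f) (a : ℂ) :
    CuspAnalytic (a • f) := by
  unfold CuspAnalytic at *
  rw [cuspFunction_smul hf.continuousAt]
  exact hf.const_smul

theorem CuspAnalytic.one : CuspAnalytic (1 : ℍ → ℂ) :=
  CuspAnalytic.of_modularForm (1 : ModularForm 𝒮ℒ 0) (by simp)

theorem CuspAnalytic.zero : CuspAnalytic (0 : ℍ → ℂ) := by
  have := CuspAnalytic.one.smul 0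
  simpa using this

theorem CuspAnalytic.pow {f : ℍ → ℂ} (hf : CuspAnalytic f) (n : ℕ) :
    CuspAnalytic (f ^ n) := by
  induction n with
  | zero => simpa using CuspAnalytic.one
  | succ n ih => rw [pow_succ]; exact ih.mul hf

theorem CuspAnalytic.sum {ι : Type*} (s : Finset ι) (g : ι → ℍ → ℂ)
    (hg : ∀ i ∈ s, CuspAnalytic (g i)) : CuspAnalytic (∑ i ∈ s, g i) := by
  classical
  induction s using Finset.induction_on with
  | empty => simpa using CuspAnalytic.zero
  | insert a s ha ih =>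
    rw [Finset.sum_insert ha]
    exact (hg a (Finset.mem_insert_self a s)).add
      (ih fun i hi ↦ hg i (Finset.mem_insert_of_mem hi))

theorem qExpansion_pow_of_cuspAnalytic {f : ℍ → ℂ} (hf : CuspAnalytic f) (n : ℕ) :
    qExpansion 1 (f ^ n) = qExpansion 1 f ^ n := by
  induction n with
  | zero => simpa using qExpansion_one 1
  | succ n ih => rw [pow_succ, qExpansion_mul (hf.pow n) hf, ih, pow_succ]

theorem qExpansion_sum_of_cuspAnalytic {ι : Type*} (s : Finset ι) (g : ι → ℍ → ℂ)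
    (hg : ∀ i ∈ s, CuspAnalytic (g i)) :
    qExpansion 1 (∑ i ∈ s, g i) = ∑ i ∈ s, qExpansion 1 (g i) := by
  classical
  induction s using Finset.induction_on with
  | empty => simpa using qExpansion_zero 1
  | insert a s ha ih =>
    rw [Finset.sum_insert ha, Finset.sum_insert ha,
      qExpansion_add (hg a (Finset.mem_insert_self a s))
        (CuspAnalytic.sum s g fun i hi ↦ hg i (Finset.mem_insert_of_mem hi)),
      ih fun i hi ↦ hg i (Finset.mem_insert_of_mem hi)]

end nice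

section vieta

open Polynomial in
/-- Vieta: each `x i0` is a root of `∏ (X - x j)`, written out with elementary symmetric sums. -/
theorem vieta_relation {ι : Type*} [Fintype ι] (x : ι → ℂ) (i0 : ι) :
    x i0 ^ Fintype.card ι + ∑ i ∈ Finset.range (Fintype.card ι),
      ((-1 : ℂ) ^ (i + 1) *
        ∑ s ∈ Finset.powersetCard (i + 1) (Finset.univ : Finset ι), ∏ j ∈ s, x j) *
          x i0 ^ (Fintype.card ι - 1 - i) = 0 := by
  classical
  have h1 := Multiset.prod_X_sub_X_eq_sum_esymm ((Finset.univ : Finset ι).val.map x)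
  have h2 : (((Finset.univ : Finset ι).val.map x).map fun t => X - C t).prod.eval (x i0) = 0 := by
    rw [Multiset.map_map]
    change (∏ j : ι, (X - C (x j))).eval (x i0) = 0
    rw [Polynomial.eval_prod]
    exact Finset.prod_eq_zero (Finset.mem_univ i0) (by simp)
  rw [h1] at h2
  simp only [Multiset.card_map, Finset.card_val, Finset.card_univ, Polynomial.eval_finsetSum,
    Polynomial.eval_mul, Polynomial.eval_pow, Polynomial.eval_neg, Polynomial.eval_one,
    Polynomial.eval_C, Polynomial.eval_X, Finset.esymm_map_val] at h2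
  rw [Finset.sum_range_succ'] at h2
  simp only [Finset.powersetCard_zero, Finset.sum_singleton, Finset.prod_empty, pow_zero,
    one_mul, Nat.sub_zero] at h2
  rw [add_comm] at h2
  rw [← h2]
  congr 1
  refine Finset.sum_congr rfl fun i _ ↦ ?_
  rw [show Fintype.card ι - (i + 1) = Fintype.card ι - 1 - i by omega]
  ring

end vieta

section relation

variable {𝒢 : Subgroup (GL (Fin 2) ℝ)} {k : ℤ}

local notation "𝒬" => ↥𝒮ℒ ⧸ 𝒢.subgroupOf 𝒮ℒ

theorem quotientFunc_one {F : Type*} [FunLike F ℍ ℂ] [SlashInvariantFormClass F 𝒢 k] (f : F) :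
    quotientFunc f ((QuotientGroup.mk 1 : 𝒬)) = ⇑f := by
  change quotientFunc f ⟦(1 : 𝒮ℒ)⟧ = ⇑f
  rw [quotientFunc_mk]
  simp

/-- The monic relation satisfied by `f` over level one, at the level of functions. -/
theorem monic_relation_fun [Fintype 𝒬] {F : Type*} [FunLike F ℍ ℂ]
    [SlashInvariantFormClass F 𝒢 k] (f : F) :
    (⇑f : ℍ → ℂ) ^ Fintype.card 𝒬 + ∑ i ∈ Finset.range (Fintype.card 𝒬),
      (((-1 : ℂ) ^ (i + 1)) • esymmFun f (i + 1)) * (⇑f : ℍ → ℂ) ^ (Fintype.card 𝒬 - 1 - i) = 0 := by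
  ext τ
  have := vieta_relation (fun q : 𝒬 => quotientFunc f q τ) (QuotientGroup.mk 1)
  simp only [quotientFunc_one] at this
  simp only [Pi.add_apply, Pi.pow_apply, Finset.sum_apply, Pi.mul_apply, Pi.smul_apply,
    smul_eq_mul, esymmFun_apply, Pi.zero_apply]
  rw [← this]

/-- The monic relation satisfied by `f` over level one, at the level of `q`-expansions. -/
theorem monic_relation_qExpansion [𝒢.IsFiniteRelIndex 𝒮ℒ] [Fintype 𝒬] {F : Type*}
    [FunLike F ℍ ℂ]
    [ModularFormClass F 𝒢 k] (f : F) (h𝒢 : (1 : ℝ) ∈ 𝒢.strictPeriods) :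
    qExpansion 1 f ^ Fintype.card 𝒬 + ∑ i ∈ Finset.range (Fintype.card 𝒬),
      qExpansion 1 (((-1 : ℂ) ^ (i + 1)) • esymmForm f (i + 1)) *
        qExpansion 1 f ^ (Fintype.card 𝒬 - 1 - i) = 0 := by
  have hf : CuspAnalytic (⇑f) := CuspAnalytic.of_modularForm f h𝒢
  have hE : ∀ i : ℕ, CuspAnalytic (((-1 : ℂ) ^ (i + 1)) • esymmFun f (i + 1)) := fun i ↦
    (CuspAnalytic.of_modularForm (esymmForm f (i + 1)) (by simp)).smul _
  have hterm : ∀ i ∈ Finset.range (Fintype.card 𝒬),
      CuspAnalytic ((((-1 : ℂ) ^ (i + 1)) • esymmFun f (i + 1)) *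
        (⇑f : ℍ → ℂ) ^ (Fintype.card 𝒬 - 1 - i)) := fun i _ ↦ (hE i).mul (hf.pow _)
  have := congrArg (qExpansion 1) (monic_relation_fun f)
  rw [qExpansion_zero, qExpansion_add (hf.pow _) (CuspAnalytic.sum _ _ hterm),
    qExpansion_pow_of_cuspAnalytic hf, qExpansion_sum_of_cuspAnalytic _ _ hterm] at this
  rw [← this]
  congr 1
  refine Finset.sum_congr rfl fun i _ ↦ ?_
  rw [qExpansion_mul (hE i) (hf.pow _), qExpansion_pow_of_cuspAnalytic hf]
  rfl

end relation

end Fermat.Agent.S23.H79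

namespace Fermat.Agent.S23

open UpperHalfPlane
open scoped MatrixGroups

/-- (B0) the elementary symmetric functions of the conjugates are level-one modular forms. -/
theorem esymm_conj_isMF (N : ℕ) [NeZero N] (k : ℤ) (f : ModularForm (G0 N) k) (i : ℕ) :
    ∃ E : ModularForm 𝒮ℒ (i * k), ∀ τ : ℍ, E τ =
      ∑ s ∈ Finset.powersetCard i (Finset.univ : Finset (Q0 N)),
        ∏ q ∈ s, SlashInvariantForm.quotientFunc f q τ :=
  ⟨H79.esymmForm f i, fun τ ↦ H79.esymmForm_apply f i τ⟩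

/-- (B0') for a cusp form and `i ≥ 1` the `i`-th symmetric function vanishes at `i∞`
(stated through the constant term of the `q`-expansion). -/
theorem esymm_conj_cusp (N : ℕ) [NeZero N] (k : ℤ) (f : CuspForm (G0 N) k) (i : ℕ) (hi : 1 ≤ i)
    (E : ModularForm 𝒮ℒ (i * k))
    (hE : ∀ τ : ℍ, E τ = ∑ s ∈ Finset.powersetCard i (Finset.univ : Finset (Q0 N)),
        ∏ q ∈ s, SlashInvariantForm.quotientFunc f q τ) :
    PowerSeries.coeff 0 (qExpansion 1 E) = 0 := by
  have : (⇑E : ℍ → ℂ) = H79.esymmFun f i := by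
    ext τ
    rw [hE τ, H79.esymmFun_apply]
  rw [this]
  exact H79.coeff_zero_qExpansion_of_isZeroAtImInfty (H79.esymmFun_isZeroAtImInfty f i hi)

/-- (B) integrality over level one, modular forms -/
theorem exists_monic_relation (N : ℕ) [NeZero N] (k : ℤ) (f : ModularForm (G0 N) k) :
    ∃ (m : ℕ) (r : ℕ → PowerSeries ℂ), (∀ i < m, IsQM 𝒮ℒ ((i + 1) * k) (r i)) ∧
      (qExpansion 1 f) ^ m + ∑ i ∈ Finset.range m, r i * (qExpansion 1 f) ^ (m - 1 - i) = 0 := by
  refine ⟨Fintype.card (Q0 N),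
    fun i ↦ qExpansion 1 (((-1 : ℂ) ^ (i + 1)) • H79.esymmForm f (i + 1)), fun i _ ↦ ?_,
    H79.monic_relation_qExpansion f (by simp)⟩
  exact ⟨ModularForm.mcast (by push_cast; ring)
    (((-1 : ℂ) ^ (i + 1)) • H79.esymmForm f (i + 1)) rfl, rfl⟩

/-- (B') integrality over level one, cusp forms -/
theorem exists_monic_relation_cusp (N : ℕ) [NeZero N] (k : ℤ) (f : CuspForm (G0 N) k) :
    ∃ (m : ℕ) (r : ℕ → PowerSeries ℂ), (∀ i < m, IsQM 𝒮ℒ ((i + 1) * k) (r i)) ∧
      (∀ i < m, PowerSeries.coeff 0 (r i) = 0) ∧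
      (qExpansion 1 f) ^ m + ∑ i ∈ Finset.range m, r i * (qExpansion 1 f) ^ (m - 1 - i) = 0 := by
  refine ⟨Fintype.card (Q0 N),
    fun i ↦ qExpansion 1 (((-1 : ℂ) ^ (i + 1)) • H79.esymmForm f (i + 1)), fun i _ ↦ ?_,
    fun i _ ↦ ?_, H79.monic_relation_qExpansion f (by simp)⟩
  · exact ⟨ModularForm.mcast (by push_cast; ring)
      (((-1 : ℂ) ^ (i + 1)) • H79.esymmForm f (i + 1)) rfl, rfl⟩
  · have h0 := H79.coeff_zero_qExpansion_of_isZeroAtImInfty
      (H79.esymmFun_isZeroAtImInfty f (i + 1) (by omega))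
    have hsm : qExpansion 1 (((-1 : ℂ) ^ (i + 1)) • H79.esymmFun f (i + 1)) =
        ((-1 : ℂ) ^ (i + 1)) • qExpansion 1 (H79.esymmFun f (i + 1)) :=
      UpperHalfPlane.qExpansion_smul
        (H79.CuspAnalytic.of_modularForm (H79.esymmForm f (i + 1)) (by simp)) _
    change PowerSeries.coeff 0
      (qExpansion 1 (((-1 : ℂ) ^ (i + 1)) • H79.esymmFun f (i + 1))) = 0
    rw [hsm, PowerSeries.coeff_smul, h0, smul_zero]

end Fermat.Agent.S23
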