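import Fermat.Agent.S23.H20Theta
import Fermat.Agent.S22.Hermite
import Fermat.Agent.S22.H20Bol

/-!
# S23 steps (C1)+(C2): the primitive element `Θ_N(z) = E₄(N z)` (helper20)

`exists_theta`: there is a modular form `Θ` of weight `4` on `Γ₀(N)` with integer `q`-expansion
all of whose conjugates `Θ ∣[4] h⁻¹` for nontrivial cosets `h ∈ SL(2,ℤ)/Γ₀(N)` differ from `Θ`.
-/

set_option autoImplicit false

open UpperHalfPlane hiding I
open Real Complex CongruenceSubgroup ModularForm Filter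
open scoped Manifold MatrixGroups ModularForm Topology Pointwise

namespace Fermat.Agent.S23.H20

noncomputable section

/-- a modular form tends to its constant coefficient at `i∞` -/
theorem tendsto_atImInfty_coeff_zero {Γ : Subgroup (GL (Fin 2) ℝ)} {k : ℤ} (f : ModularForm Γ k)
    (hΓ : (1 : ℝ) ∈ Γ.strictPeriods) :
    Tendsto f atImInfty (𝓝 ((qExpansion 1 f).coeff 0)) := by
  have han := ModularFormClass.analyticAt_cuspFunction_zero f one_pos hΓ
  have hper := SlashInvariantFormClass.periodic_comp_ofComplex f hΓ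
  have h0 : (qExpansion 1 f).coeff 0 = cuspFunction 1 f 0 := by simp [qExpansion_coeff]
  rw [h0]
  have : (cuspFunction 1 f ∘ fun τ : ℍ ↦ Function.Periodic.qParam 1 τ) = f := by
    funext τ
    simpa using eq_cuspFunction τ one_ne_zero hper
  have h2 := han.continuousAt.tendsto.comp (qParam_tendsto_atImInfty one_pos)
  rwa [this] at h2

theorem tendsto_E4 : Tendsto E₄ atImInfty (𝓝 1) := by
  have h := tendsto_atImInfty_coeff_zero E₄ one_mem_strictPeriods_SL
  rwa [EisensteinSeries.E_qExpansion_coeff_zero _ ⟨2, rfl⟩] at h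

theorem tendsto_theta (N : ℕ) [NeZero N] : Tendsto (theta N) atImInfty (𝓝 1) := by
  have h1 : Tendsto (fun z : ℍ => alpha N • z) atImInfty atImInfty := by
    apply tendsto_smul_atImInfty
    show (alpha N).val 1 0 = 0
    rw [ModularForm.val_heckeDiagMatrix (NeZero.ne N)]
    simp
  have h2 := tendsto_E4.comp h1
  refine h2.congr fun z => ?_
  simp [theta_apply]

theorem coe_theta (N : ℕ) [NeZero N] :
    (⇑(theta N) : ℍ → ℂ) = ((N : ℂ) ^ (3 : ℤ))⁻¹ • ((⇑E₄ : ℍ → ℂ) ∣[(4 : ℤ)] alpha N) := rfl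

theorem smul_slash_pos (k : ℤ) (c : ℂ) (F : ℍ → ℂ) {g : GL (Fin 2) ℝ} (hg : 0 < g.val.det) :
    (c • F) ∣[k] g = c • (F ∣[k] g) := by
  ext z
  rw [Fermat.Agent.S22.h20_slash_apply_of_det_pos k _ hg, Pi.smul_apply, Pi.smul_apply,
    Fermat.Agent.S22.h20_slash_apply_of_det_pos k _ hg]
  simp only [smul_eq_mul]
  ring

theorem det_mapGL_pos (γ : SL(2, ℤ)) :
    0 < (Matrix.SpecialLinearGroup.mapGL ℝ γ : GL (Fin 2) ℝ).val.det := by
  have : ((Matrix.SpecialLinearGroup.mapGL ℝ γ : GL (Fin 2) ℝ) : Matrix (Fin 2) (Fin 2) ℝ).det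
      = 1 := by
    rw [← Matrix.GeneralLinearGroup.val_det_apply]; simp
  rw [this]; exact one_pos

theorem E4_slash_SL (g : SL(2, ℤ)) :
    (⇑E₄ : ℍ → ℂ) ∣[(4 : ℤ)] (Matrix.SpecialLinearGroup.mapGL ℝ g : GL (Fin 2) ℝ) = ⇑E₄ :=
  SlashInvariantFormClass.slash_action_eq E₄ _ ⟨g, rfl⟩

/-- the slash of `Θ` by `γ`, computed through the Hermite normal form of `α γ` -/
theorem theta_slash (N : ℕ) [NeZero N] (γ : SL(2, ℤ)) (g' : SL(2, ℤ)) (a b d : ℤ)
    (ha : 0 < a) (hd : 0 < d) (had : ((a : ℝ) * (d : ℝ)) ≠ 0) (hN : a * d = N)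
    (h : alpha N * (Matrix.SpecialLinearGroup.mapGL ℝ γ : GL (Fin 2) ℝ) =
      (Matrix.SpecialLinearGroup.mapGL ℝ g' : GL (Fin 2) ℝ) *
        ModularForm.upperTriangularGL a b d had) (z : ℍ) :
    ((⇑(theta N) : ℍ → ℂ) ∣[(4 : ℤ)] (Matrix.SpecialLinearGroup.mapGL ℝ γ : GL (Fin 2) ℝ)) z =
      ((d : ℂ) ^ 4)⁻¹ * E₄ (ModularForm.upperTriangularGL a b d had • z) := by
  have hNC : (N : ℂ) ≠ 0 := Nat.cast_ne_zero.mpr (NeZero.ne N)
  have hdC : (d : ℂ) ≠ 0 := by exact_mod_cast hd.ne'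
  have hdet : (ModularForm.upperTriangularGL a b d had).val.det = (a : ℝ) * d := by
    rw [ModularForm.val_upperTriangularGL, Matrix.det_fin_two_of]; ring
  have hdetpos : 0 < (ModularForm.upperTriangularGL a b d had).val.det := by
    rw [hdet]; exact_mod_cast mul_pos ha hd
  rw [coe_theta, smul_slash_pos _ _ _ (det_mapGL_pos γ), ← SlashAction.slash_mul, h,
    SlashAction.slash_mul, E4_slash_SL, Pi.smul_apply,
    Fermat.Agent.S22.h20_slash_apply_of_det_pos _ _ hdetpos, hdet]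
  have hden : denom (ModularForm.upperTriangularGL a b d had) z = (d : ℂ) := by
    simp [UpperHalfPlane.denom]
  rw [hden]
  have hNad : (N : ℂ) = (a : ℂ) * d := by exact_mod_cast congrArg (Int.cast : ℤ → ℂ) hN.symm
  rw [smul_eq_mul, hNad]
  have haC : (a : ℂ) ≠ 0 := by exact_mod_cast ha.ne'
  push_cast
  field_simp

/-- **(C2)**: an element of `SL(2,ℤ)` fixing `Θ_N` under the weight `4` slash action lies in
`Γ₀(N)`. -/
theorem mem_Gamma0_of_theta_slash_eq (N : ℕ) [NeZero N] (γ : SL(2, ℤ))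
    (h : (⇑(theta N) : ℍ → ℂ) ∣[(4 : ℤ)] (Matrix.SpecialLinearGroup.mapGL ℝ γ : GL (Fin 2) ℝ) =
      ⇑(theta N)) : γ ∈ Gamma0 N := by
  obtain ⟨g', a, b, d, ha, hd, had, hN, hfac⟩ :=
    Fermat.Agent.S22.heckeDiagMatrix_mul_SL N (NeZero.ne N) γ
  have hu : Tendsto (fun z : ℍ => ModularForm.upperTriangularGL a b d had • z)
      atImInfty atImInfty := tendsto_smul_atImInfty (by simp)
  have h1 : Tendsto (fun z : ℍ => ((d : ℂ) ^ 4)⁻¹ *
      E₄ (ModularForm.upperTriangularGL a b d had • z)) atImInfty (𝓝 (((d : ℂ) ^ 4)⁻¹ * 1)) :=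
    (tendsto_E4.comp hu).const_mul _
  have h2 : Tendsto (theta N) atImInfty (𝓝 (((d : ℂ) ^ 4)⁻¹ * 1)) :=
    h1.congr fun z => by
      rw [← theta_slash N γ g' a b d ha hd had hN hfac z, h]
  have h3 := tendsto_nhds_unique h2 (tendsto_theta N)
  have hd4 : d ^ 4 = 1 := by
    have hdC : (d : ℂ) ≠ 0 := by exact_mod_cast hd.ne'
    have : ((d : ℂ) ^ 4) = 1 := by
      rw [mul_one, inv_eq_one] at h3
      exact h3
    exact_mod_cast this
  have hd1 : d = 1 := by
    have h4 : (4 : ℕ) ≠ 0 := by norm_num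
    exact (pow_eq_one_iff_of_nonneg hd.le h4).mp hd4
  subst hd1
  rw [mul_one] at hN
  have h10 := congrArg (fun M : GL (Fin 2) ℝ => M.val 1 0) hfac
  simp only [Units.val_mul, ModularForm.val_upperTriangularGL,
    ModularForm.val_heckeDiagMatrix (NeZero.ne N)] at h10
  rw [Gamma0_mem]
  simp [Matrix.mul_apply, Fin.sum_univ_two] at h10
  have h11 : (γ : Matrix (Fin 2) (Fin 2) ℤ) 1 0 = (g' : Matrix (Fin 2) (Fin 2) ℤ) 1 0 * a := by
    exact_mod_cast h10
  rw [h11, hN]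
  simp

end

end Fermat.Agent.S23.H20

namespace Fermat.Agent.S23

open H20 in
/-- **(C1)+(C2)**: the primitive element `Θ_N(z) = E₄(N z)`: a weight `4` form on `Γ₀(N)` with
integer `q`-expansion, all of whose nontrivial `SL(2,ℤ)`-conjugates differ from it. -/
theorem exists_theta (N : ℕ) [NeZero N] : ∃ Θ : ModularForm (G0 N) 4, IsIntSeries (qExpansion 1 Θ) ∧
    ∀ q : Q0 N, q ≠ (QuotientGroup.mk 1 : Q0 N) → SlashInvariantForm.quotientFunc Θ q ≠ ⇑Θ := by
  refine ⟨theta N, theta_isIntSeries N, ?_⟩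
  intro q hq hcontra
  induction q using QuotientGroup.induction_on with
  | H h =>
    apply hq
    obtain ⟨h, γ, rfl⟩ := h
    have h1 : (⇑(theta N) : ℍ → ℂ) ∣[(4 : ℤ)]
        (Matrix.SpecialLinearGroup.mapGL ℝ γ⁻¹ : GL (Fin 2) ℝ) = ⇑(theta N) := by
      rw [map_inv]
      exact hcontra
    have h2 := mem_Gamma0_of_theta_slash_eq N γ⁻¹ h1
    rw [QuotientGroup.eq, mul_one, Subgroup.mem_subgroupOf]
    exact ⟨γ⁻¹, h2, map_inv _ _⟩

end Fermat.Agent.S23
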