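import Fermat.Agent.S23.DenominatorCore
import Fermat.Agent.S23.Esymm
import Fermat.Agent.S23.Theta

/-!
# (C) The universal denominator `D = ∏_{q ≠ 1} (Θ - Θ_q)`.

With `Θ` from `exists_theta`, `μ = |Q0 N|`, `e_i = e_i(Θ_q)` (level one, weight `4 i`, by
`esymm_conj_isMF`) and `Tr` the Mathlib trace `ModularForm.trace 𝒮ℒ`, the Lagrange identity gives,
for every `f : ModularForm (G0 N) k`,
`f * D = ∑_{i < μ} ∑_{a + b = μ - 1 - i} (-1)^i e_i * Tr(f Θ^b) * Θ^a`, and the same with `f = 1`
for `D` itself. All `e_i`, `Tr(…)` are level one forms, hence in `intSpanM` by `levelOne_intSpan`;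
`Θ` has integer coefficients. The proof is in `DenominatorCore.lean`.
-/

set_option autoImplicit false

namespace Fermat.Agent.S23

open UpperHalfPlane
open scoped MatrixGroups

/-- (C) universal denominator -/
theorem exists_denominator (N : ℕ) [NeZero N] :
    ∃ (w : ℤ) (D : PowerSeries ℂ), D ≠ 0 ∧ D ∈ intSpanM (G0 N) w ∧
      ∀ (k : ℤ) (f : ModularForm (G0 N) k), qExpansion 1 f * D ∈ intSpanM (G0 N) (k + w) := by
  obtain ⟨Θ, hΘint, hΘne⟩ := exists_theta N
  exact exists_denominator_of N Θ hΘint hΘne fun i => esymm_conj_isMF N 4 Θ i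

end Fermat.Agent.S23
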