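import Fermat.Agent.S23.AutC

/-!
# (E2) Galois descent for finite-dimensional spaces of power series.

A `ℂ`-subspace `V ⊆ ℂ⟦q⟧` whose elements are determined by their first `B + 1` coefficients and
which is stable under the coefficientwise action of every ring homomorphism `σ : ℂ →+* ℂ` is
spanned by its elements with rational coefficients.

Proof. `V` is finite dimensional, so it has an echelon basis `(r_j)` with pivots `n_k`
(`coeff (n k) (r j) = δ_{jk}`, and an element of `V` with vanishing pivot coefficients is `0`);
`σ (r j) - r j ∈ V` has vanishing pivot coefficients, so `σ (r j) = r j` for every `σ`, hence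
`r j` has rational coefficients by `exists_ringHom_ne`.
-/

set_option autoImplicit false

namespace Fermat.Agent.S23

/-- Every finite-dimensional space of power series has an echelon basis: a finite family `r` of
elements and pivot indices `n` with `coeff (n k) (r j) = δ_{jk}`, such that an element of the
space with vanishing pivot coefficients is zero. -/
theorem exists_echelon (V : Submodule ℂ (PowerSeries ℂ)) [FiniteDimensional ℂ V] :
    ∃ (ι : Type) (_ : Fintype ι) (_ : DecidableEq ι) (n : ι → ℕ) (r : ι → PowerSeries ℂ),
      (∀ j, r j ∈ V) ∧ (∀ j k, PowerSeries.coeff (n k) (r j) = if j = k then 1 else 0) ∧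
      (∀ f ∈ V, (∀ k, PowerSeries.coeff (n k) f = 0) → f = 0) := by
  classical
  induction hd : Module.finrank ℂ V using Nat.strong_induction_on generalizing V with
  | _ d ih =>
    by_cases hV : V = ⊥
    · subst hV
      exact ⟨PEmpty, inferInstance, inferInstance, PEmpty.elim, PEmpty.elim,
        fun j => j.elim, fun j => j.elim, fun f hf _ => by simpa using hf⟩
    · obtain ⟨u, huV, hu0⟩ := (Submodule.ne_bot_iff V).mp hV
      obtain ⟨i, hi⟩ : ∃ i, PowerSeries.coeff i u ≠ 0 := by
        by_contra hcon
        simp only [not_exists, not_not] at hcon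
        exact hu0 (PowerSeries.ext hcon)
      let V₁ : Submodule ℂ (PowerSeries ℂ) := V ⊓ LinearMap.ker (PowerSeries.coeff (R := ℂ) i)
      have hle : V₁ ≤ V := inf_le_left
      have hlt : V₁ < V := by
        refine lt_of_le_of_ne hle fun h => ?_
        have : u ∈ V₁ := h ▸ huV
        exact hi (LinearMap.mem_ker.mp this.2)
      have : FiniteDimensional ℂ V₁ := Submodule.finiteDimensional_of_le hle
      have hrank : Module.finrank ℂ V₁ < d := hd ▸ Submodule.finrank_lt_finrank_of_lt hlt
      obtain ⟨ι, _, _, n, r, hrV, hrn, huniq⟩ := ih _ hrank V₁ rfl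
      let u' : PowerSeries ℂ := (PowerSeries.coeff i u)⁻¹ • u
      have hu'V : u' ∈ V := V.smul_mem _ huV
      have hu'i : PowerSeries.coeff i u' = 1 := by
        simp [u', hi]
      let w : PowerSeries ℂ := u' - ∑ j, PowerSeries.coeff (n j) u' • r j
      have hwV : w ∈ V :=
        V.sub_mem hu'V (V.sum_mem fun j _ => V.smul_mem _ (hle (hrV j)))
      have hri : ∀ j, PowerSeries.coeff i (r j) = 0 := fun j =>
        LinearMap.mem_ker.mp (hrV j).2
      have hwi : PowerSeries.coeff i w = 1 := by
        simp [w, hu'i, hri]
      have hwn : ∀ k, PowerSeries.coeff (n k) w = 0 := by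
        intro k
        simp [w, hrn, Finset.sum_ite_eq']
      refine ⟨Option ι, inferInstance, inferInstance, fun o => o.elim i n,
        fun o => o.elim w r, ?_, ?_, ?_⟩
      · rintro (_ | j)
        · exact hwV
        · exact hle (hrV j)
      · rintro (_ | j) (_ | k)
        · simpa using hwi
        · simpa using hwn k
        · simpa using hri j
        · simpa using hrn j k
      · intro f hfV hf
        have hfi : PowerSeries.coeff i f = 0 := hf none
        have hfV₁ : f ∈ V₁ := ⟨hfV, LinearMap.mem_ker.mpr hfi⟩
        exact huniq f hfV₁ fun k => hf (some k)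

/-- **Galois descent**, finite-dimensional version. -/
theorem span_rational_of_stable (V : Submodule ℂ (PowerSeries ℂ)) [FiniteDimensional ℂ V]
    (hV : ∀ σ : ℂ →+* ℂ, ∀ f ∈ V, PowerSeries.map σ f ∈ V) :
    V ≤ Submodule.span ℂ {v | v ∈ V ∧ IsRatSeries v} := by
  classical
  obtain ⟨ι, _, _, n, r, hrV, hrn, huniq⟩ := exists_echelon V
  -- each `r j` is fixed by every ring homomorphism
  have hfix : ∀ (σ : ℂ →+* ℂ) (j : ι), PowerSeries.map σ (r j) = r j := by
    intro σ j
    have hmem : PowerSeries.map σ (r j) - r j ∈ V := V.sub_mem (hV σ _ (hrV j)) (hrV j)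
    have := huniq _ hmem fun k => by
      simp only [map_sub, PowerSeries.coeff_map, hrn]
      split_ifs <;> simp
    exact sub_eq_zero.mp this
  have hrat : ∀ j, r j ∈ {v : PowerSeries ℂ | v ∈ V ∧ IsRatSeries v} := by
    intro j
    refine ⟨hrV j, fun m => ?_⟩
    by_contra hcon
    obtain ⟨σ, hσ⟩ := exists_ringHom_ne (PowerSeries.coeff m (r j))
      (fun q hq => hcon ⟨q, hq.symm⟩)
    apply hσ
    have := congrArg (PowerSeries.coeff m) (hfix σ j)
    simpa [PowerSeries.coeff_map] using this
  intro f hf
  have hf' : f = ∑ k, PowerSeries.coeff (n k) f • r k := by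
    have hmem : f - ∑ k, PowerSeries.coeff (n k) f • r k ∈ V :=
      V.sub_mem hf (V.sum_mem fun k _ => V.smul_mem _ (hrV k))
    have := huniq _ hmem fun k => by
      simp [hrn, Finset.sum_ite_eq']
    exact sub_eq_zero.mp this
  rw [hf']
  exact Submodule.sum_mem _ fun k _ => Submodule.smul_mem _ _ (Submodule.subset_span (hrat k))

/-- A space of power series whose elements are determined by their first `B + 1` coefficients is
finite dimensional. -/
theorem finiteDimensional_of_bound (V : Submodule ℂ (PowerSeries ℂ)) (B : ℕ)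
    (hB : ∀ v ∈ V, (∀ n ≤ B, PowerSeries.coeff n v = 0) → v = 0) :
    FiniteDimensional ℂ V := by
  let T : V →ₗ[ℂ] (Fin (B + 1) → ℂ) :=
    { toFun := fun v i => PowerSeries.coeff (i : ℕ) (v : PowerSeries ℂ)
      map_add' := fun v w => by ext i; simp
      map_smul' := fun c v => by ext i; simp }
  have hT : Function.Injective T := by
    rw [← LinearMap.ker_eq_bot, LinearMap.ker_eq_bot']
    intro v hv
    apply Subtype.ext
    refine hB v v.2 fun n hn => ?_
    have := congrFun hv ⟨n, Nat.lt_succ_of_le hn⟩
    simpa [T] using this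
  exact FiniteDimensional.of_injective T hT

/-- (E2) descent -/
theorem rational_span_of_stable (V : Submodule ℂ (PowerSeries ℂ)) (B : ℕ)
    (hB : ∀ v ∈ V, (∀ n ≤ B, PowerSeries.coeff n v = 0) → v = 0)
    (hσ : ∀ σ : ℂ →+* ℂ, ∀ v ∈ V, PowerSeries.map σ v ∈ V) :
    V ≤ Submodule.span ℂ {v | v ∈ V ∧ IsRatSeries v} := by
  have := finiteDimensional_of_bound V B hB
  exact span_rational_of_stable V hσ

end Fermat.Agent.S23
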