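import Mathlib

/-!
# S23 step (A): level-one modular forms are spanned by forms with integer `q`-expansion

Main results (namespace `Fermat.Agent.S23.H91`):

* `levelOne_span_int` : `M_k(SL₂(ℤ))` is the `ℂ`-span of the forms whose `q`-expansion has
  integer coefficients.
* `levelOne_exists_map` : for every ring hom `σ : ℂ →+* ℂ` and every level-one form `g` there is a
  level-one form of the same weight with `q`-expansion `σ(qExp g)` (coefficientwise).
* `levelOne_cusp_exists_map` : the same for cusp forms.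
-/

set_option autoImplicit false

open UpperHalfPlane ModularForm ModularFormClass MatrixGroups EisensteinSeries
open scoped Manifold

namespace Fermat.Agent.S23.H91

/-- The subring of `ℂ⟦X⟧` of power series with integer coefficients. -/
noncomputable def intSeries : Subring (PowerSeries ℂ) := (PowerSeries.map (Int.castRingHom ℂ)).range

lemma mem_intSeries_iff (A : PowerSeries ℂ) :
    A ∈ intSeries ↔ ∀ n, ∃ m : ℤ, PowerSeries.coeff n A = (m : ℂ) := by
  constructor
  · rintro ⟨a, rfl⟩ n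
    exact ⟨PowerSeries.coeff n a, by simp⟩
  · intro h
    choose m hm using h
    refine ⟨PowerSeries.mk m, ?_⟩
    ext n
    simp [hm n]

lemma map_eq_self_of_mem_intSeries (σ : ℂ →+* ℂ) {A : PowerSeries ℂ} (hA : A ∈ intSeries) :
    PowerSeries.map σ A = A := by
  obtain ⟨a, rfl⟩ := hA
  ext n
  simp

lemma natCast_smul_mem_intSeries (d : ℤ) {A : PowerSeries ℂ} (hA : A ∈ intSeries) :
    (d : ℂ) • A ∈ intSeries := by
  rw [mem_intSeries_iff] at hA ⊢
  intro n
  obtain ⟨m, hm⟩ := hA n
  exact ⟨d * m, by simp [hm]⟩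

/-- The set of level-one forms of weight `k` with integer `q`-expansion. -/
def intForms (k : ℤ) : Set (ModularForm 𝒮ℒ k) :=
  {g | ∀ n, ∃ m : ℤ, PowerSeries.coeff n (qExpansion 1 g) = (m : ℂ)}

lemma mem_intForms_iff {k : ℤ} (g : ModularForm 𝒮ℒ k) :
    g ∈ intForms k ↔ qExpansion 1 g ∈ intSeries :=
  (mem_intSeries_iff _).symm

lemma qExpansion_smul' {k : ℤ} (c : ℂ) (g : ModularForm 𝒮ℒ k) :
    qExpansion 1 ((c • g : ModularForm 𝒮ℒ k) : ℍ → ℂ) = c • qExpansion 1 (g : ℍ → ℂ) :=
  ModularForm.qExpansion_smul one_pos one_mem_strictPeriods_SL c g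

lemma qExpansion_add' {k : ℤ} (f g : ModularForm 𝒮ℒ k) :
    qExpansion 1 ((f + g : ModularForm 𝒮ℒ k) : ℍ → ℂ) =
      qExpansion 1 (f : ℍ → ℂ) + qExpansion 1 (g : ℍ → ℂ) :=
  ModularForm.qExpansion_add one_pos one_mem_strictPeriods_SL f g

lemma qExpansion_sub' {k : ℤ} (f g : ModularForm 𝒮ℒ k) :
    qExpansion 1 ((f - g : ModularForm 𝒮ℒ k) : ℍ → ℂ) =
      qExpansion 1 (f : ℍ → ℂ) - qExpansion 1 (g : ℍ → ℂ) :=
  ModularForm.qExpansion_sub one_pos one_mem_strictPeriods_SL f g

/-- If a nonzero multiple of `g` has integer `q`-expansion then `g` lies in the span. -/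
lemma mem_span_of_smul_mem {k : ℤ} (g : ModularForm 𝒮ℒ k) (c : ℂ) (hc : c ≠ 0)
    (h : c • qExpansion 1 g ∈ intSeries) : g ∈ Submodule.span ℂ (intForms k) := by
  have h1 : c • g ∈ intForms k := by
    rw [mem_intForms_iff, qExpansion_smul']
    exact h
  have h2 : g = c⁻¹ • (c • g) := by
    rw [smul_smul, inv_mul_cancel₀ hc, one_smul]
  rw [h2]
  exact Submodule.smul_mem _ _ (Submodule.subset_span h1)

/-- A nonzero integer multiple of the Eisenstein series has integer `q`-expansion. -/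
lemma exists_smul_E_mem_intSeries {k : ℕ} (hk : 3 ≤ k) (hk2 : Even k) :
    ∃ d : ℤ, d ≠ 0 ∧ (d : ℂ) • qExpansion 1 (E hk) ∈ intSeries := by
  set r : ℚ := -(2 * k / bernoulli k) with hr
  refine ⟨(r.den : ℤ), by exact_mod_cast r.den_ne_zero, ?_⟩
  rw [mem_intSeries_iff]
  intro n
  rw [PowerSeries.coeff_smul, E_qExpansion_coeff hk hk2]
  by_cases hn : n = 0
  · refine ⟨r.den, ?_⟩
    simp [hn]
  · refine ⟨r.num * (ArithmeticFunction.sigma (k - 1) n : ℕ), ?_⟩
    simp only [hn, if_false]
    have h1 : (-(2 * (k : ℂ) / (bernoulli k : ℂ))) = ((r : ℚ) : ℂ) := by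
      rw [hr]; push_cast; ring
    rw [h1]
    have h2 : ((r.den : ℤ) : ℂ) * ((r : ℚ) : ℂ) = ((r.num : ℤ) : ℂ) := by
      have := Rat.den_mul_eq_num r
      exact_mod_cast congrArg (fun x : ℚ => (x : ℂ)) this
    push_cast
    push_cast at h2
    rw [smul_eq_mul, ← mul_assoc, h2]

lemma E_mem_span {k : ℕ} (hk : 3 ≤ k) (hk2 : Even k) :
    E hk ∈ Submodule.span ℂ (intForms (k : ℤ)) := by
  obtain ⟨d, hd, h⟩ := exists_smul_E_mem_intSeries hk hk2
  exact mem_span_of_smul_mem (E hk) (d : ℂ) (by exact_mod_cast hd) h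

/-- The form `E₄³ - E₆²` of weight 12. -/
noncomputable def e4e6 : ModularForm 𝒮ℒ 12 :=
  ModularForm.mcast (by decide) (E₄.pow 3) - ModularForm.mcast (by decide) (E₆.pow 2)

lemma e4e6_apply (z : ℍ) : e4e6 z = E₄ z ^ 3 - E₆ z ^ 2 := by
  simp only [e4e6, coe_mcast, coe_pow, sub_apply, Pi.pow_apply]

lemma e4e6_qExpansion_eq :
    qExpansion 1 e4e6 = qExpansion 1 E₄ ^ 3 - qExpansion 1 E₆ ^ 2 := by
  simp only [e4e6, FunLike.coe_sub, coe_mcast,
    ModularForm.qExpansion_sub one_pos one_mem_strictPeriods_SL,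
    ModularForm.qExpansion_pow one_pos one_mem_strictPeriods_SL]

lemma smul_discriminant_qExpansion :
    (1728 : ℂ) • qExpansion 1 ModularForm.discriminant = qExpansion 1 E₄ ^ 3 - qExpansion 1 E₆ ^ 2 := by
  rw [← e4e6_qExpansion_eq, ← CuspForm.coe_discriminant,
    ← ModularForm.qExpansion_smul one_pos one_mem_strictPeriods_SL (1728 : ℂ) CuspForm.discriminant]
  congr 1
  funext z
  rw [e4e6_apply, Pi.smul_apply, CuspForm.coe_discriminant, discriminant_eq_E₄_cube_sub_E₆_sq z,
    smul_eq_mul]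
  ring

/-- A nonzero multiple of the discriminant has integer `q`-expansion. -/
lemma exists_smul_discriminant_mem_intSeries :
    ∃ c : ℂ, c ≠ 0 ∧ c • qExpansion 1 ModularForm.discriminant ∈ intSeries := by
  obtain ⟨d₄, hd₄, h₄⟩ := exists_smul_E_mem_intSeries (k := 4) (by norm_num) ⟨2, rfl⟩
  obtain ⟨d₆, hd₆, h₆⟩ := exists_smul_E_mem_intSeries (k := 6) (by norm_num) ⟨3, rfl⟩
  have h4 : (d₄ : ℂ) ≠ 0 := by exact_mod_cast hd₄
  have h6 : (d₆ : ℂ) ≠ 0 := by exact_mod_cast hd₆
  refine ⟨((d₄ : ℂ) ^ 3 * (d₆ : ℂ) ^ 2) * 1728, ?_, ?_⟩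
  · exact mul_ne_zero (mul_ne_zero (pow_ne_zero _ h4) (pow_ne_zero _ h6)) (by norm_num)
  · rw [mul_smul, smul_discriminant_qExpansion]
    have key : ((d₄ : ℂ) ^ 3 * (d₆ : ℂ) ^ 2) • (qExpansion 1 E₄ ^ 3 - qExpansion 1 E₆ ^ 2) =
        ((d₆ ^ 2 : ℤ) : ℂ) • ((d₄ : ℂ) • qExpansion 1 E₄) ^ 3 -
          ((d₄ ^ 3 : ℤ) : ℂ) • ((d₆ : ℂ) • qExpansion 1 E₆) ^ 2 := by
      push_cast
      simp only [smul_pow, smul_sub, smul_smul]
      congr 1
      congr 1; ring
    rw [key]
    exact Subring.sub_mem _ (natCast_smul_mem_intSeries _ (Subring.pow_mem _ h₄ 3))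
      (natCast_smul_mem_intSeries _ (Subring.pow_mem _ h₆ 2))

/-- Multiplication by `Δ`, as a linear map `M_{k-12} → M_k`. -/
noncomputable def mulDelta (k : ℤ) : ModularForm 𝒮ℒ (k - 12) →ₗ[ℂ] ModularForm 𝒮ℒ k :=
  CuspForm.toModularFormₗ ∘ₗ (CuspForm.discriminantEquiv (k := k)).symm.toLinearMap

lemma mulDelta_apply (k : ℤ) (g : ModularForm 𝒮ℒ (k - 12)) (z : ℍ) :
    mulDelta k g z = ModularForm.discriminant z * g z := rfl

lemma qExpansion_mulDelta (k : ℤ) (g : ModularForm 𝒮ℒ (k - 12)) :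
    qExpansion 1 (mulDelta k g) = qExpansion 1 ModularForm.discriminant * qExpansion 1 g := by
  have h : ((mulDelta k g : ModularForm 𝒮ℒ k) : ℍ → ℂ) =
      (CuspForm.discriminant : ℍ → ℂ) * (g : ℍ → ℂ) := by
    funext z
    rw [mulDelta_apply, Pi.mul_apply, CuspForm.coe_discriminant]
  rw [h, ModularForm.qExpansion_mul_coe one_pos one_mem_strictPeriods_SL, CuspForm.coe_discriminant]

lemma mulDelta_mem_span (k : ℤ) (g : ModularForm 𝒮ℒ (k - 12))
    (hg : g ∈ Submodule.span ℂ (intForms (k - 12))) :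
    mulDelta k g ∈ Submodule.span ℂ (intForms k) := by
  obtain ⟨c, hc, hcΔ⟩ := exists_smul_discriminant_mem_intSeries
  have hle : Submodule.span ℂ (intForms (k - 12)) ≤
      (Submodule.span ℂ (intForms k)).comap (mulDelta k) := by
    rw [Submodule.span_le]
    intro g₀ hg₀
    rw [SetLike.mem_coe, Submodule.mem_comap]
    apply mem_span_of_smul_mem _ c hc
    rw [qExpansion_mulDelta, ← smul_mul_assoc]
    exact Subring.mul_mem _ hcΔ ((mem_intForms_iff g₀).mp hg₀)
  exact hle hg

lemma eq_zero_of_rank_zero {k : ℤ} (h : Module.rank ℂ (ModularForm 𝒮ℒ k) = 0)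
    (f : ModularForm 𝒮ℒ k) : f = 0 :=
  rank_zero_iff_forall_zero.mp h f

/-- Key induction: every level one form of weight `≤ n` lies in the span of the integral ones. -/
theorem mem_span_of_le (n : ℕ) : ∀ k : ℤ, k ≤ n → ∀ f : ModularForm 𝒮ℒ k,
    f ∈ Submodule.span ℂ (intForms k) := by
  induction n with
  | zero =>
    intro k hk f
    rcases lt_or_eq_of_le hk with hneg | h0
    · have : f = 0 := DFunLike.coe_injective (levelOne_neg_weight_eq_zero (by simpa using hneg) f)
      rw [this]; exact Submodule.zero_mem _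
    · have hk0 : k = 0 := by simpa using h0
      subst hk0
      obtain ⟨c, hc⟩ := levelOne_weight_zero_const f
      have hf : f = c • (1 : ModularForm 𝒮ℒ 0) := by
        apply DFunLike.coe_injective
        rw [hc]
        funext z
        simp
      rw [hf]
      apply Submodule.smul_mem
      apply Submodule.subset_span
      rw [mem_intForms_iff, ModularForm.qExpansion_one]
      exact Subring.one_mem _
  | succ n ih =>
    intro k hk f
    rcases lt_or_eq_of_le hk with hlt | heq
    · exact ih k (by push_cast at hlt; omega) f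
    · -- `k = n + 1`
      subst heq
      rcases Nat.even_or_odd (n + 1) with hev | hodd
      · by_cases h2 : n + 1 = 2
        · -- weight 2
          have hn1 : n = 1 := by omega
          subst hn1
          have : f = 0 := eq_zero_of_rank_zero levelOne_weight_two_rank_zero f
          rw [this]; exact Submodule.zero_mem _
        · -- weight `≥ 4`
          have hk3 : 3 ≤ n + 1 := by
            obtain ⟨m, hm⟩ := hev
            omega
          set a₀ : ℂ := PowerSeries.coeff 0 (qExpansion 1 f) with ha₀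
          set f' : ModularForm 𝒮ℒ ((n + 1 : ℕ) : ℤ) := f - a₀ • E hk3 with hf'
          have hcusp : PowerSeries.coeff 0 (qExpansion 1 f') = 0 := by
            rw [hf', qExpansion_sub', qExpansion_smul', map_sub, PowerSeries.coeff_smul,
              E_qExpansion_coeff_zero hk3 hev, smul_eq_mul, mul_one, sub_self]
          have hf'eq : f' = mulDelta _ (CuspForm.discriminantEquiv (toCuspForm f' hcusp)) := by
            apply DFunLike.coe_injective
            funext z
            rw [mulDelta_apply, discriminant_mul_discriminantEquiv_apply, toCuspForm_apply]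
          have hg := ih _ (by push_cast; omega)
            (CuspForm.discriminantEquiv (toCuspForm f' hcusp))
          have h1 : f' ∈ Submodule.span ℂ (intForms ((n + 1 : ℕ) : ℤ)) := by
            rw [hf'eq]
            exact mulDelta_mem_span _ _ hg
          have h2 : f = f' + a₀ • E hk3 := by rw [hf']; abel
          rw [h2]
          exact Submodule.add_mem _ h1 (Submodule.smul_mem _ _ (E_mem_span hk3 hev))
      · have : f = 0 := levelOne_odd_weight_eq_zero (by exact_mod_cast hodd) f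
        rw [this]; exact Submodule.zero_mem _

/-- **(A1)** Level-one modular forms of weight `k` are spanned over `ℂ` by the forms with integer
`q`-expansion coefficients. -/
theorem levelOne_span_int (k : ℤ) :
    Submodule.span ℂ {g : ModularForm 𝒮ℒ k |
      ∀ n, ∃ m : ℤ, PowerSeries.coeff n (qExpansion 1 g) = (m : ℂ)} = ⊤ := by
  rw [eq_top_iff]
  intro f _
  exact mem_span_of_le k.toNat k (Int.self_le_toNat k) f

/-- **(A2)** Coefficientwise application of a ring homomorphism `σ : ℂ →+* ℂ` to the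
`q`-expansion of a level-one modular form gives the `q`-expansion of a level-one modular form. -/
theorem levelOne_exists_map (σ : ℂ →+* ℂ) (k : ℤ) (g : ModularForm 𝒮ℒ k) :
    ∃ g' : ModularForm 𝒮ℒ k, qExpansion 1 g' = PowerSeries.map σ (qExpansion 1 g) := by
  have hg : g ∈ Submodule.span ℂ (intForms k) := mem_span_of_le k.toNat k (Int.self_le_toNat k) g
  induction hg using Submodule.span_induction with
  | mem x hx =>
    exact ⟨x, (map_eq_self_of_mem_intSeries σ ((mem_intForms_iff x).mp hx)).symm⟩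
  | zero =>
    refine ⟨0, ?_⟩
    have h0 : ((0 : ModularForm 𝒮ℒ k) : ℍ → ℂ) = 0 := rfl
    rw [h0, qExpansion_zero, map_zero]
  | add x y _ _ hx hy =>
    obtain ⟨x', hx'⟩ := hx
    obtain ⟨y', hy'⟩ := hy
    exact ⟨x' + y', by rw [qExpansion_add', qExpansion_add', map_add, hx', hy']⟩
  | smul c x _ hx =>
    obtain ⟨x', hx'⟩ := hx
    refine ⟨σ c • x', ?_⟩
    rw [qExpansion_smul', qExpansion_smul', hx']
    ext n
    simp

/-- **(A3)** The same for cusp forms. -/
theorem levelOne_cusp_exists_map (σ : ℂ →+* ℂ) (k : ℤ) (g : CuspForm 𝒮ℒ k) :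
    ∃ g' : CuspForm 𝒮ℒ k, qExpansion 1 g' = PowerSeries.map σ (qExpansion 1 g) := by
  obtain ⟨g', hg'⟩ := levelOne_exists_map σ k (CuspForm.toModularFormₗ g)
  have hcoe : ((CuspForm.toModularFormₗ g : ModularForm 𝒮ℒ k) : ℍ → ℂ) = (g : ℍ → ℂ) := rfl
  rw [hcoe] at hg'
  have h0 : PowerSeries.coeff 0 (qExpansion 1 g') = 0 := by
    rw [hg', PowerSeries.coeff_map,
      CuspFormClass.qExpansion_coeff_zero g one_pos one_mem_strictPeriods_SL, map_zero]
  refine ⟨toCuspForm g' h0, ?_⟩
  have hcoe' : ((toCuspForm g' h0 : CuspForm 𝒮ℒ k) : ℍ → ℂ) = (g' : ℍ → ℂ) := by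
    funext z; exact toCuspForm_apply g' h0 z
  rw [hcoe', hg']

end Fermat.Agent.S23.H91
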