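import Fermat.Agent.S23.Defs
import Fermat.Agent.S23.H91LevelOne

/-!
# (A) Level one: every modular form of level `SL(2,ℤ)` is a `ℂ`-combination of forms with
integer `q`-expansion.

This is the adapter of `Fermat.Agent.S23.H91.mem_span_of_le` (proved in `H91LevelOne.lean`) to
the interface of the S23 project (`intSpanM`).
-/

set_option autoImplicit false

namespace Fermat.Agent.S23

open UpperHalfPlane
open scoped MatrixGroups

/-- (A) level one -/
theorem levelOne_intSpan (k : ℤ) (f : ModularForm 𝒮ℒ k) :
    qExpansion 1 f ∈ intSpanM 𝒮ℒ k := by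
  have hf : f ∈ Submodule.span ℂ (H91.intForms k) :=
    H91.mem_span_of_le k.toNat k (Int.self_le_toNat k) f
  induction hf using Submodule.span_induction with
  | mem x hx =>
    exact Submodule.subset_span ⟨⟨x, rfl⟩, hx⟩
  | zero =>
    have h0 : ((0 : ModularForm 𝒮ℒ k) : ℍ → ℂ) = 0 := rfl
    rw [h0, qExpansion_zero]
    exact Submodule.zero_mem _
  | add x y _ _ hx hy =>
    rw [H91.qExpansion_add']
    exact Submodule.add_mem _ hx hy
  | smul c x _ hx =>
    rw [H91.qExpansion_smul']
    exact Submodule.smul_mem _ c hx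

end Fermat.Agent.S23
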