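import Fermat.Agent.S23.IntSpan
import Fermat.Agent.S23.Coeff
import Fermat.Agent.S23.LevelOne
import Fermat.Agent.S23.Esymm
import Fermat.Agent.S23.Denominator
import Fermat.Agent.S23.Converse
import Fermat.Agent.S23.Descent
import Fermat.Agent.S23.Normality
import Fermat.Agent.S23.BddDenom
import Fermat.Prelude.Thm_ModularForm_sturm_bound_Gamma0

/-!
# (G) Main theorem: `S_k(Γ₀(N))` is spanned by forms with integer `q`-expansion.
-/

set_option autoImplicit false

namespace Fermat.Agent.S23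

open UpperHalfPlane
open scoped MatrixGroups

/-- `q`-expansion as a linear map on cusp forms -/
noncomputable def qExpCusp (N : ℕ) (k : ℤ) : CuspForm (G0 N) k →ₗ[ℂ] PowerSeries ℂ where
  toFun f := qExpansion 1 f
  map_add' f g := ModularForm.qExpansion_add one_pos (one_mem_strictPeriods_G0 N) f g
  map_smul' c f := ModularForm.qExpansion_smul one_pos (one_mem_strictPeriods_G0 N) c f

@[simp] theorem qExpCusp_apply (N : ℕ) (k : ℤ) (f : CuspForm (G0 N) k) :
    qExpCusp N k f = qExpansion 1 f := rfl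

theorem qExpCusp_sturm (N : ℕ) [NeZero N] (k : ℤ) (f : CuspForm (G0 N) k)
    (h : ∀ n ≤ (k * ↑(CongruenceSubgroup.Gamma0 N).index).toNat / 12,
      PowerSeries.coeff n (qExpansion 1 f) = 0) : f = 0 := by
  have := ModularForm.sturm_bound_Gamma0 N (CuspForm.toModularFormₗ f) h
  exact CuspForm.toModularFormₗ_injective (by simpa using this)

theorem qExpCusp_injective (N : ℕ) [NeZero N] (k : ℤ) :
    Function.Injective (qExpCusp N k) := by
  rw [← LinearMap.ker_eq_bot, LinearMap.ker_eq_bot']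
  intro f hf
  refine qExpCusp_sturm N k f fun n _ => ?_
  rw [← qExpCusp_apply, hf]; simp

theorem mem_range_qExpCusp (N : ℕ) (k : ℤ) (h : PowerSeries ℂ) :
    h ∈ LinearMap.range (qExpCusp N k) ↔ IsQS (G0 N) k h := Iff.rfl

/-- Galois stability of the space of `q`-expansions of cusp forms. -/
theorem galois_stable (N : ℕ) [NeZero N] (k : ℤ) (σ : ℂ →+* ℂ) (f : CuspForm (G0 N) k) :
    IsQS (G0 N) k (PowerSeries.map σ (qExpansion 1 f)) := by
  obtain ⟨w, D, hD0, hDs, hmul⟩ := exists_denominator N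
  obtain ⟨m, r, hr, hr0, hrel⟩ := exists_monic_relation_cusp N k f
  refine converse_cusp N k w (PowerSeries.map σ D) (PowerSeries.map σ (qExpansion 1 f * D))
    ?_ ?_ ?_ m (fun i => PowerSeries.map σ (r i)) ?_ ?_ _ ?_ ?_
  · exact isQM_of_mem_intSpanM N w (intSpanM_map _ _ σ hDs)
  · intro h0
    apply hD0
    ext n
    have := congrArg (PowerSeries.coeff n) h0
    simpa using this
  · exact isQM_of_mem_intSpanM N (k + w)
      (intSpanM_map _ _ σ (hmul k (CuspForm.toModularFormₗ f)))
  · intro i hi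
    obtain ⟨R, hR⟩ := hr i hi
    have h1 := levelOne_intSpan _ R
    rw [hR] at h1
    exact isQM_of_mem_intSpanM_levelOne _ (intSpanM_map _ _ σ h1)
  · intro i hi
    simp [hr0 i hi]
  · simp [map_mul]
  · have := congrArg (PowerSeries.map σ) hrel
    simpa [map_add, map_sum, map_mul, map_pow] using this

/-- A cusp form with rational `q`-expansion has bounded denominators. -/
theorem bdd_of_rat (N : ℕ) [NeZero N] (k : ℤ) (f : CuspForm (G0 N) k)
    (hf : IsRatSeries (qExpansion 1 f)) :
    ∃ M : ℤ, M ≠ 0 ∧ IsIntSeries ((M : ℂ) • qExpansion 1 f) := by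
  choose a ha using hf
  set x : PowerSeries ℚ := PowerSeries.mk a with hx
  have hxf : x.map (algebraMap ℚ ℂ) = qExpansion 1 f := by
    ext n; simp [hx, ha]
  obtain ⟨w, D, hD0, hDs, hmul⟩ := exists_denominator N
  obtain ⟨m, r, hr, -, hrel⟩ := exists_monic_relation_cusp N k f
  obtain ⟨l₁, hl₁⟩ := exists_retraction
  obtain ⟨l₂, hl₂⟩ := exists_coeffMap_ne_zero hD0
  have hG := hmul k (CuspForm.toModularFormₗ f)
  have hG' : qExpansion 1 (CuspForm.toModularFormₗ f) = qExpansion 1 f := rfl
  rw [hG'] at hG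
  have key : HasBddDenom x := by
    refine bddDenom_of_frac_of_integral x (coeffMap l₂ D) (coeffMap l₂ (qExpansion 1 f * D)) hl₂
      (coeffMap_mem_intSpanM l₂ _ _ hDs) (coeffMap_mem_intSpanM l₂ _ _ hG) ?_ m
      (fun i => coeffMap l₁ (r i)) ?_ ?_
    · rw [← hxf, coeffMap_rat_mul]
    · intro i hi
      obtain ⟨R, hR⟩ := hr i hi
      have h1 := levelOne_intSpan _ R
      rw [hR] at h1
      exact coeffMap_mem_intSpanM l₁ _ _ h1
    · have h0 := congrArg (coeffMap l₁) hrel
      rw [coeffMap_zero, coeffMap_add, coeffMap_sum, ← hxf] at h0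
      rw [← map_pow, coeffMap_rat l₁ hl₁] at h0
      rw [← h0]
      congr 1
      refine Finset.sum_congr rfl fun i _ => ?_
      rw [← map_pow, coeffMap_mul_rat]
  obtain ⟨M, hM, hMx⟩ := key
  refine ⟨M, hM, fun n => ?_⟩
  obtain ⟨b, hb⟩ := hMx n
  refine ⟨b, ?_⟩
  have h2 : PowerSeries.coeff n (qExpansion 1 f) = ((PowerSeries.coeff n x : ℚ) : ℂ) := by
    rw [← hxf]; simp
  rw [PowerSeries.coeff_smul, h2, smul_eq_mul]
  have := congrArg (fun t : ℚ => (t : ℂ)) hb
  simpa using this

/-- (G) main theorem -/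
theorem hasIntegralStructure_all (N : ℕ) [NeZero N] (k : ℤ) :
    CuspForm.HasIntegralStructure N k := by
  unfold CuspForm.HasIntegralStructure
  rw [eq_top_iff]
  intro f _
  -- the space of `q`-expansions
  have hdesc := rational_span_of_stable (LinearMap.range (qExpCusp N k))
    ((k * ↑(CongruenceSubgroup.Gamma0 N).index).toNat / 12)
    (by
      rintro v ⟨g, rfl⟩ hv
      rw [qExpCusp_sturm N k g hv, map_zero])
    (by
      rintro σ v ⟨g, rfl⟩
      exact galois_stable N k σ g)
  have hf : qExpCusp N k f ∈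
      Submodule.span ℂ {v | v ∈ LinearMap.range (qExpCusp N k) ∧ IsRatSeries v} :=
    hdesc ⟨f, rfl⟩
  -- the span of rational elements is in the image of the span of the lattice
  have hle : Submodule.span ℂ {v | v ∈ LinearMap.range (qExpCusp N k) ∧ IsRatSeries v} ≤
      (Submodule.span ℂ ((CuspForm.intLattice N k :
        Submodule ℤ (CuspForm (CongruenceSubgroup.Gamma0 N) k)) :
          Set (CuspForm (CongruenceSubgroup.Gamma0 N) k))).map (qExpCusp N k) := by
    rw [Submodule.span_le]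
    rintro v ⟨⟨g, rfl⟩, hv⟩
    obtain ⟨M, hM, hMg⟩ := bdd_of_rat N k g hv
    have hMC : (M : ℂ) ≠ 0 := by exact_mod_cast hM
    refine ⟨((M : ℂ)⁻¹) • ((M : ℂ) • g), ?_, ?_⟩
    · refine Submodule.smul_mem _ _ (Submodule.subset_span ?_)
      refine Submodule.subset_span ?_
      intro n
      obtain ⟨b, hb⟩ := hMg n
      refine ⟨b, ?_⟩
      rw [← hb]
      show PowerSeries.coeff n (qExpCusp N k ((M : ℂ) • g)) = _
      rw [map_smul]; rfl
    · rw [smul_smul, inv_mul_cancel₀ hMC, one_smul]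
  obtain ⟨f', hf', hff'⟩ := hle hf
  rwa [qExpCusp_injective N k hff'] at hf'

end Fermat.Agent.S23
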