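import Fermat.Agent.S23.Defs

/-!
# (E1) The field `ℂ` has enough ring endomorphisms: every non-rational complex number is moved
by some ring homomorphism `ℂ →+* ℂ` (in fact by a ring automorphism).

* transcendental case: extend `{c}` to a transcendence basis `t` of `ℂ/ℚ`; the automorphism
  `X_c ↦ X_c + 1` of `MvPolynomial t ℚ` extends to `ℂ` and moves `c` to `c + 1`.
* algebraic case: the algebraic closure `Qb` of `ℚ` in `ℂ` is Galois over `ℚ`, so some
  `φ ∈ Gal(Qb/ℚ)` moves `c`; the automorphism `MvPolynomial.mapEquiv s φ` of `MvPolynomial s Qb`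
  (`s` a transcendence basis of `ℂ/Qb`) extends to `ℂ`.
-/

set_option autoImplicit false

namespace Fermat.Agent.S23

section Extension

variable {k E : Type*} [Field k] [Field E] [IsAlgClosed E] [Algebra k E] {ι : Type*} {v : ι → E}

/-- An automorphism of the polynomial ring on a transcendence basis of `E/k` extends to a ring
automorphism of the algebraically closed field `E`. -/
theorem exists_ringEquiv_extending (hv : IsTranscendenceBasis k v)
    (α : MvPolynomial ι k ≃+* MvPolynomial ι k) :
    ∃ σ : E ≃+* E, ∀ p : MvPolynomial ι k,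
      σ (MvPolynomial.aeval v p) = MvPolynomial.aeval v (α p) := by
  classical
  have := IsAlgClosed.isAlgClosure_of_transcendence_basis v hv
  let e : Algebra.adjoin k (Set.range v) ≃+* Algebra.adjoin k (Set.range v) :=
    hv.1.aevalEquiv.symm.toRingEquiv.trans (α.trans hv.1.aevalEquiv.toRingEquiv)
  refine ⟨IsAlgClosure.equivOfEquiv E E e, fun p => ?_⟩
  have h1 : MvPolynomial.aeval v p =
      algebraMap (Algebra.adjoin k (Set.range v)) E (hv.1.aevalEquiv p) :=
    (hv.1.algebraMap_aevalEquiv p).symm
  have h2 : MvPolynomial.aeval v (α p) =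
      algebraMap (Algebra.adjoin k (Set.range v)) E (hv.1.aevalEquiv (α p)) :=
    (hv.1.algebraMap_aevalEquiv (α p)).symm
  rw [h1, h2, IsAlgClosure.equivOfEquiv_algebraMap]
  congr 1
  simp [e]

end Extension

section Moving

variable {F E : Type*} [Field F] [Field E] [IsAlgClosed E] [Algebra F E]

/-- A transcendental element of an algebraically closed field of characteristic zero is moved by
some ring automorphism. -/
theorem exists_ringEquiv_ne_of_transcendental [CharZero E] {x : E} (hx : Transcendental F x) :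
    ∃ σ : E ≃+* E, σ x ≠ x := by
  classical
  have hind : AlgebraicIndepOn F (id : E → E) {x} := by
    have : AlgebraicIndependent F (fun i : ({x} : Set E) => (i : E)) :=
      (algebraicIndependent_singleton_iff (⟨x, rfl⟩ : ({x} : Set E))).mpr hx
    exact this
  obtain ⟨t, hxt, ht⟩ := exists_isTranscendenceBasis_superset hind
  let x₀ : t := ⟨x, hxt rfl⟩
  let f : MvPolynomial t F →ₐ[F] MvPolynomial t F :=
    MvPolynomial.aeval fun i => MvPolynomial.X i + MvPolynomial.C (if i = x₀ then 1 else 0)
  let g : MvPolynomial t F →ₐ[F] MvPolynomial t F :=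
    MvPolynomial.aeval fun i => MvPolynomial.X i - MvPolynomial.C (if i = x₀ then 1 else 0)
  have hfg : f.comp g = AlgHom.id F _ := by
    apply MvPolynomial.algHom_ext
    intro i
    simp [f, g]
  have hgf : g.comp f = AlgHom.id F _ := by
    apply MvPolynomial.algHom_ext
    intro i
    simp [f, g]
  let α : MvPolynomial t F ≃ₐ[F] MvPolynomial t F := AlgEquiv.ofAlgHom f g hfg hgf
  obtain ⟨σ, hσ⟩ := exists_ringEquiv_extending ht α.toRingEquiv
  refine ⟨σ, ?_⟩
  have h := hσ (MvPolynomial.X x₀)
  have hα : α.toRingEquiv (MvPolynomial.X x₀) = MvPolynomial.X x₀ + 1 := by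
    simp [α, f]
  rw [hα] at h
  simp only [MvPolynomial.aeval_X, map_add, map_one] at h
  have hx0 : ((x₀ : t) : E) = x := rfl
  rw [hx0] at h
  rw [h]
  simp

/-- An algebraic element of an algebraically closed field `E` over a field `F` of characteristic
zero which does not lie in `F` is moved by some ring automorphism of `E`. -/
theorem exists_ringEquiv_ne_of_isAlgebraic [CharZero F] {x : E} (hx : IsAlgebraic F x)
    (hxF : x ∉ Set.range (algebraMap F E)) : ∃ σ : E ≃+* E, σ x ≠ x := by
  classical
  have hxQb : x ∈ algebraicClosure F E := mem_algebraicClosure_iff.mpr hx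
  have hcl : IsAlgClosure F (algebraicClosure F E) := algebraicClosure.isAlgClosure F E
  have hnormal : Normal F (algebraicClosure F E) := IsAlgClosure.normal F _
  have hgal : IsGalois F (algebraicClosure F E) := { }
  have hx0 : (⟨x, hxQb⟩ : algebraicClosure F E) ∉
      (⊥ : IntermediateField F (algebraicClosure F E)) := by
    rw [IntermediateField.mem_bot]
    rintro ⟨a, ha⟩
    exact hxF ⟨a, by simpa using congrArg Subtype.val ha⟩
  rw [InfiniteGalois.mem_bot_iff_fixed] at hx0
  simp only [not_forall] at hx0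
  obtain ⟨φ, hφ⟩ := hx0
  obtain ⟨s, hs⟩ := exists_isTranscendenceBasis (algebraicClosure F E) E
  obtain ⟨σ, hσ⟩ := exists_ringEquiv_extending hs (MvPolynomial.mapEquiv s φ.toRingEquiv)
  refine ⟨σ, ?_⟩
  have h := hσ (MvPolynomial.C ⟨x, hxQb⟩)
  simp only [MvPolynomial.mapEquiv_apply, MvPolynomial.map_C, MvPolynomial.aeval_C] at h
  intro hσx
  apply hφ
  apply Subtype.ext
  have h' : σ x = ((φ ⟨x, hxQb⟩ : algebraicClosure F E) : E) := h
  rw [← h', hσx]

end Moving

/-- Every non-rational complex number is moved by some ring automorphism of `ℂ`. -/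
theorem exists_ringEquiv_ne (x : ℂ) (hx : x ∉ Set.range ((↑) : ℚ → ℂ)) :
    ∃ σ : ℂ ≃+* ℂ, σ x ≠ x := by
  by_cases h : IsAlgebraic ℚ x
  · refine exists_ringEquiv_ne_of_isAlgebraic (F := ℚ) h ?_
    rintro ⟨a, ha⟩
    exact hx ⟨a, by rw [← ha]; simp⟩
  · exact exists_ringEquiv_ne_of_transcendental (F := ℚ) h

/-- (E1) enough ring endomorphisms of ℂ -/
theorem exists_ringHom_ne (c : ℂ) (hc : ∀ r : ℚ, (r : ℂ) ≠ c) :
    ∃ σ : ℂ →+* ℂ, σ c ≠ c := by
  obtain ⟨σ, hσ⟩ := exists_ringEquiv_ne c (by rintro ⟨r, hr⟩; exact hc r hr)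
  exact ⟨(σ : ℂ →+* ℂ), hσ⟩

end Fermat.Agent.S23
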