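import Mathlib

/-!
# Lagrange interpolation identity (package [C3] of the S23 plan)
-/

set_option autoImplicit false

namespace Fermat.Agent.S23

open Polynomial Finset

section

variable {ι : Type*} [Fintype ι]

/-- Elementary symmetric sums of a finite family. -/
noncomputable def lagE (x : ι → ℂ) (i : ℕ) : ℂ :=
  ∑ s ∈ Finset.powersetCard i (Finset.univ : Finset ι), ∏ j ∈ s, x j

theorem lagE_eq_esymm (x : ι → ℂ) (i : ℕ) :
    lagE x i = ((Finset.univ : Finset ι).val.map x).esymm i := by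
  rw [Finset.esymm_map_val]
  rfl

/-- Vieta: the polynomial `∏ (X - x j)` in terms of elementary symmetric sums. -/
theorem lag_vieta (x : ι → ℂ) :
    ∏ j, (X - C (x j)) =
      ∑ i ∈ Finset.range (Fintype.card ι + 1),
        (-1 : ℂ[X]) ^ i * (C (lagE x i) * X ^ (Fintype.card ι - i)) := by
  have h := Multiset.prod_X_sub_X_eq_sum_esymm ((Finset.univ : Finset ι).val.map x)
  simp only [Multiset.map_map, Multiset.card_map, Finset.card_val, Finset.card_univ] at h
  simp only [lagE_eq_esymm]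
  rw [← h]
  rfl

/-- The quotient polynomial `Q_c(X) = (P(X) - P(c)) / (X - c)`. -/
noncomputable def lagQ (x : ι → ℂ) (c : ℂ) : ℂ[X] :=
  ∑ i ∈ Finset.range (Fintype.card ι), ∑ a ∈ Finset.range (Fintype.card ι - i),
    C ((-1 : ℂ) ^ i * lagE x i * c ^ (Fintype.card ι - 1 - i - a)) * X ^ a

theorem lagQ_mul (x : ι → ℂ) (c : ℂ) :
    lagQ x c * (X - C c) = ∏ j, (X - C (x j)) - C (eval c (∏ j, (X - C (x j)))) := by
  have hP := lag_vieta x
  rw [hP]
  simp only [eval_finsetSum, eval_mul, eval_pow, eval_neg, eval_one, eval_C, eval_X, map_sum,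
    map_mul, map_pow, map_neg, map_one]
  rw [← Finset.sum_sub_distrib, Finset.sum_range_succ]
  simp only [Nat.sub_self, pow_zero, mul_one, sub_self, add_zero]
  rw [lagQ, Finset.sum_mul]
  refine Finset.sum_congr rfl fun i hi => ?_
  have hi' : i < Fintype.card ι := Finset.mem_range.mp hi
  have hgeom := geom_sum₂_mul (X : ℂ[X]) (C c) (Fintype.card ι - i)
  rw [← mul_sub, ← mul_sub, ← hgeom, Finset.sum_mul, Finset.sum_mul, Finset.mul_sum,
    Finset.mul_sum]
  refine Finset.sum_congr rfl fun a ha => ?_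
  have ha' : a < Fintype.card ι - i := Finset.mem_range.mp ha
  have hexp : Fintype.card ι - 1 - i - a = Fintype.card ι - i - 1 - a := by omega
  rw [hexp]
  simp only [map_mul, map_pow, map_neg, map_one]
  ring

theorem lagQ_eq_prod_erase [DecidableEq ι] (x : ι → ℂ) (j : ι) :
    lagQ x (x j) = ∏ l ∈ Finset.univ.erase j, (X - C (x l)) := by
  have h1 := lagQ_mul x (x j)
  have h0 : eval (x j) (∏ l, (X - C (x l))) = 0 := by
    rw [eval_prod]
    exact Finset.prod_eq_zero (Finset.mem_univ j) (by simp)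
  rw [h0, map_zero, sub_zero, ← Finset.mul_prod_erase _ _ (Finset.mem_univ j), mul_comm] at h1
  exact mul_left_cancel₀ (X_sub_C_ne_zero (x j)) h1

theorem eval_lagQ (x : ι → ℂ) (c t : ℂ) :
    eval t (lagQ x c) =
      ∑ i ∈ Finset.range (Fintype.card ι), ∑ a ∈ Finset.range (Fintype.card ι - i),
        (-1 : ℂ) ^ i * lagE x i * c ^ (Fintype.card ι - 1 - i - a) * t ^ a := by
  simp [lagQ, eval_finsetSum]

/-- **Lagrange identity** (package [C3]). -/
theorem lagrange_identity {ι : Type*} [Fintype ι] [DecidableEq ι] (x y : ι → ℂ) (i0 : ι) :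
    y i0 * ∏ j ∈ Finset.univ.erase i0, (x i0 - x j) =
      ∑ i ∈ Finset.range (Fintype.card ι), ∑ a ∈ Finset.range (Fintype.card ι - i),
        (-1 : ℂ) ^ i * (∑ s ∈ Finset.powersetCard i (Finset.univ : Finset ι), ∏ j ∈ s, x j) *
          (∑ j, y j * x j ^ (Fintype.card ι - 1 - i - a)) * x i0 ^ a := by
  -- sum over `j` of `y j * Q_{x j}(x i0)`
  have hsum : ∑ j, y j * eval (x i0) (lagQ x (x j)) =
      y i0 * ∏ j ∈ Finset.univ.erase i0, (x i0 - x j) := by
    rw [Finset.sum_eq_single i0]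
    · rw [lagQ_eq_prod_erase, eval_prod]
      simp
    · intro j _ hj
      rw [lagQ_eq_prod_erase, eval_prod]
      rw [Finset.prod_eq_zero (Finset.mem_erase.mpr ⟨Ne.symm hj, Finset.mem_univ i0⟩) (by simp),
        mul_zero]
    · intro h
      exact absurd (Finset.mem_univ i0) h
  rw [← hsum]
  have hE : ∀ i, (∑ s ∈ Finset.powersetCard i (Finset.univ : Finset ι), ∏ j ∈ s, x j) =
      lagE x i := fun _ => rfl
  simp only [hE, eval_lagQ]
  have hL : ∀ j, y j * ∑ i ∈ Finset.range (Fintype.card ι),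
      ∑ a ∈ Finset.range (Fintype.card ι - i),
        (-1 : ℂ) ^ i * lagE x i * x j ^ (Fintype.card ι - 1 - i - a) * x i0 ^ a =
      ∑ i ∈ Finset.range (Fintype.card ι), ∑ a ∈ Finset.range (Fintype.card ι - i),
        (-1 : ℂ) ^ i * lagE x i * (y j * x j ^ (Fintype.card ι - 1 - i - a)) * x i0 ^ a := by
    intro j
    rw [Finset.mul_sum]
    refine Finset.sum_congr rfl fun i _ => ?_
    rw [Finset.mul_sum]
    refine Finset.sum_congr rfl fun a _ => ?_
    ring
  simp only [hL]
  rw [Finset.sum_comm]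
  refine Finset.sum_congr rfl fun i _ => ?_
  rw [Finset.sum_comm]
  refine Finset.sum_congr rfl fun a _ => ?_
  rw [Finset.mul_sum, Finset.sum_mul]

end

end Fermat.Agent.S23
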