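import Fermat.Agent.S23.IntSpan
import Fermat.Agent.S23.LevelOne
import Fermat.Agent.S23.Lagrange

/-!
# (C) The universal denominator `D = ∏_{q ≠ 1} (Θ - Θ_q)` (core, helper91).

`exists_denominator_of` is `exists_denominator` with the outputs of the packages (B0)
`esymm_conj_isMF` and (C1) `exists_theta` taken as hypotheses (so that this file only depends on
files that are already proved). `Denominator.lean` is the three-line wrapper.

With `Θ` from `exists_theta`, `μ = |Q0 N|`, `e_i = e_i(Θ_q)` (level one, weight `4 i`, by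
`esymm_conj_isMF`) and `Tr` the Mathlib trace `ModularForm.trace 𝒮ℒ`, the Lagrange identity gives,
for every `f : ModularForm (G0 N) k`,
`f * D = ∑_{i < μ} ∑_{a + b = μ - 1 - i} (-1)^i e_i * Tr(f Θ^b) * Θ^a`, and the same with `f = 1`
for `D` itself. All `e_i`, `Tr(…)` are level one forms, hence in `intSpanM` by `levelOne_intSpan`;
`Θ` has integer coefficients.
-/

set_option autoImplicit false

namespace Fermat.Agent.S23

open UpperHalfPlane SlashInvariantForm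
open scoped MatrixGroups ModularForm Manifold

namespace Den

/-- `F` is (the underlying function of) a modular form of weight `k` on `Γ`. -/
def IsMF (Γ : Subgroup (GL (Fin 2) ℝ)) (k : ℤ) (F : ℍ → ℂ) : Prop :=
  ∃ g : ModularForm Γ k, (g : ℍ → ℂ) = F

variable {Γ : Subgroup (GL (Fin 2) ℝ)}

lemma IsMF.coe {k : ℤ} (g : ModularForm Γ k) : IsMF Γ k g := ⟨g, rfl⟩

lemma IsMF.cast {k₁ k₂ : ℤ} (hk : k₁ = k₂) {F : ℍ → ℂ} (hF : IsMF Γ k₁ F) : IsMF Γ k₂ F := by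
  subst hk; exact hF

lemma IsMF.zero (k : ℤ) : IsMF Γ k 0 := ⟨0, rfl⟩

lemma IsMF.add {k : ℤ} {F G : ℍ → ℂ} (hF : IsMF Γ k F) (hG : IsMF Γ k G) : IsMF Γ k (F + G) := by
  obtain ⟨f, rfl⟩ := hF
  obtain ⟨g, rfl⟩ := hG
  exact ⟨f + g, rfl⟩

lemma IsMF.smul [Γ.HasDetOne] {k : ℤ} {F : ℍ → ℂ} (c : ℂ) (hF : IsMF Γ k F) :
    IsMF Γ k (c • F) := by
  obtain ⟨f, rfl⟩ := hF
  exact ⟨c • f, rfl⟩

lemma IsMF.mul [Γ.HasDetPlusMinusOne] {k₁ k₂ : ℤ} {F G : ℍ → ℂ} (hF : IsMF Γ k₁ F)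
    (hG : IsMF Γ k₂ G) : IsMF Γ (k₁ + k₂) (F * G) := by
  obtain ⟨f, rfl⟩ := hF
  obtain ⟨g, rfl⟩ := hG
  exact ⟨f.mul g, ModularForm.coe_mul f g⟩

lemma IsMF.pow [Γ.HasDetPlusMinusOne] {k : ℤ} {F : ℍ → ℂ} (hF : IsMF Γ k F) (n : ℕ) :
    IsMF Γ (n * k) (F ^ n) := by
  obtain ⟨f, rfl⟩ := hF
  exact ⟨f.pow n, ModularForm.coe_pow f n⟩

lemma IsMF.sum {ι : Type*} {k : ℤ} (s : Finset ι) (F : ι → ℍ → ℂ)
    (hF : ∀ i ∈ s, IsMF Γ k (F i)) : IsMF Γ k (∑ i ∈ s, F i) := by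
  classical
  induction s using Finset.induction_on with
  | empty => simpa using IsMF.zero (Γ := Γ) k
  | insert a s ha ih =>
    rw [Finset.sum_insert ha]
    exact (hF a (Finset.mem_insert_self a s)).add
      (ih fun i hi => hF i (Finset.mem_insert_of_mem hi))

lemma IsMF.isQM {k : ℤ} {F : ℍ → ℂ} (hF : IsMF Γ k F) : IsQM Γ k (qExpansion 1 F) := by
  obtain ⟨f, rfl⟩ := hF
  exact ⟨f, rfl⟩

section qexp

variable (hΓ : (1 : ℝ) ∈ Γ.strictPeriods)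
include hΓ

lemma qExp_add {k₁ k₂ : ℤ} {F G : ℍ → ℂ} (hF : IsMF Γ k₁ F) (hG : IsMF Γ k₂ G) :
    qExpansion 1 (F + G) = qExpansion 1 F + qExpansion 1 G := by
  obtain ⟨f, rfl⟩ := hF
  obtain ⟨g, rfl⟩ := hG
  exact ModularForm.qExpansion_add one_pos hΓ f g

lemma qExp_smul {k : ℤ} {F : ℍ → ℂ} (c : ℂ) (hF : IsMF Γ k F) :
    qExpansion 1 (c • F) = c • qExpansion 1 F := by
  obtain ⟨f, rfl⟩ := hF
  exact ModularForm.qExpansion_smul one_pos hΓ c f

lemma qExp_mul {k₁ k₂ : ℤ} {F G : ℍ → ℂ} (hF : IsMF Γ k₁ F) (hG : IsMF Γ k₂ G) :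
    qExpansion 1 (F * G) = qExpansion 1 F * qExpansion 1 G := by
  obtain ⟨f, rfl⟩ := hF
  obtain ⟨g, rfl⟩ := hG
  exact ModularForm.qExpansion_mul_coe one_pos hΓ f g

lemma qExp_pow [Γ.HasDetPlusMinusOne] {k : ℤ} {F : ℍ → ℂ} (hF : IsMF Γ k F) (n : ℕ) :
    qExpansion 1 (F ^ n) = qExpansion 1 F ^ n := by
  obtain ⟨f, rfl⟩ := hF
  rw [← ModularForm.coe_pow]
  exact ModularForm.qExpansion_pow one_pos hΓ f n

lemma qExp_sum {ι : Type*} {k : ℤ} (s : Finset ι) (F : ι → ℍ → ℂ)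
    (hF : ∀ i ∈ s, IsMF Γ k (F i)) :
    qExpansion 1 (∑ i ∈ s, F i) = ∑ i ∈ s, qExpansion 1 (F i) := by
  classical
  induction s using Finset.induction_on with
  | empty => simpa using qExpansion_zero 1
  | insert a s ha ih =>
    rw [Finset.sum_insert ha, Finset.sum_insert ha,
      qExp_add hΓ (hF a (Finset.mem_insert_self a s))
        (IsMF.sum s F fun i hi => hF i (Finset.mem_insert_of_mem hi)),
      ih fun i hi => hF i (Finset.mem_insert_of_mem hi)]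

end qexp

section conj

variable (N : ℕ)

lemma quotientFunc_one {k : ℤ} (f : ModularForm (G0 N) k) :
    quotientFunc f (QuotientGroup.mk 1 : Q0 N) = ⇑f := by
  have : (QuotientGroup.mk 1 : Q0 N) = ⟦1⟧ := rfl
  rw [this, quotientFunc_mk]
  simp

lemma abs_det_inv_eq_one (r : ↥𝒮ℒ) :
    |((Matrix.GeneralLinearGroup.det ((r : GL (Fin 2) ℝ)⁻¹) : ℝˣ) : ℝ)| = 1 :=
  Subgroup.HasDetPlusMinusOne.abs_det (Γ := 𝒮ℒ) (inv_mem r.2)

lemma mdiff_quotientFunc {k : ℤ} (f : ModularForm (G0 N) k) (q : Q0 N) :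
    MDiff (quotientFunc f q) := by
  induction q using Quotient.inductionOn with
  | h r => exact (ModularForm.translate f r.val⁻¹).holo'

variable [NeZero N]

lemma quotientFunc_mul {k₁ k₂ : ℤ} (f : ModularForm (G0 N) k₁) (g : ModularForm (G0 N) k₂)
    (q : Q0 N) :
    quotientFunc (f.mul g) q = quotientFunc f q * quotientFunc g q := by
  induction q using Quotient.inductionOn with
  | h r =>
    simp only [quotientFunc_mk, ModularForm.coe_mul]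
    rw [ModularForm.mul_slash, abs_det_inv_eq_one, one_smul]

lemma quotientFunc_pow {k : ℤ} (f : ModularForm (G0 N) k) (b : ℕ) (q : Q0 N) :
    quotientFunc (f.pow b) q = quotientFunc f q ^ b := by
  induction q using Quotient.inductionOn with
  | h r =>
    simp only [quotientFunc_mk, ModularForm.coe_pow]
    have h := ModularForm.prod_slash (k := k) (g := (r : GL (Fin 2) ℝ)⁻¹)
      (f := fun _ : ℕ => (f : ℍ → ℂ)) (s := Finset.range b)
    simp only [Finset.prod_const, Finset.card_range, abs_det_inv_eq_one, one_zpow,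
      one_smul] at h
    rw [mul_comm]
    exact h

/-- the trace of `f * Θ^b`, evaluated pointwise. -/
lemma trace_mul_pow_apply {k : ℤ} (f : ModularForm (G0 N) k) (Θ : ModularForm (G0 N) 4) (b : ℕ)
    (τ : ℍ) :
    ModularForm.trace 𝒮ℒ (f.mul (Θ.pow b)) τ =
      ∑ q : Q0 N, quotientFunc f q τ * quotientFunc Θ q τ ^ b := by
  rw [ModularForm.coe_trace, Finset.sum_apply]
  refine Finset.sum_congr (by congr) fun q _ => ?_
  rw [quotientFunc_mul, Pi.mul_apply, quotientFunc_pow, Pi.pow_apply]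

end conj

section main

variable (N : ℕ) [NeZero N]

/-- The `(i, a)`-term of the Lagrange interpolation formula, as a function on `ℍ`. -/
noncomputable def term {k : ℤ} (Θ : ModularForm (G0 N) 4) (E : ∀ i : ℕ, ModularForm 𝒮ℒ (i * 4))
    (f : ModularForm (G0 N) k) (i a : ℕ) : ℍ → ℂ :=
  ((-1 : ℂ) ^ i) • ((E i : ℍ → ℂ) *
    (ModularForm.trace 𝒮ℒ (f.mul (Θ.pow (Fintype.card (Q0 N) - 1 - i - a))) : ℍ → ℂ) *
      (Θ : ℍ → ℂ) ^ a)

lemma weight_eq {k : ℤ} {μ i a : ℕ} (ha : a < μ - i) :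
    (i : ℤ) * 4 + (k + ((μ - 1 - i - a : ℕ) : ℤ) * 4) + (a : ℤ) * 4 = k + 4 * ((μ : ℤ) - 1) := by
  omega

lemma term_isMF {k : ℤ} (Θ : ModularForm (G0 N) 4) (E : ∀ i : ℕ, ModularForm 𝒮ℒ (i * 4))
    (f : ModularForm (G0 N) k) (i a : ℕ) (ha : a < Fintype.card (Q0 N) - i) :
    IsMF (G0 N) (k + 4 * ((Fintype.card (Q0 N) : ℤ) - 1)) (term N Θ E f i a) := by
  have h1 : IsMF (G0 N) (i * 4) (E i : ℍ → ℂ) := ⟨restrictG0 N (E i), rfl⟩
  have h2 : IsMF (G0 N) (k + ((Fintype.card (Q0 N) - 1 - i - a : ℕ) : ℤ) * 4)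
      (ModularForm.trace 𝒮ℒ (f.mul (Θ.pow (Fintype.card (Q0 N) - 1 - i - a))) : ℍ → ℂ) :=
    ⟨restrictG0 N (ModularForm.trace 𝒮ℒ (f.mul (Θ.pow (Fintype.card (Q0 N) - 1 - i - a)))), rfl⟩
  have h3 : IsMF (G0 N) (a * 4) ((Θ : ℍ → ℂ) ^ a) := (IsMF.coe Θ).pow a
  exact (((h1.mul h2).mul h3).smul _).cast (weight_eq ha)

lemma term_qExp_mem {k : ℤ} (Θ : ModularForm (G0 N) 4) (hΘ : IsIntSeries (qExpansion 1 Θ))
    (E : ∀ i : ℕ, ModularForm 𝒮ℒ (i * 4))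
    (f : ModularForm (G0 N) k) (i a : ℕ) (ha : a < Fintype.card (Q0 N) - i) :
    qExpansion 1 (term N Θ E f i a) ∈
      intSpanM (G0 N) (k + 4 * ((Fintype.card (Q0 N) : ℤ) - 1)) := by
  have hΓ := one_mem_strictPeriods_G0 N
  have h1 : IsMF (G0 N) (i * 4) (E i : ℍ → ℂ) := ⟨restrictG0 N (E i), rfl⟩
  have h2 : IsMF (G0 N) (k + ((Fintype.card (Q0 N) - 1 - i - a : ℕ) : ℤ) * 4)
      (ModularForm.trace 𝒮ℒ (f.mul (Θ.pow (Fintype.card (Q0 N) - 1 - i - a))) : ℍ → ℂ) :=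
    ⟨restrictG0 N (ModularForm.trace 𝒮ℒ (f.mul (Θ.pow (Fintype.card (Q0 N) - 1 - i - a)))), rfl⟩
  have h3 : IsMF (G0 N) (a * 4) ((Θ : ℍ → ℂ) ^ a) := (IsMF.coe Θ).pow a
  have e1 : qExpansion 1 (E i : ℍ → ℂ) ∈ intSpanM (G0 N) (i * 4) :=
    intSpanM_levelOne_le N _ (levelOne_intSpan _ (E i))
  have e2 : qExpansion 1
      (ModularForm.trace 𝒮ℒ (f.mul (Θ.pow (Fintype.card (Q0 N) - 1 - i - a))) : ℍ → ℂ) ∈
      intSpanM (G0 N) (k + ((Fintype.card (Q0 N) - 1 - i - a : ℕ) : ℤ) * 4) :=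
    intSpanM_levelOne_le N _ (levelOne_intSpan _ _)
  have e3 : qExpansion 1 ((Θ : ℍ → ℂ) ^ a) ∈ intSpanM (G0 N) (a * 4) := by
    refine mem_intSpanM_of_int h3.isQM ?_
    rw [qExp_pow hΓ (IsMF.coe Θ)]
    exact hΘ.pow a
  unfold term
  rw [qExp_smul hΓ _ ((h1.mul h2).mul h3), qExp_mul hΓ (h1.mul h2) h3, qExp_mul hΓ h1 h2]
  exact intSpanM_cast (weight_eq ha)
    (Submodule.smul_mem _ _ (intSpanM_mul N _ _ (intSpanM_mul N _ _ e1 e2) e3))

/-- The right hand side of the Lagrange formula. -/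
noncomputable def rhs {k : ℤ} (Θ : ModularForm (G0 N) 4) (E : ∀ i : ℕ, ModularForm 𝒮ℒ (i * 4))
    (f : ModularForm (G0 N) k) : ℍ → ℂ :=
  ∑ i ∈ Finset.range (Fintype.card (Q0 N)), ∑ a ∈ Finset.range (Fintype.card (Q0 N) - i),
    term N Θ E f i a

lemma rhs_isMF {k : ℤ} (Θ : ModularForm (G0 N) 4) (E : ∀ i : ℕ, ModularForm 𝒮ℒ (i * 4))
    (f : ModularForm (G0 N) k) :
    IsMF (G0 N) (k + 4 * ((Fintype.card (Q0 N) : ℤ) - 1)) (rhs N Θ E f) :=
  IsMF.sum _ _ fun i _ => IsMF.sum _ _ fun a ha =>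
    term_isMF N Θ E f i a (Finset.mem_range.mp ha)

lemma rhs_qExp_mem {k : ℤ} (Θ : ModularForm (G0 N) 4) (hΘ : IsIntSeries (qExpansion 1 Θ))
    (E : ∀ i : ℕ, ModularForm 𝒮ℒ (i * 4)) (f : ModularForm (G0 N) k) :
    qExpansion 1 (rhs N Θ E f) ∈ intSpanM (G0 N) (k + 4 * ((Fintype.card (Q0 N) : ℤ) - 1)) := by
  have hΓ := one_mem_strictPeriods_G0 N
  unfold rhs
  rw [qExp_sum hΓ _ _ fun i _ => IsMF.sum _ _ fun a ha =>
    term_isMF N Θ E f i a (Finset.mem_range.mp ha)]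
  refine Submodule.sum_mem _ fun i _ => ?_
  rw [qExp_sum hΓ _ _ fun a ha => term_isMF N Θ E f i a (Finset.mem_range.mp ha)]
  exact Submodule.sum_mem _ fun a ha => term_qExp_mem N Θ hΘ E f i a (Finset.mem_range.mp ha)

/-- The denominator function `∏_{q ≠ 1} (Θ - Θ_q)`. -/
noncomputable def dfun (Θ : ModularForm (G0 N) 4) : ℍ → ℂ :=
  open Classical in
  ∏ q ∈ (Finset.univ : Finset (Q0 N)).erase (QuotientGroup.mk 1),
    ((Θ : ℍ → ℂ) - quotientFunc Θ q)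

/-- Lagrange interpolation: `f * D = rhs f`. -/
lemma rhs_eq {k : ℤ} (Θ : ModularForm (G0 N) 4) (E : ∀ i : ℕ, ModularForm 𝒮ℒ (i * 4))
    (hE : ∀ (i : ℕ) (τ : ℍ), E i τ =
      ∑ s ∈ Finset.powersetCard i (Finset.univ : Finset (Q0 N)),
        ∏ q ∈ s, quotientFunc Θ q τ)
    (f : ModularForm (G0 N) k) :
    rhs N Θ E f = (f : ℍ → ℂ) * dfun N Θ := by
  classical
  funext τ
  have h := lagrange_identity (ι := Q0 N) (fun q => quotientFunc Θ q τ)
    (fun q => quotientFunc f q τ) (QuotientGroup.mk 1)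
  simp only [quotientFunc_one] at h
  rw [Pi.mul_apply, dfun, Finset.prod_apply]
  simp only [Pi.sub_apply]
  rw [h, rhs, Finset.sum_apply]
  refine Finset.sum_congr rfl fun i _ => ?_
  rw [Finset.sum_apply]
  refine Finset.sum_congr rfl fun a _ => ?_
  simp only [term, Pi.smul_apply, Pi.mul_apply, Pi.pow_apply, smul_eq_mul]
  rw [hE i τ, trace_mul_pow_apply]
  ring

lemma dfun_ne_zero (Θ : ModularForm (G0 N) 4)
    (hΘ : ∀ q : Q0 N, q ≠ (QuotientGroup.mk 1 : Q0 N) → quotientFunc Θ q ≠ ⇑Θ) :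
    dfun N Θ ≠ 0 := by
  classical
  intro h
  rw [dfun, UpperHalfPlane.prod_eq_zero_iff
    (fun q _ => (show MDiff (Θ : ℍ → ℂ) from Θ.holo').sub (mdiff_quotientFunc N Θ q))] at h
  obtain ⟨q, hq, hq0⟩ := h
  exact hΘ q (Finset.ne_of_mem_erase hq) (sub_eq_zero.mp hq0).symm

end main

end Den

open Den in
/-- (C) universal denominator, with the primitive element `Θ` and the level-one symmetric
functions of its conjugates as hypotheses. -/
theorem exists_denominator_of (N : ℕ) [NeZero N]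
    (Θ : ModularForm (G0 N) 4) (hΘint : IsIntSeries (qExpansion 1 Θ))
    (hΘne : ∀ q : Q0 N, q ≠ (QuotientGroup.mk 1 : Q0 N) →
        SlashInvariantForm.quotientFunc Θ q ≠ ⇑Θ)
    (hEs : ∀ i : ℕ, ∃ E : ModularForm 𝒮ℒ (i * 4), ∀ τ : ℍ, E τ =
      ∑ s ∈ Finset.powersetCard i (Finset.univ : Finset (Q0 N)),
        ∏ q ∈ s, SlashInvariantForm.quotientFunc Θ q τ) :
    ∃ (w : ℤ) (D : PowerSeries ℂ), D ≠ 0 ∧ D ∈ intSpanM (G0 N) w ∧
      ∀ (k : ℤ) (f : ModularForm (G0 N) k), qExpansion 1 f * D ∈ intSpanM (G0 N) (k + w) := by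
  classical
  have hΓ := one_mem_strictPeriods_G0 N
  choose E hE using hEs
  -- `dfun` is a modular form of weight `w`
  have hone : rhs N Θ E (1 : ModularForm (G0 N) 0) = dfun N Θ := by
    rw [rhs_eq N Θ E hE]
    funext τ
    simp
  have hD_MF : IsMF (G0 N) (4 * ((Fintype.card (Q0 N) : ℤ) - 1)) (dfun N Θ) := by
    have := rhs_isMF N Θ E (1 : ModularForm (G0 N) 0)
    rw [hone] at this
    exact this.cast (zero_add _)
  refine ⟨4 * ((Fintype.card (Q0 N) : ℤ) - 1), qExpansion 1 (dfun N Θ), ?_, ?_, ?_⟩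
  · obtain ⟨g, hg⟩ := hD_MF
    rw [← hg, Ne, ModularForm.qExpansion_eq_zero_iff one_pos hΓ]
    intro h0
    apply dfun_ne_zero N Θ hΘne
    rw [← hg, h0]
    rfl
  · have := rhs_qExp_mem N Θ hΘint E (1 : ModularForm (G0 N) 0)
    rw [hone] at this
    exact intSpanM_cast (zero_add _) this
  · intro k f
    rw [← qExp_mul hΓ (IsMF.coe f) hD_MF, ← rhs_eq N Θ E hE f]
    exact rhs_qExp_mem N Θ hΘint E f

end Fermat.Agent.S23
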