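import Mathlib
import Fermat.Prelude.Def_ModularForm_HeckeOperator
import Fermat.Prelude.Thm_CongruenceSubgroup_one_mem_strictPeriods_Gamma0
import Fermat.Agent.S23.Defs

/-!
# The primitive element `Θ_N(z) = E₄(N z)` (helper20, for S23 step (C1))
-/

open UpperHalfPlane hiding I
open Real Complex CongruenceSubgroup ModularForm
open scoped Manifold MatrixGroups ModularForm Topology Pointwise

namespace Fermat.Agent.S23.H20

noncomputable section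

/-- restriction of a modular form to a subgroup -/
def restrict {Γ Γ' : Subgroup (GL (Fin 2) ℝ)} {k : ℤ} (h : Γ ≤ Γ') (f : ModularForm Γ' k) :
    ModularForm Γ k where
  toFun := f
  slash_action_eq' γ hγ := f.slash_action_eq' γ (h hγ)
  holo' := f.holo'
  bdd_at_cusps' hc := f.bdd_at_cusps' (hc.mono h)

@[simp] theorem coe_restrict {Γ Γ' : Subgroup (GL (Fin 2) ℝ)} {k : ℤ} (h : Γ ≤ Γ')
    (f : ModularForm Γ' k) : ⇑(restrict h f) = ⇑f := rfl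

/-- the matrix `diag(N, 1)` -/
abbrev alpha (N : ℕ) : GL (Fin 2) ℝ := ModularForm.heckeDiagMatrix N

/-- for `γ ∈ Γ₀(N)`, the conjugate `α γ α⁻¹ ∈ SL(2,ℤ)` -/
def conjSL (N : ℕ) (γ : SL(2, ℤ)) (c' : ℤ)
    (hc : (γ : Matrix (Fin 2) (Fin 2) ℤ) 1 0 = N * c') : SL(2, ℤ) :=
  ⟨!![(γ : Matrix (Fin 2) (Fin 2) ℤ) 0 0, N * (γ : Matrix (Fin 2) (Fin 2) ℤ) 0 1;
      c', (γ : Matrix (Fin 2) (Fin 2) ℤ) 1 1], by
    have h := γ.det_coe
    rw [Matrix.det_fin_two] at h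
    rw [Matrix.det_fin_two_of]
    rw [hc] at h
    linear_combination h⟩

theorem mapGL_val (γ : SL(2, ℤ)) :
    ((Matrix.SpecialLinearGroup.mapGL ℝ γ : GL (Fin 2) ℝ) : Matrix (Fin 2) (Fin 2) ℝ) =
      !![(((γ : Matrix (Fin 2) (Fin 2) ℤ) 0 0 : ℤ) : ℝ), (((γ : Matrix (Fin 2) (Fin 2) ℤ) 0 1 : ℤ) : ℝ);
        (((γ : Matrix (Fin 2) (Fin 2) ℤ) 1 0 : ℤ) : ℝ), (((γ : Matrix (Fin 2) (Fin 2) ℤ) 1 1 : ℤ) : ℝ)] := by
  rw [Matrix.SpecialLinearGroup.mapGL_coe_matrix]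
  ext i j
  fin_cases i <;> fin_cases j <;> simp [Matrix.map_apply]

theorem conjSL_val (N : ℕ) (γ : SL(2, ℤ)) (c' : ℤ)
    (hc : (γ : Matrix (Fin 2) (Fin 2) ℤ) 1 0 = N * c') :
    ((Matrix.SpecialLinearGroup.mapGL ℝ (conjSL N γ c' hc) : GL (Fin 2) ℝ) :
        Matrix (Fin 2) (Fin 2) ℝ) =
      !![(((γ : Matrix (Fin 2) (Fin 2) ℤ) 0 0 : ℤ) : ℝ),
          (N : ℝ) * (((γ : Matrix (Fin 2) (Fin 2) ℤ) 0 1 : ℤ) : ℝ);
        (c' : ℝ), (((γ : Matrix (Fin 2) (Fin 2) ℤ) 1 1 : ℤ) : ℝ)] := by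
  rw [mapGL_val]
  ext i j
  fin_cases i <;> fin_cases j <;> simp [conjSL]

theorem alpha_mul_eq (N : ℕ) (hN : N ≠ 0) (γ : SL(2, ℤ)) (c' : ℤ)
    (hc : (γ : Matrix (Fin 2) (Fin 2) ℤ) 1 0 = N * c') :
    alpha N * (Matrix.SpecialLinearGroup.mapGL ℝ γ) =
      (Matrix.SpecialLinearGroup.mapGL ℝ (conjSL N γ c' hc)) * alpha N := by
  apply Units.ext
  have hc' : (((γ : Matrix (Fin 2) (Fin 2) ℤ) 1 0 : ℤ) : ℝ) = N * c' := by
    exact_mod_cast congrArg (Int.cast : ℤ → ℝ) hc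
  rw [Units.val_mul, Units.val_mul, conjSL_val, mapGL_val, ModularForm.val_heckeDiagMatrix hN]
  ext i j
  fin_cases i <;> fin_cases j <;> simp [Matrix.mul_apply, Fin.sum_univ_two, hc'] <;> ring

theorem gamma0_le_conj (N : ℕ) [NeZero N] :
    ((Gamma0 N : Subgroup SL(2, ℤ)) : Subgroup (GL (Fin 2) ℝ)) ≤
      ConjAct.toConjAct (alpha N)⁻¹ • 𝒮ℒ := by
  rintro x ⟨γ, hγ, rfl⟩
  rw [Subgroup.mem_pointwise_smul_iff_inv_smul_mem, ← map_inv, inv_inv]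
  have hγ' : (((γ : Matrix (Fin 2) (Fin 2) ℤ) 1 0 : ℤ) : ZMod N) = 0 := Gamma0_mem.mp hγ
  obtain ⟨c', hc'⟩ := (ZMod.intCast_zmod_eq_zero_iff_dvd _ _).mp hγ'
  refine ⟨conjSL N γ c' hc', ?_⟩
  rw [ConjAct.smul_def, ConjAct.ofConjAct_toConjAct]
  rw [alpha_mul_eq N (NeZero.ne N) γ c' hc', mul_inv_cancel_right]

/-- `E₄ ∣[4] diag(N,1)` as a modular form on `Γ₀(N)` -/
def thetaPre (N : ℕ) [NeZero N] : ModularForm (Gamma0 N) 4 :=
  restrict (gamma0_le_conj N) (ModularForm.translate E₄ (alpha N))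

theorem thetaPre_apply (N : ℕ) [NeZero N] (z : ℍ) :
    thetaPre N z = (N : ℂ) ^ (3 : ℤ) * E₄ (alpha N • z) := by
  show ((⇑E₄) ∣[(4 : ℤ)] alpha N) z = _
  rw [ModularForm.slash_heckeDiagMatrix_apply 4 (NeZero.ne N)]
  norm_num

/-- `Θ_N(z) = E₄(N z)` as a modular form of weight `4` on `Γ₀(N)` -/
def theta (N : ℕ) [NeZero N] : ModularForm (Gamma0 N) 4 :=
  ((N : ℂ) ^ (3 : ℤ))⁻¹ • thetaPre N

theorem theta_apply (N : ℕ) [NeZero N] (z : ℍ) : theta N z = E₄ (alpha N • z) := by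
  have hN : (N : ℂ) ≠ 0 := Nat.cast_ne_zero.mpr (NeZero.ne N)
  show ((N : ℂ) ^ (3 : ℤ))⁻¹ • thetaPre N z = _
  rw [thetaPre_apply, smul_eq_mul, ← mul_assoc, inv_mul_cancel₀ (zpow_ne_zero _ hN), one_mul]

theorem coe_alpha_smul (N : ℕ) [NeZero N] (z : ℍ) : ((alpha N • z : ℍ) : ℂ) = (N : ℂ) * z :=
  ModularForm.coe_heckeDiagMatrix_smul (NeZero.ne N) z

/-! ### Integrality of the `q`-expansion -/

theorem E4_coeff_int (m : ℕ) : ∃ a : ℤ, (qExpansion 1 E₄).coeff m = (a : ℂ) := by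
  rw [EisensteinSeries.E_qExpansion_coeff _ ⟨2, rfl⟩]
  by_cases hm : m = 0
  · exact ⟨1, by simp [hm]⟩
  · refine ⟨240 * (ArithmeticFunction.sigma 3 m : ℕ), ?_⟩
    simp only [hm, if_false]
    norm_num [show bernoulli 4 = -1/30 by decide +kernel]

theorem qParam_alpha (N : ℕ) [NeZero N] (z : ℍ) :
    Function.Periodic.qParam 1 ((alpha N • z : ℍ) : ℂ) = Function.Periodic.qParam 1 (z : ℂ) ^ N := by
  rw [coe_alpha_smul]
  simp only [Function.Periodic.qParam]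
  rw [← Complex.exp_nat_mul]
  congr 1
  push_cast
  ring

theorem hasSum_theta (N : ℕ) [NeZero N] (z : ℍ) :
    HasSum (fun m ↦ (if N ∣ m then (qExpansion 1 E₄).coeff (m / N) else 0) •
      Function.Periodic.qParam 1 z ^ m) (theta N z) := by
  have h1 := ModularForm.hasSum_qExpansion (f := E₄) one_pos one_mem_strictPeriods_SL (alpha N • z)
  rw [← theta_apply] at h1
  have hinj : Function.Injective (fun m : ℕ => N * m) := fun a b hab =>
    Nat.eq_of_mul_eq_mul_left (Nat.pos_of_ne_zero (NeZero.ne N)) hab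
  rw [← hinj.hasSum_iff]
  · convert h1 using 1
    ext m
    simp only [Function.comp_apply, dvd_mul_right, if_true, smul_eq_mul]
    rw [Nat.mul_div_cancel_left _ (Nat.pos_of_ne_zero (NeZero.ne N)), qParam_alpha, pow_mul]
  · intro x hx
    have : ¬ N ∣ x := by
      rintro ⟨m, rfl⟩
      exact hx ⟨m, rfl⟩
    simp [this]

theorem theta_qExpansion_coeff (N : ℕ) [NeZero N] (m : ℕ) :
    (qExpansion 1 (theta N)).coeff m = if N ∣ m then (qExpansion 1 E₄).coeff (m / N) else 0 :=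
  (ModularFormClass.qExpansion_coeff_unique one_pos
    (CongruenceSubgroup.one_mem_strictPeriods_Gamma0 N) (f := theta N) (hasSum_theta N) m).symm

theorem theta_isIntSeries (N : ℕ) [NeZero N] : IsIntSeries (qExpansion 1 (theta N)) := by
  intro m
  rw [theta_qExpansion_coeff]
  split_ifs with h
  · exact E4_coeff_int _
  · exact ⟨0, by simp⟩

end

end Fermat.Agent.S23.H20
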