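import Mathlib

/-!
# Step 1 of the converse (D): from a `q`-expansion identity to a function identity

`h69_IsNice f` says that `f : ℍ → ℂ` is `1`-periodic, holomorphic and bounded at `i∞`; for such
functions `qExpansion 1` is multiplicative/additive and injective.
-/

namespace Fermat.Agent.S23

open UpperHalfPlane Function
open scoped Manifold

/-- `f : ℍ → ℂ` is `1`-periodic, holomorphic and bounded at `i∞`. -/
def h69_IsNice (f : ℍ → ℂ) : Prop :=
  Periodic (f ∘ ofComplex) ((1 : ℝ) : ℂ) ∧ MDifferentiable 𝓘(ℂ) 𝓘(ℂ) f ∧ IsBoundedAtImInfty f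

theorem h69_IsNice.analyticAt {f : ℍ → ℂ} (hf : h69_IsNice f) :
    AnalyticAt ℂ (cuspFunction 1 f) 0 :=
  analyticAt_cuspFunction_zero one_pos hf.1 hf.2.1 hf.2.2

theorem h69_isNice_of_modularForm {Γ : Subgroup (GL (Fin 2) ℝ)} {k : ℤ}
    (hΓ : (1 : ℝ) ∈ Γ.strictPeriods) (f : ModularForm Γ k) : h69_IsNice (f : ℍ → ℂ) := by
  have : Fact (IsCusp OnePoint.infty Γ) := ⟨Γ.isCusp_of_mem_strictPeriods one_pos hΓ⟩
  exact ⟨SlashInvariantFormClass.periodic_comp_ofComplex f hΓ, ModularFormClass.holo f,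
    ModularFormClass.bdd_at_infty f⟩

theorem h69_isNice_zero : h69_IsNice (0 : ℍ → ℂ) := by
  refine ⟨fun z => by simp, ?_, ?_⟩
  · exact mdifferentiable_const
  · exact Filter.const_boundedAtFilter _ (0 : ℂ)

theorem h69_isNice_one : h69_IsNice (1 : ℍ → ℂ) := by
  refine ⟨fun z => by simp, ?_, ?_⟩
  · exact mdifferentiable_const
  · exact Filter.const_boundedAtFilter _ (1 : ℂ)

theorem h69_IsNice.add {f g : ℍ → ℂ} (hf : h69_IsNice f) (hg : h69_IsNice g) :
    h69_IsNice (f + g) := by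
  refine ⟨?_, hf.2.1.add hg.2.1, hf.2.2.add hg.2.2⟩
  have : (f + g) ∘ ofComplex = f ∘ ofComplex + g ∘ ofComplex := rfl
  rw [this]
  exact hf.1.add hg.1

theorem h69_IsNice.mul {f g : ℍ → ℂ} (hf : h69_IsNice f) (hg : h69_IsNice g) :
    h69_IsNice (f * g) := by
  refine ⟨?_, hf.2.1.mul hg.2.1, hf.2.2.mul hg.2.2⟩
  have : (f * g) ∘ ofComplex = f ∘ ofComplex * g ∘ ofComplex := rfl
  rw [this]
  exact hf.1.mul hg.1

theorem h69_IsNice.pow {f : ℍ → ℂ} (hf : h69_IsNice f) (n : ℕ) : h69_IsNice (f ^ n) := by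
  induction n with
  | zero => simpa using h69_isNice_one
  | succ n ih => rw [pow_succ]; exact ih.mul hf

theorem h69_isNice_sum {ι : Type*} (s : Finset ι) (f : ι → ℍ → ℂ)
    (hf : ∀ i ∈ s, h69_IsNice (f i)) : h69_IsNice (∑ i ∈ s, f i) := by
  classical
  induction s using Finset.induction_on with
  | empty => simpa using h69_isNice_zero
  | insert a s ha ih =>
    rw [Finset.sum_insert ha]
    exact (hf a (Finset.mem_insert_self a s)).add
      (ih fun i hi => hf i (Finset.mem_insert_of_mem hi))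

theorem h69_qExpansion_add {f g : ℍ → ℂ} (hf : h69_IsNice f) (hg : h69_IsNice g) :
    qExpansion 1 (f + g) = qExpansion 1 f + qExpansion 1 g :=
  qExpansion_add hf.analyticAt hg.analyticAt

theorem h69_qExpansion_mul {f g : ℍ → ℂ} (hf : h69_IsNice f) (hg : h69_IsNice g) :
    qExpansion 1 (f * g) = qExpansion 1 f * qExpansion 1 g :=
  qExpansion_mul hf.analyticAt hg.analyticAt

theorem h69_qExpansion_pow {f : ℍ → ℂ} (hf : h69_IsNice f) (n : ℕ) :
    qExpansion 1 (f ^ n) = qExpansion 1 f ^ n := by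
  induction n with
  | zero => simpa using qExpansion_one 1
  | succ n ih => rw [pow_succ, h69_qExpansion_mul (hf.pow n) hf, ih, pow_succ]

theorem h69_qExpansion_sum {ι : Type*} (s : Finset ι) (f : ι → ℍ → ℂ)
    (hf : ∀ i ∈ s, h69_IsNice (f i)) :
    qExpansion 1 (∑ i ∈ s, f i) = ∑ i ∈ s, qExpansion 1 (f i) := by
  classical
  induction s using Finset.induction_on with
  | empty => simpa using qExpansion_zero 1
  | insert a s ha ih =>
    rw [Finset.sum_insert ha, Finset.sum_insert ha,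
      h69_qExpansion_add (hf a (Finset.mem_insert_self a s))
        (h69_isNice_sum s f fun i hi => hf i (Finset.mem_insert_of_mem hi)),
      ih fun i hi => hf i (Finset.mem_insert_of_mem hi)]

theorem h69_IsNice.eq_zero_of_qExpansion_eq_zero {f : ℍ → ℂ} (hf : h69_IsNice f)
    (h : qExpansion 1 f = 0) : f = 0 :=
  (qExpansion_eq_zero_iff one_pos hf.1 hf.2.1 hf.2.2).1 h

/-- Step 1 of the converse: a monic relation between `q`-expansions gives the corresponding
relation between functions. -/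
theorem h69_fun_rel (G D : ℍ → ℂ) (R : ℕ → ℍ → ℂ) (hG : h69_IsNice G) (hD : h69_IsNice D)
    (m : ℕ) (hR : ∀ i < m, h69_IsNice (R i)) (h : PowerSeries ℂ)
    (h1 : h * qExpansion 1 D = qExpansion 1 G)
    (h2 : h ^ m + ∑ i ∈ Finset.range m, qExpansion 1 (R i) * h ^ (m - 1 - i) = 0) :
    ∀ z, G z ^ m + ∑ i ∈ Finset.range m, R i z * G z ^ (m - 1 - i) * D z ^ (i + 1) = 0 := by
  set Φ : ℍ → ℂ := G ^ m + ∑ i ∈ Finset.range m, R i * G ^ (m - 1 - i) * D ^ (i + 1) with hΦ
  have hterm : ∀ i ∈ Finset.range m, h69_IsNice (R i * G ^ (m - 1 - i) * D ^ (i + 1)) :=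
    fun i hi => ((hR i (Finset.mem_range.1 hi)).mul (hG.pow _)).mul (hD.pow _)
  have hΦn : h69_IsNice Φ := (hG.pow m).add (h69_isNice_sum _ _ hterm)
  have hq : qExpansion 1 Φ = 0 := by
    rw [hΦ, h69_qExpansion_add (hG.pow m) (h69_isNice_sum _ _ hterm), h69_qExpansion_pow hG,
      h69_qExpansion_sum _ _ hterm]
    have : ∀ i ∈ Finset.range m, qExpansion 1 (R i * G ^ (m - 1 - i) * D ^ (i + 1)) =
        qExpansion 1 D ^ m * (qExpansion 1 (R i) * h ^ (m - 1 - i)) := by
      intro i hi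
      have him : i < m := Finset.mem_range.1 hi
      rw [h69_qExpansion_mul ((hR i him).mul (hG.pow _)) (hD.pow _),
        h69_qExpansion_mul (hR i him) (hG.pow _), h69_qExpansion_pow hG, h69_qExpansion_pow hD,
        ← h1]
      obtain ⟨a, ha⟩ : ∃ a, m - 1 - i = a := ⟨_, rfl⟩
      have hm : qExpansion 1 D ^ m = qExpansion 1 D ^ a * qExpansion 1 D ^ (i + 1) := by
        rw [← pow_add]
        congr 1
        omega
      rw [ha, hm]
      ring
    rw [Finset.sum_congr rfl this, ← Finset.mul_sum, ← h1, mul_pow, mul_comm (h ^ m), ← mul_add,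
      h2, mul_zero]
  intro z
  have := congrFun (hΦn.eq_zero_of_qExpansion_eq_zero hq) z
  simpa [hΦ] using this

end Fermat.Agent.S23
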