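import Mathlib

/-!
# Analytic lemmas for the converse step (D)

* `h69_norm_le_of_monic_root` : a root of a monic polynomial is bounded by `max 1 (∑ ‖cᵢ‖)`.
* `h69_norm_pow_le_of_monic_root` : if moreover `∑ ‖cᵢ‖ ≤ 1` then `‖x‖ ^ m ≤ ∑ ‖cᵢ‖`.
* `h69_exists_holo_quotient_aux` : on an open preconnected subset of `ℂ`, a locally bounded
  quotient `g / d` of holomorphic functions extends to a holomorphic function `F` with
  `F * d = g`.
-/

namespace Fermat.Agent.S23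

open Filter Topology Set UpperHalfPlane
open scoped Manifold

/-- A root of the monic polynomial `X ^ m + ∑ i < m, c i * X ^ (m - 1 - i)` has norm at most
`max 1 (∑ i < m, ‖c i‖)`. -/
theorem h69_norm_le_of_monic_root (m : ℕ) (c : ℕ → ℂ) (x : ℂ)
    (hx : x ^ m + ∑ i ∈ Finset.range m, c i * x ^ (m - 1 - i) = 0) :
    ‖x‖ ≤ max 1 (∑ i ∈ Finset.range m, ‖c i‖) := by
  by_cases h1 : ‖x‖ ≤ 1
  · exact le_max_of_le_left h1
  push Not at h1
  refine le_max_of_le_right ?_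
  have hm : m ≠ 0 := by
    rintro rfl
    simp at hx
  obtain ⟨n, rfl⟩ : ∃ n, m = n + 1 := Nat.exists_eq_succ_of_ne_zero hm
  have hpos : 0 < ‖x‖ := lt_trans zero_lt_one h1
  have h2 : x ^ (n + 1) = - ∑ i ∈ Finset.range (n + 1), c i * x ^ (n + 1 - 1 - i) :=
    eq_neg_of_add_eq_zero_left hx
  have h3 : ‖x‖ ^ (n + 1) ≤ (∑ i ∈ Finset.range (n + 1), ‖c i‖) * ‖x‖ ^ n := by
    calc ‖x‖ ^ (n + 1) = ‖x ^ (n + 1)‖ := (norm_pow _ _).symm
      _ = ‖∑ i ∈ Finset.range (n + 1), c i * x ^ (n + 1 - 1 - i)‖ := by rw [h2, norm_neg]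
      _ ≤ ∑ i ∈ Finset.range (n + 1), ‖c i * x ^ (n + 1 - 1 - i)‖ := norm_sum_le _ _
      _ ≤ ∑ i ∈ Finset.range (n + 1), ‖c i‖ * ‖x‖ ^ n := by
        refine Finset.sum_le_sum fun i _ => ?_
        rw [norm_mul, norm_pow]
        refine mul_le_mul_of_nonneg_left ?_ (norm_nonneg _)
        exact pow_le_pow_right₀ h1.le (by omega)
      _ = (∑ i ∈ Finset.range (n + 1), ‖c i‖) * ‖x‖ ^ n := by rw [Finset.sum_mul]
  have h4 : ‖x‖ ^ (n + 1) = ‖x‖ * ‖x‖ ^ n := by ring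
  rw [h4] at h3
  exact le_of_mul_le_mul_right h3 (pow_pos hpos n)

/-- If `∑ ‖c i‖ ≤ 1` then a root `x` of `X ^ m + ∑ i < m, c i * X ^ (m - 1 - i)` satisfies
`‖x‖ ^ m ≤ ∑ ‖c i‖`. -/
theorem h69_norm_pow_le_of_monic_root (m : ℕ) (c : ℕ → ℂ) (x : ℂ)
    (hx : x ^ m + ∑ i ∈ Finset.range m, c i * x ^ (m - 1 - i) = 0)
    (hc : ∑ i ∈ Finset.range m, ‖c i‖ ≤ 1) :
    ‖x‖ ^ m ≤ ∑ i ∈ Finset.range m, ‖c i‖ := by
  have h1 : ‖x‖ ≤ 1 := by
    have := h69_norm_le_of_monic_root m c x hx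
    rwa [max_eq_left hc] at this
  have h2 : x ^ m = - ∑ i ∈ Finset.range m, c i * x ^ (m - 1 - i) :=
    eq_neg_of_add_eq_zero_left hx
  calc ‖x‖ ^ m = ‖x ^ m‖ := (norm_pow _ _).symm
    _ = ‖∑ i ∈ Finset.range m, c i * x ^ (m - 1 - i)‖ := by rw [h2, norm_neg]
    _ ≤ ∑ i ∈ Finset.range m, ‖c i * x ^ (m - 1 - i)‖ := norm_sum_le _ _
    _ ≤ ∑ i ∈ Finset.range m, ‖c i‖ := by
      refine Finset.sum_le_sum fun i _ => ?_
      rw [norm_mul, norm_pow]
      exact mul_le_of_le_one_right (norm_nonneg _) (pow_le_one₀ (norm_nonneg _) h1)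

/-- On an open preconnected subset `U` of `ℂ`, let `g, d` be holomorphic with `d ≢ 0`, and suppose
the quotient `g / d` is bounded by a continuous function wherever `d ≠ 0`. Then there is a
holomorphic `F` on `U` with `F * d = g`. -/
theorem h69_exists_holo_quotient_aux {U : Set ℂ} (hU : IsOpen U) (hUc : IsPreconnected U)
    {g d : ℂ → ℂ} (hg : DifferentiableOn ℂ g U) (hd : DifferentiableOn ℂ d U)
    (hd0 : ∃ z ∈ U, d z ≠ 0) (B : ℂ → ℝ) (hB : ContinuousOn B U)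
    (hq : ∀ z ∈ U, d z ≠ 0 → ‖g z / d z‖ ≤ B z) :
    ∃ F : ℂ → ℂ, DifferentiableOn ℂ F U ∧ ∀ z ∈ U, F z * d z = g z := by
  set q : ℂ → ℂ := fun z => g z / d z with hqdef
  set F : ℂ → ℂ := fun z => limUnder (𝓝[≠] z) q with hFdef
  have hda : AnalyticOnNhd ℂ d U := hd.analyticOnNhd hU
  -- Claim A: zeros of `d` are isolated
  have hA : ∀ z ∈ U, ∀ᶠ w in 𝓝[≠] z, d w ≠ 0 := by
    intro z hz
    rcases (hda z hz).eventually_eq_zero_or_eventually_ne_zero with h | h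
    · exfalso
      obtain ⟨w, hw, hdw⟩ := hd0
      exact hdw (hda.eqOn_zero_of_preconnected_of_eventuallyEq_zero hUc hz h hw)
    · exact h
  have hA' : ∀ z ∈ U, ∀ᶠ w in 𝓝[≠] z, w ∈ U ∧ d w ≠ 0 := by
    intro z hz
    have h1 : ∀ᶠ w in 𝓝[≠] z, w ∈ U :=
      eventually_nhdsWithin_of_eventually_nhds (hU.mem_nhds hz)
    exact h1.and (hA z hz)
  -- differentiability of `q` away from zeros
  have hqd : ∀ z ∈ U, d z ≠ 0 → DifferentiableAt ℂ q z := by
    intro z hz hdz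
    exact ((hg z hz).differentiableAt (hU.mem_nhds hz)).div
      ((hd z hz).differentiableAt (hU.mem_nhds hz)) hdz
  -- Claim B
  have hBq : ∀ z ∈ U, d z ≠ 0 → F z = q z := by
    intro z hz hdz
    have h1 : Tendsto q (𝓝[≠] z) (𝓝 (q z)) :=
      ((hqd z hz hdz).continuousAt.tendsto).mono_left nhdsWithin_le_nhds
    exact h1.limUnder_eq
  -- Claim C
  have hC : ∀ z ∈ U, Tendsto q (𝓝[≠] z) (𝓝 (F z)) := by
    intro z hz
    apply Complex.tendsto_limUnder_of_differentiable_on_punctured_nhds_of_bounded_under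
    · exact (hA' z hz).mono fun w hw => hqd w hw.1 hw.2
    · have h1 : ∀ᶠ w in 𝓝[≠] z, B w ≤ B z + 1 := by
        have h2 : ∀ᶠ w in 𝓝 z, B w < B z + 1 :=
          ((hB z hz).continuousAt (hU.mem_nhds hz)).eventually_lt tendsto_const_nhds
            (by linarith)
        exact eventually_nhdsWithin_of_eventually_nhds (h2.mono fun w hw => hw.le)
      refine ⟨B z + 1 + ‖q z‖, ?_⟩
      rw [eventually_map]
      filter_upwards [h1, hA' z hz] with w hw1 hw2
      calc ‖q w - q z‖ ≤ ‖q w‖ + ‖q z‖ := norm_sub_le _ _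
        _ ≤ B z + 1 + ‖q z‖ := by
          have := hq w hw2.1 hw2.2
          linarith
  -- `F = q` near points where `d ≠ 0`
  have hFq : ∀ z ∈ U, d z ≠ 0 → F =ᶠ[𝓝 z] q := by
    intro z hz hdz
    have h1 : ∀ᶠ w in 𝓝 z, w ∈ U := hU.mem_nhds hz
    have h2 : ∀ᶠ w in 𝓝 z, d w ≠ 0 :=
      ((hd z hz).differentiableAt (hU.mem_nhds hz)).continuousAt.eventually_ne hdz
    filter_upwards [h1, h2] with w hw1 hw2 using hBq w hw1 hw2
  have hFq' : ∀ z ∈ U, F =ᶠ[𝓝[≠] z] q := by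
    intro z hz
    exact (hA' z hz).mono fun w hw => hBq w hw.1 hw.2
  refine ⟨F, ?_, ?_⟩
  · -- Claim D
    intro z hz
    have h1 : ∀ᶠ w in 𝓝[≠] z, DifferentiableAt ℂ F w := by
      filter_upwards [hA' z hz] with w hw
      exact (hqd w hw.1 hw.2).congr_of_eventuallyEq (hFq w hw.1 hw.2)
    have h2 : ContinuousAt F z := by
      rw [continuousAt_iff_punctured_nhds]
      exact (hC z hz).congr' (hFq' z hz).symm
    exact (Complex.analyticAt_of_differentiable_on_punctured_nhds_of_continuousAt h1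
      h2).differentiableAt.differentiableWithinAt
  · -- Claim E
    intro z hz
    by_cases hdz : d z = 0
    · have hgc : Tendsto g (𝓝[≠] z) (𝓝 (g z)) :=
        (((hg z hz).differentiableAt (hU.mem_nhds hz)).continuousAt.tendsto).mono_left
          nhdsWithin_le_nhds
      have hdc : Tendsto d (𝓝[≠] z) (𝓝 (d z)) :=
        (((hd z hz).differentiableAt (hU.mem_nhds hz)).continuousAt.tendsto).mono_left
          nhdsWithin_le_nhds
      have h1 : Tendsto (fun w => q w * d w) (𝓝[≠] z) (𝓝 (F z * d z)) := (hC z hz).mul hdc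
      have h2 : (fun w => q w * d w) =ᶠ[𝓝[≠] z] g := by
        filter_upwards [hA z hz] with w hw
        simp only [hqdef]
        field_simp
      exact tendsto_nhds_unique (h1.congr' h2) hgc
    · rw [hBq z hz hdz]
      simp only [hqdef]
      field_simp

/-- Removable singularities on the upper half plane: if `G, D : ℍ → ℂ` are holomorphic, `D ≢ 0`,
and `G / D` is bounded by a continuous function wherever `D ≠ 0`, then there is a holomorphic
`F : ℍ → ℂ` with `F * D = G`. -/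
theorem h69_exists_mdiff_quotient (G D : ℍ → ℂ) (hG : MDifferentiable 𝓘(ℂ) 𝓘(ℂ) G)
    (hD : MDifferentiable 𝓘(ℂ) 𝓘(ℂ) D) (hD0 : ∃ z, D z ≠ 0) (B : ℍ → ℝ) (hB : Continuous B)
    (hq : ∀ z, D z ≠ 0 → ‖G z / D z‖ ≤ B z) :
    ∃ F : ℍ → ℂ, MDifferentiable 𝓘(ℂ) 𝓘(ℂ) F ∧ ∀ z, F z * D z = G z := by
  have hUo : IsOpen {z : ℂ | 0 < z.im} := isOpen_upperHalfPlaneSet
  have hUc : IsPreconnected {z : ℂ | 0 < z.im} :=
    (Complex.isConnected_of_upperHalfPlane subset_rfl (by grind)).isPreconnected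
  rw [UpperHalfPlane.mdifferentiable_iff] at hG hD
  obtain ⟨z₀, hz₀⟩ := hD0
  have hBc : ContinuousOn (B ∘ ofComplex) {z : ℂ | 0 < z.im} := by
    intro z hz
    have h1 : ContinuousAt ofComplex z := (contMDiffAt_ofComplex (n := 0) hz).continuousAt
    exact (hB.continuousAt.comp h1).continuousWithinAt
  obtain ⟨F, hF, hFD⟩ := h69_exists_holo_quotient_aux hUo hUc hG hD
    ⟨(z₀ : ℂ), z₀.im_pos, by simpa [ofComplex_apply] using hz₀⟩ (B ∘ ofComplex) hBc
    (fun z hz hdz => hq (ofComplex z) hdz)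
  refine ⟨fun z => F (z : ℂ), ?_, fun z => ?_⟩
  · rw [UpperHalfPlane.mdifferentiable_iff]
    refine hF.congr fun z hz => ?_
    simp [Function.comp_apply, ofComplex_apply_of_im_pos hz]
  · have := hFD (z : ℂ) z.im_pos
    simpa [ofComplex_apply] using this

end Fermat.Agent.S23
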