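import Fermat.Agent.S23.IntSpan
import Fermat.Agent.S23.H69Removable
import Fermat.Agent.S23.H69QRel

/-!
# The converse (D), reduced to steps 3+4

`h69_converse_of_core` and `h69_converse_cusp_of_core` prove the statements of the skeleton
`Converse.lean` from the interfaces `h69_CoreM N` / `h69_CoreS N` (a holomorphic quotient
`F = G / D` satisfying the monic relation is a modular form / cusp form on `Γ₀(N)`).
-/

namespace Fermat.Agent.S23

open UpperHalfPlane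
open scoped MatrixGroups Manifold

/-- The interface provided by steps 3+4 of the converse (modular form version). -/
def h69_CoreM (N : ℕ) : Prop :=
  ∀ (kD kG : ℤ) (D : ModularForm (G0 N) kD) (_ : D ≠ 0) (G : ModularForm (G0 N) kG) (m : ℕ)
    (R : (i : ℕ) → ModularForm 𝒮ℒ ((i + 1) * (kG - kD)))
    (_ : ∀ z, G z ^ m + ∑ i ∈ Finset.range m, R i z * G z ^ (m - 1 - i) * D z ^ (i + 1) = 0)
    (F : ℍ → ℂ) (_ : MDifferentiable 𝓘(ℂ) 𝓘(ℂ) F) (_ : ∀ z, F z * D z = G z),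
    ∃ F' : ModularForm (G0 N) (kG - kD), ⇑F' = F

/-- The interface provided by steps 3+4 of the converse (cusp form version). -/
def h69_CoreS (N : ℕ) : Prop :=
  ∀ (kD kG : ℤ) (D : ModularForm (G0 N) kD) (_ : D ≠ 0) (G : ModularForm (G0 N) kG) (m : ℕ)
    (R : (i : ℕ) → ModularForm 𝒮ℒ ((i + 1) * (kG - kD)))
    (_ : ∀ z, G z ^ m + ∑ i ∈ Finset.range m, R i z * G z ^ (m - 1 - i) * D z ^ (i + 1) = 0)
    (_ : ∀ i < m, IsZeroAtImInfty (R i))
    (F : ℍ → ℂ) (_ : MDifferentiable 𝓘(ℂ) 𝓘(ℂ) F) (_ : ∀ z, F z * D z = G z),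
    ∃ F' : CuspForm (G0 N) (kG - kD), ⇑F' = F

/-- Pointwise monic relation for the quotient `G z / D z`. -/
theorem h69_quot_rel (m : ℕ) (c : ℕ → ℂ) (g d : ℂ) (hd : d ≠ 0)
    (hrel : g ^ m + ∑ i ∈ Finset.range m, c i * g ^ (m - 1 - i) * d ^ (i + 1) = 0) :
    (g / d) ^ m + ∑ i ∈ Finset.range m, c i * (g / d) ^ (m - 1 - i) = 0 := by
  have hdm : d ^ m ≠ 0 := pow_ne_zero _ hd
  apply mul_left_cancel₀ hdm
  rw [mul_zero, mul_add, Finset.mul_sum, ← hrel]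
  congr 1
  · rw [div_pow]; field_simp
  · refine Finset.sum_congr rfl fun i hi => ?_
    have him : i < m := Finset.mem_range.1 hi
    obtain ⟨a, ha⟩ : ∃ a, m - 1 - i = a := ⟨_, rfl⟩
    have hm : d ^ m = d ^ a * d ^ (i + 1) := by
      rw [← pow_add]; congr 1; omega
    rw [ha, hm, div_pow]
    field_simp

/-- Data extracted in the converse: the forms, the relation and the holomorphic quotient. -/
theorem h69_converse_data (N : ℕ) [NeZero N] (k w : ℤ)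
    (Df : ModularForm (G0 N) w) (hD0 : qExpansion 1 Df ≠ 0) (Gf : ModularForm (G0 N) (k + w))
    (m : ℕ) (r : ℕ → PowerSeries ℂ) (hr : ∀ i < m, IsQM 𝒮ℒ ((i + 1) * k) (r i))
    (h : PowerSeries ℂ) (h1 : h * qExpansion 1 Df = qExpansion 1 Gf)
    (h2 : h ^ m + ∑ i ∈ Finset.range m, r i * h ^ (m - 1 - i) = 0) :
    Df ≠ 0 ∧ ∃ (R : (i : ℕ) → ModularForm 𝒮ℒ ((i + 1) * (k + w - w))),
      (∀ i < m, qExpansion 1 (R i) = r i) ∧
      (∀ z, Gf z ^ m + ∑ i ∈ Finset.range m, R i z * Gf z ^ (m - 1 - i) * Df z ^ (i + 1) = 0) ∧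
      ∃ F : ℍ → ℂ, MDifferentiable 𝓘(ℂ) 𝓘(ℂ) F ∧ ∀ z, F z * Df z = Gf z := by
  classical
  have hDf : Df ≠ 0 := by
    rintro rfl
    apply hD0
    simpa using qExpansion_zero 1
  refine ⟨hDf, ?_⟩
  let Rf : (i : ℕ) → ModularForm 𝒮ℒ ((i + 1) * k) :=
    fun i => if hi : i < m then (hr i hi).choose else 0
  have hRf : ∀ i < m, qExpansion 1 (Rf i) = r i := by
    intro i hi
    simp only [Rf, dif_pos hi]
    exact (hr i hi).choose_spec
  let R : (i : ℕ) → ModularForm 𝒮ℒ ((i + 1) * (k + w - w)) :=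
    fun i => ModularForm.mcast (by ring) (Rf i)
  have hR : ∀ i < m, qExpansion 1 (R i) = r i := fun i hi => hRf i hi
  have hGn : h69_IsNice (Gf : ℍ → ℂ) := h69_isNice_of_modularForm (one_mem_strictPeriods_G0 N) Gf
  have hDn : h69_IsNice (Df : ℍ → ℂ) := h69_isNice_of_modularForm (one_mem_strictPeriods_G0 N) Df
  have hRn : ∀ i, h69_IsNice (R i : ℍ → ℂ) :=
    fun i => h69_isNice_of_modularForm one_mem_strictPeriods_SL' (R i)
  have h2' : h ^ m + ∑ i ∈ Finset.range m, qExpansion 1 (R i) * h ^ (m - 1 - i) = 0 := by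
    rw [← h2]
    congr 1
    exact Finset.sum_congr rfl fun i hi => by rw [hR i (Finset.mem_range.1 hi)]
  have hrel := h69_fun_rel (Gf : ℍ → ℂ) (Df : ℍ → ℂ) (fun i => (R i : ℍ → ℂ)) hGn hDn m
    (fun i _ => hRn i) h h1 h2'
  refine ⟨R, hR, hrel, ?_⟩
  have hDz : ∃ z, Df z ≠ 0 := by
    by_contra hcon
    push Not at hcon
    exact hDf (DFunLike.ext _ _ fun z => by simpa using hcon z)
  refine h69_exists_mdiff_quotient (Gf : ℍ → ℂ) (Df : ℍ → ℂ) hGn.2.1 hDn.2.1 hDz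
    (fun z => max 1 (∑ i ∈ Finset.range m, ‖R i z‖)) ?_ ?_
  · refine continuous_const.max (continuous_finsetSum _ fun i _ => ?_)
    exact (hRn i).2.1.continuous.norm
  · intro z hz
    exact h69_norm_le_of_monic_root m (fun i => R i z) (Gf z / Df z)
      (h69_quot_rel m (fun i => R i z) (Gf z) (Df z) hz (hrel z))

/-- Step 5: identification of the `q`-expansion of the quotient. -/
theorem h69_qExpansion_quot (N : ℕ) [NeZero N] {k₁ k₂ k₃ : ℤ}
    (Df : ModularForm (G0 N) k₁) (hD0 : qExpansion 1 Df ≠ 0) (Gf : ModularForm (G0 N) k₂)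
    (F : ModularForm (G0 N) k₃) (hFD : ∀ z, F z * Df z = Gf z)
    (h : PowerSeries ℂ) (h1 : h * qExpansion 1 Df = qExpansion 1 Gf) :
    qExpansion 1 F = h := by
  have h3 : qExpansion 1 ((F : ℍ → ℂ) * (Df : ℍ → ℂ)) = qExpansion 1 F * qExpansion 1 Df :=
    ModularForm.qExpansion_mul_coe one_pos (one_mem_strictPeriods_G0 N) F Df
  have h4 : (F : ℍ → ℂ) * (Df : ℍ → ℂ) = (Gf : ℍ → ℂ) := funext hFD
  rw [h4, ← h1] at h3
  exact (mul_right_cancel₀ hD0 h3).symm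

/-- (D) analytic converse for modular forms, assuming steps 3+4. -/
theorem h69_converse_of_core (N : ℕ) [NeZero N] (hcore : h69_CoreM N) (k w : ℤ)
    (D G : PowerSeries ℂ)
    (hD : IsQM (G0 N) w D) (hD0 : D ≠ 0) (hG : IsQM (G0 N) (k + w) G)
    (m : ℕ) (r : ℕ → PowerSeries ℂ) (hr : ∀ i < m, IsQM 𝒮ℒ ((i + 1) * k) (r i))
    (h : PowerSeries ℂ) (h1 : h * D = G)
    (h2 : h ^ m + ∑ i ∈ Finset.range m, r i * h ^ (m - 1 - i) = 0) :
    IsQM (G0 N) k h := by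
  obtain ⟨Df, rfl⟩ := hD
  obtain ⟨Gf, rfl⟩ := hG
  obtain ⟨hDf, R, -, hrel, F, hF, hFD⟩ := h69_converse_data N k w Df hD0 Gf m r hr h h1 h2
  obtain ⟨F', hF'⟩ := hcore w (k + w) Df hDf Gf m R hrel F hF hFD
  refine ⟨ModularForm.mcast (by ring) F', ?_⟩
  exact h69_qExpansion_quot N Df hD0 Gf (ModularForm.mcast (by ring) F')
    (fun z => by
      have := hFD z
      rw [← hF'] at this
      exact this) h h1

/-- (D') analytic converse for cusp forms, assuming steps 3+4. -/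
theorem h69_converse_cusp_of_core (N : ℕ) [NeZero N] (hcore : h69_CoreS N) (k w : ℤ)
    (D G : PowerSeries ℂ)
    (hD : IsQM (G0 N) w D) (hD0 : D ≠ 0) (hG : IsQM (G0 N) (k + w) G)
    (m : ℕ) (r : ℕ → PowerSeries ℂ) (hr : ∀ i < m, IsQM 𝒮ℒ ((i + 1) * k) (r i))
    (hr0 : ∀ i < m, PowerSeries.coeff 0 (r i) = 0)
    (h : PowerSeries ℂ) (h1 : h * D = G)
    (h2 : h ^ m + ∑ i ∈ Finset.range m, r i * h ^ (m - 1 - i) = 0) :
    IsQS (G0 N) k h := by
  obtain ⟨Df, rfl⟩ := hD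
  obtain ⟨Gf, rfl⟩ := hG
  obtain ⟨hDf, R, hR, hrel, F, hF, hFD⟩ := h69_converse_data N k w Df hD0 Gf m r hr h h1 h2
  have hR0 : ∀ i < m, IsZeroAtImInfty (R i) := by
    intro i hi
    have hc : IsCusp OnePoint.infty 𝒮ℒ :=
      (𝒮ℒ).isCusp_of_mem_strictPeriods one_pos one_mem_strictPeriods_SL'
    have := ModularForm.isZeroAt_of_coeffZero_eq_zero (R i) (by rw [hR i hi]; exact hr0 i hi) hc
    exact OnePoint.isZeroAt_infty_iff.1 this
  obtain ⟨F', hF'⟩ := hcore w (k + w) Df hDf Gf m R hrel hR0 F hF hFD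
  refine ⟨CuspForm.mcast (by ring) F', ?_⟩
  have h3 : qExpansion 1 ((F : ℍ → ℂ) * (Df : ℍ → ℂ)) = qExpansion 1 F * qExpansion 1 Df := by
    rw [← hF']
    exact ModularForm.qExpansion_mul_coe one_pos (one_mem_strictPeriods_G0 N) F' Df
  have h4 : (F : ℍ → ℂ) * (Df : ℍ → ℂ) = (Gf : ℍ → ℂ) := funext hFD
  rw [h4, ← h1] at h3
  have h5 : qExpansion 1 F = h := (mul_right_cancel₀ hD0 h3).symm
  rw [← h5, ← hF']
  rfl

end Fermat.Agent.S23
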