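import Fermat.Agent.S23.Defs
import Fermat.Agent.S23.H69Removable

/-!
# S23, package (D), steps 3 + 4: the holomorphic quotient is a modular (cusp) form

Let `D`, `G` be modular forms on `Γ₀(N)` of weights `kD`, `kG`, `D ≠ 0`, and suppose `G`
satisfies the monic relation `G ^ m + ∑ i < m, R i * G ^ (m - 1 - i) * D ^ (i + 1) = 0` with
level-one forms `R i` of weight `(i + 1) * (kG - kD)`.  If `F : ℍ → ℂ` is holomorphic with
`F * D = G`, then `F` is (the underlying function of) a modular form of weight `kG - kD` on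
`Γ₀(N)`; and a cusp form if moreover all `R i` (`i < m`) vanish at `i∞`.

* `h9_monic_relation`      : `F ^ m + ∑ i < m, R i * F ^ (m - 1 - i) = 0` (identity theorem).
* `h9_slash_eq`            : `F ∣[kG - kD] γ = F` for `γ ∈ Γ₀(N)` (identity theorem).
* `h9_slash_root`          : every `SL(2,ℤ)`-translate of `F` is a root of the same polynomial.
* `h9_modularForm_of_quotient`, `h9_cuspForm_of_quotient` : the packaged statements.
-/

set_option autoImplicit false

namespace Fermat.Agent.S23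

open UpperHalfPlane SlashInvariantForm Filter
open scoped MatrixGroups ModularForm Manifold Topology

/-- A finite sum of norms of functions bounded at `i∞` is bounded near `i∞`. -/
theorem h9_sum_norm_bdd (m : ℕ) (R : ℕ → ℍ → ℂ) (hR : ∀ i < m, IsBoundedAtImInfty (R i)) :
    ∃ M A : ℝ, ∀ z : ℍ, A ≤ im z → ∑ i ∈ Finset.range m, ‖R i z‖ ≤ M := by
  induction m with
  | zero => exact ⟨0, 0, fun z _ => by simp⟩
  | succ n ih =>
    obtain ⟨M, A, h⟩ := ih (fun i hi => hR i (by omega))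
    obtain ⟨M', A', h'⟩ := isBoundedAtImInfty_iff.mp (hR n (by omega))
    refine ⟨M + M', max A A', fun z hz => ?_⟩
    rw [Finset.sum_range_succ]
    exact add_le_add (h z (le_trans (le_max_left _ _) hz)) (h' z (le_trans (le_max_right _ _) hz))

/-- A finite sum of norms of functions vanishing at `i∞` is small near `i∞`. -/
theorem h9_sum_norm_small (m : ℕ) (R : ℕ → ℍ → ℂ) (hR : ∀ i < m, IsZeroAtImInfty (R i))
    (ε : ℝ) (hε : 0 < ε) :
    ∃ A : ℝ, ∀ z : ℍ, A ≤ im z → ∑ i ∈ Finset.range m, ‖R i z‖ ≤ ε := by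
  induction m generalizing ε with
  | zero => exact ⟨0, fun z _ => by simpa using hε.le⟩
  | succ n ih =>
    obtain ⟨A, h⟩ := ih (fun i hi => hR i (by omega)) (ε / 2) (half_pos hε)
    obtain ⟨A', h'⟩ := isZeroAtImInfty_iff.mp (hR n (by omega)) (ε / 2) (half_pos hε)
    refine ⟨max A A', fun z hz => ?_⟩
    rw [Finset.sum_range_succ]
    have h1 := h z (le_trans (le_max_left _ _) hz)
    have h2 := h' z (le_trans (le_max_right _ _) hz)
    linarith

/-- Step A (identity theorem): if `F * D = G` with `D ≢ 0` holomorphic and `G` satisfies the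
homogenised monic relation, then `F` satisfies the monic relation. -/
theorem h9_monic_relation (D G : ℍ → ℂ) (hDm : MDifferentiable 𝓘(ℂ) 𝓘(ℂ) D) (hD : D ≠ 0)
    (m : ℕ) (R : ℕ → ℍ → ℂ) (hR : ∀ i, MDifferentiable 𝓘(ℂ) 𝓘(ℂ) (R i))
    (hrel : ∀ z, G z ^ m + ∑ i ∈ Finset.range m, R i z * G z ^ (m - 1 - i) * D z ^ (i + 1) = 0)
    (F : ℍ → ℂ) (hF : MDifferentiable 𝓘(ℂ) 𝓘(ℂ) F) (hFD : ∀ z, F z * D z = G z) :
    ∀ z, F z ^ m + ∑ i ∈ Finset.range m, R i z * F z ^ (m - 1 - i) = 0 := by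
  have hP : MDifferentiable 𝓘(ℂ) 𝓘(ℂ) (F ^ m + ∑ i ∈ Finset.range m, R i * F ^ (m - 1 - i)) :=
    (hF.pow m).add (MDifferentiable.sum fun i _ => (hR i).mul (hF.pow _))
  have hDp : MDifferentiable 𝓘(ℂ) 𝓘(ℂ) (D ^ m) := hDm.pow m
  have key : (D ^ m) * (F ^ m + ∑ i ∈ Finset.range m, R i * F ^ (m - 1 - i)) = 0 := by
    funext z
    simp only [Pi.mul_apply, Pi.pow_apply, Pi.add_apply, Finset.sum_apply, Pi.zero_apply]
    have h := hrel z
    rw [← hFD z] at h
    rw [← h, mul_add, Finset.mul_sum]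
    congr 1
    · ring
    · refine Finset.sum_congr rfl fun i hi => ?_
      have hi' : i < m := Finset.mem_range.mp hi
      have e : D z ^ m = D z ^ (m - 1 - i) * D z ^ (i + 1) := by
        rw [← pow_add]; congr 1; omega
      rw [e, mul_pow]; ring
  rcases (UpperHalfPlane.mul_eq_zero_iff hDp hP).mp key with h | h
  · exfalso
    apply hD
    funext z
    have := congrFun h z
    simp only [Pi.pow_apply, Pi.zero_apply] at this
    rcases Nat.eq_zero_or_pos m with rfl | hm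
    · simp at this
    · exact (pow_eq_zero_iff hm.ne').mp this
  · intro z
    have := congrFun h z
    simpa only [Pi.mul_apply, Pi.pow_apply, Pi.add_apply, Finset.sum_apply, Pi.zero_apply]
      using this

/-- Step B (identity theorem): the holomorphic quotient is slash-invariant. -/
theorem h9_slash_eq (N : ℕ) (kD kG : ℤ) (D : ModularForm (G0 N) kD) (hD : D ≠ 0)
    (G : ModularForm (G0 N) kG) (F : ℍ → ℂ) (hF : MDifferentiable 𝓘(ℂ) 𝓘(ℂ) F)
    (hFD : ∀ z, F z * D z = G z) (γ : GL (Fin 2) ℝ) (hγ : γ ∈ G0 N) :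
    F ∣[kG - kD] γ = F := by
  have hFDf : F * ⇑D = ⇑G := funext hFD
  have h1 : (F * ⇑D) ∣[(kG - kD) + kD] γ = (F ∣[kG - kD] γ) * ⇑D := by
    rw [ModularForm.mul_slash, Subgroup.HasDetPlusMinusOne.abs_det hγ, one_smul,
      SlashInvariantForm.slash_action_eqn D γ hγ]
  have h2 : (F * ⇑D) ∣[(kG - kD) + kD] γ = ⇑G := by
    rw [sub_add_cancel, hFDf]; exact SlashInvariantForm.slash_action_eqn G γ hγ
  have h3 : (F ∣[kG - kD] γ - F) * ⇑D = 0 := by
    rw [sub_mul, ← h1, h2, hFDf, sub_self]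
  rcases (UpperHalfPlane.mul_eq_zero_iff ((hF.slash _ γ).sub hF)
      (ModularFormClass.holo D)).mp h3 with h | h
  · exact sub_eq_zero.mp h
  · exact absurd (DFunLike.coe_injective (h.trans FunLike.coe_zero.symm)) hD

/-- Step C: every `SL(2,ℤ)`-translate `F ∣[k] γ` of a root `F` of the monic polynomial
`X ^ m + ∑ i < m, R i * X ^ (m - 1 - i)` with level-one coefficients `R i` of weight `(i + 1) * k`
is again a root. -/
theorem h9_slash_root (k : ℤ) (m : ℕ) (R : (i : ℕ) → ModularForm 𝒮ℒ (((i : ℤ) + 1) * k))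
    (F : ℍ → ℂ)
    (hP : ∀ z, F z ^ m + ∑ i ∈ Finset.range m, R i z * F z ^ (m - 1 - i) = 0)
    (γ : SL(2, ℤ)) (z : ℍ) :
    (F ∣[k] γ) z ^ m + ∑ i ∈ Finset.range m, R i z * (F ∣[k] γ) z ^ (m - 1 - i) = 0 := by
  have hR : ∀ i, R i z = R i (γ • z) * (denom γ z ^ (-k)) ^ (i + 1) := by
    intro i
    have h1 : (⇑(R i) ∣[((i : ℤ) + 1) * k] γ) = ⇑(R i) := (R i).slash_action_eq' _ ⟨γ, rfl⟩
    have h2 := congrFun h1 z
    rw [ModularForm.SL_slash_apply] at h2
    rw [← h2]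
    congr 1
    rw [← zpow_natCast, ← zpow_mul]
    congr 1
    push_cast
    ring
  rw [ModularForm.SL_slash_apply]
  set w : ℂ := denom γ z ^ (-k) with hw
  set x : ℂ := F (γ • z) with hx
  have h0 := hP (γ • z)
  have : (x * w) ^ m + ∑ i ∈ Finset.range m, R i z * (x * w) ^ (m - 1 - i)
      = w ^ m * (x ^ m + ∑ i ∈ Finset.range m, R i (γ • z) * x ^ (m - 1 - i)) := by
    rw [mul_add, Finset.mul_sum]
    congr 1
    · ring
    · refine Finset.sum_congr rfl fun i hi => ?_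
      have hi' : i < m := Finset.mem_range.mp hi
      have e : w ^ m = w ^ (m - 1 - i) * w ^ (i + 1) := by
        rw [← pow_add]; congr 1; omega
      rw [hR i, e, mul_pow]; ring
  rw [this, h0, mul_zero]

/-- **Steps 3 + 4, modular form version.** -/
theorem h9_modularForm_of_quotient (N : ℕ) [NeZero N] (kD kG : ℤ)
    (D : ModularForm (G0 N) kD) (hD : D ≠ 0) (G : ModularForm (G0 N) kG) (m : ℕ)
    (R : (i : ℕ) → ModularForm 𝒮ℒ (((i : ℤ) + 1) * (kG - kD)))
    (hrel : ∀ z, G z ^ m + ∑ i ∈ Finset.range m, R i z * G z ^ (m - 1 - i) * D z ^ (i + 1) = 0)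
    (F : ℍ → ℂ) (hF : MDifferentiable 𝓘(ℂ) 𝓘(ℂ) F) (hFD : ∀ z, F z * D z = G z) :
    ∃ F' : ModularForm (G0 N) (kG - kD), ⇑F' = F := by
  have hD' : (⇑D : ℍ → ℂ) ≠ 0 := fun h =>
    hD (DFunLike.coe_injective (h.trans FunLike.coe_zero.symm))
  have hP := h9_monic_relation (⇑D) (⇑G) (ModularFormClass.holo D) hD' m (fun i => ⇑(R i))
    (fun i => ModularFormClass.holo (R i)) hrel F hF hFD
  refine ⟨{ toFun := F
            slash_action_eq' := fun γ hγ => h9_slash_eq N kD kG D hD G F hF hFD γ hγ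
            holo' := hF
            bdd_at_cusps' := ?_ }, rfl⟩
  intro c hc
  rw [Subgroup.IsArithmetic.isCusp_iff_isCusp_SL2Z] at hc
  rw [OnePoint.isBoundedAt_iff_forall_SL2Z hc]
  intro γ _
  obtain ⟨M, A, hMA⟩ := h9_sum_norm_bdd m (fun i => ⇑(R i))
    (fun i _ => ModularFormClass.bdd_at_infty (R i))
  rw [isBoundedAtImInfty_iff]
  refine ⟨max 1 M, A, fun z hz => ?_⟩
  have hroot := h9_slash_root (kG - kD) m R F hP γ z
  refine (h69_norm_le_of_monic_root m (fun i => R i z) _ hroot).trans ?_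
  exact max_le_max le_rfl (hMA z hz)

/-- **Steps 3 + 4, cusp form version.** -/
theorem h9_cuspForm_of_quotient (N : ℕ) [NeZero N] (kD kG : ℤ)
    (D : ModularForm (G0 N) kD) (hD : D ≠ 0) (G : ModularForm (G0 N) kG) (m : ℕ)
    (R : (i : ℕ) → ModularForm 𝒮ℒ (((i : ℤ) + 1) * (kG - kD)))
    (hR0 : ∀ i < m, IsZeroAtImInfty (R i))
    (hrel : ∀ z, G z ^ m + ∑ i ∈ Finset.range m, R i z * G z ^ (m - 1 - i) * D z ^ (i + 1) = 0)
    (F : ℍ → ℂ) (hF : MDifferentiable 𝓘(ℂ) 𝓘(ℂ) F) (hFD : ∀ z, F z * D z = G z) :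
    ∃ F' : CuspForm (G0 N) (kG - kD), ⇑F' = F := by
  have hD' : (⇑D : ℍ → ℂ) ≠ 0 := fun h =>
    hD (DFunLike.coe_injective (h.trans FunLike.coe_zero.symm))
  have hP := h9_monic_relation (⇑D) (⇑G) (ModularFormClass.holo D) hD' m (fun i => ⇑(R i))
    (fun i => ModularFormClass.holo (R i)) hrel F hF hFD
  have hm : m ≠ 0 := by
    rintro rfl
    simpa using hP I
  refine ⟨{ toFun := F
            slash_action_eq' := fun γ hγ => h9_slash_eq N kD kG D hD G F hF hFD γ hγ
            holo' := hF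
            zero_at_cusps' := ?_ }, rfl⟩
  intro c hc
  rw [Subgroup.IsArithmetic.isCusp_iff_isCusp_SL2Z] at hc
  rw [OnePoint.isZeroAt_iff_forall_SL2Z hc]
  intro γ _
  rw [isZeroAtImInfty_iff]
  intro ε hε
  have hε' : 0 < min 1 (ε ^ m) := lt_min one_pos (pow_pos hε m)
  obtain ⟨A, hA⟩ := h9_sum_norm_small m (fun i => ⇑(R i)) hR0 _ hε'
  refine ⟨A, fun z hz => ?_⟩
  have hroot := h9_slash_root (kG - kD) m R F hP γ z
  have hs := hA z hz
  have h1 := h69_norm_pow_le_of_monic_root m (fun i => R i z) _ hroot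
    (hs.trans (min_le_left _ _))
  have h2 : ‖(F ∣[kG - kD] γ) z‖ ^ m ≤ ε ^ m := h1.trans (hs.trans (min_le_right _ _))
  exact (pow_le_pow_iff_left₀ (norm_nonneg _) hε.le hm).mp h2

end Fermat.Agent.S23
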