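import Mathlib
import Fermat.Prelude.Def_CuspForm_HeckeAlgebra
import Fermat.Prelude.Def_CuspForm_IntegralStructure
import Fermat.Prelude.Thm_CuspForm_intLattice_fg
import Fermat.Prelude.Thm_CuspForm_mem_intLattice_of_mem_heckeAlgebra
import Fermat.Agent.S22.Alg

/-!
# Package [H]: an integral structure makes the Hecke algebra a finite `ℤ`-module

If `S_k(Γ₀(N))` is spanned over `ℂ` by the lattice `intLattice N k` of forms with integral
`q`-expansion, then the Hecke algebra (generated over `ℤ` by the `T_ℓ`, `U_q` away from `S`) is a
finitely generated `ℤ`-module: it acts faithfully on the finitely generated, Hecke-stable lattice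
`intLattice N k`.
-/

set_option autoImplicit false

namespace Fermat.Agent.S23

open CuspForm

/-- (H) For `1 ≤ k`: a spanning integral lattice forces the Hecke algebra to be finite over
`ℤ`. -/
theorem heckeAlgebra_finite_of_hasIntegralStructure_of_one_le (N : ℕ) [NeZero N] (k : ℤ)
    (hk : 1 ≤ k) (S : Set ℕ) (h : CuspForm.HasIntegralStructure N k) :
    Module.Finite ℤ (CuspForm.heckeAlgebra N k S) := by
  classical
  have hfin : Module.Finite ℤ (CuspForm.intLattice N k) :=
    Module.Finite.iff_fg.mpr (CuspForm.intLattice_fg N k)
  have hnoeth : IsNoetherian ℤ (CuspForm.intLattice N k) :=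
    isNoetherian_of_isNoetherianRing_of_finite ℤ _
  let Ψ : (CuspForm.heckeAlgebra N k S) →ₗ[ℤ]
      (CuspForm.intLattice N k →ₗ[ℤ] CuspForm.intLattice N k) :=
    { toFun := fun t =>
        { toFun := fun f => ⟨(t : Module.End ℂ (CuspForm (CongruenceSubgroup.Gamma0 N) k))
              (f : CuspForm (CongruenceSubgroup.Gamma0 N) k),
            CuspForm.mem_intLattice_of_mem_heckeAlgebra hk t.2 f.2⟩
          map_add' := by
            intro f g
            apply Subtype.ext
            simp
          map_smul' := by
            intro r f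
            apply Subtype.ext
            simp }
      map_add' := by
        intro s t
        ext f
        simp
      map_smul' := by
        intro r t
        ext f
        simp }
  have hΨ : Function.Injective Ψ := by
    rw [injective_iff_map_eq_zero]
    intro t ht
    apply Subtype.ext
    have hker : ∀ f ∈ (CuspForm.intLattice N k : Set (CuspForm (CongruenceSubgroup.Gamma0 N) k)),
        (t : Module.End ℂ (CuspForm (CongruenceSubgroup.Gamma0 N) k)) f = 0 := by
      intro f hf
      have := congrArg (fun φ : CuspForm.intLattice N k →ₗ[ℤ] CuspForm.intLattice N k =>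
        ((φ ⟨f, hf⟩ : CuspForm.intLattice N k) : CuspForm (CongruenceSubgroup.Gamma0 N) k)) ht
      simpa [Ψ] using this
    have hle : Submodule.span ℂ
        (CuspForm.intLattice N k : Set (CuspForm (CongruenceSubgroup.Gamma0 N) k)) ≤
        LinearMap.ker (t : Module.End ℂ (CuspForm (CongruenceSubgroup.Gamma0 N) k)) :=
      Submodule.span_le.mpr fun f hf => LinearMap.mem_ker.mpr (hker f hf)
    have htop : LinearMap.ker (t : Module.End ℂ (CuspForm (CongruenceSubgroup.Gamma0 N) k)) = ⊤ := by
      rw [eq_top_iff]
      have h' : Submodule.span ℂ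
          (CuspForm.intLattice N k : Set (CuspForm (CongruenceSubgroup.Gamma0 N) k)) = ⊤ := h
      rw [← h']
      exact hle
    exact LinearMap.ker_eq_top.mp htop
  have hN : IsNoetherian ℤ
      (CuspForm.intLattice N k →ₗ[ℤ] CuspForm.intLattice N k) :=
    isNoetherian_linearMap ℤ _ _
  have hN' : IsNoetherian ℤ (CuspForm.heckeAlgebra N k S) := isNoetherian_of_injective Ψ hΨ
  infer_instance

/-- **Package (H).** If `S_k(Γ₀(N))` has an integral structure, then the Hecke algebra away from
`S` is a finitely generated `ℤ`-module. -/
theorem heckeAlgebra_finite_of_hasIntegralStructure (N : ℕ) [NeZero N] (k : ℤ) (S : Set ℕ)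
    (h : CuspForm.HasIntegralStructure N k) :
    Module.Finite ℤ (CuspForm.heckeAlgebra N k S) := by
  by_cases hk : 1 ≤ k
  · exact heckeAlgebra_finite_of_hasIntegralStructure_of_one_le N k hk S h
  · have hk' : k ≤ 1 := by omega
    have : Subsingleton (CuspForm (CongruenceSubgroup.Gamma0 N) k) :=
      ⟨fun f g => by
        rw [Fermat.Agent.S22.cuspForm_eq_zero_of_weight_le_one N k hk' f,
          Fermat.Agent.S22.cuspForm_eq_zero_of_weight_le_one N k hk' g]⟩
    exact Fermat.Agent.S22.moduleFinite_adjoin_of_subsingleton (CuspForm.heckeGenerators N k S)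

end Fermat.Agent.S23
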