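import Fermat.Agent.S23.Defs
import Fermat.Prelude.Thm_CongruenceSubgroup_one_mem_strictPeriods_Gamma0

/-!
# Basic closure properties of `intSpanM` (helper23).
-/

set_option autoImplicit false

namespace Fermat.Agent.S23

open UpperHalfPlane
open scoped MatrixGroups

theorem one_mem_strictPeriods_G0 (N : ℕ) : (1 : ℝ) ∈ (G0 N).strictPeriods :=
  CongruenceSubgroup.one_mem_strictPeriods_Gamma0 N

theorem one_mem_strictPeriods_SL' : (1 : ℝ) ∈ (𝒮ℒ).strictPeriods :=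
  _root_.one_mem_strictPeriods_SL

theorem isIntSeries_zero : IsIntSeries 0 := fun n => ⟨0, by simp⟩

theorem isIntSeries_one : IsIntSeries 1 := fun n => by
  by_cases hn : n = 0
  · exact ⟨1, by simp [hn]⟩
  · exact ⟨0, by simp [PowerSeries.coeff_one, hn]⟩

theorem IsIntSeries.add {h₁ h₂ : PowerSeries ℂ} (hh₁ : IsIntSeries h₁) (hh₂ : IsIntSeries h₂) :
    IsIntSeries (h₁ + h₂) := fun n => by
  obtain ⟨a, ha⟩ := hh₁ n
  obtain ⟨b, hb⟩ := hh₂ n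
  exact ⟨a + b, by simp [ha, hb]⟩

theorem IsIntSeries.neg {h₁ : PowerSeries ℂ} (hh₁ : IsIntSeries h₁) :
    IsIntSeries (-h₁) := fun n => by
  obtain ⟨a, ha⟩ := hh₁ n
  exact ⟨-a, by simp [ha]⟩

theorem IsIntSeries.mul {h₁ h₂ : PowerSeries ℂ} (hh₁ : IsIntSeries h₁) (hh₂ : IsIntSeries h₂) :
    IsIntSeries (h₁ * h₂) := fun n => by
  choose a ha using hh₁
  choose b hb using hh₂
  refine ⟨∑ p ∈ Finset.HasAntidiagonal.antidiagonal n, a p.1 * b p.2, ?_⟩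
  rw [PowerSeries.coeff_mul]
  push_cast
  exact Finset.sum_congr rfl fun p _ => by rw [ha, hb]

theorem IsIntSeries.pow {h₁ : PowerSeries ℂ} (hh₁ : IsIntSeries h₁) (n : ℕ) :
    IsIntSeries (h₁ ^ n) := by
  induction n with
  | zero => simpa using isIntSeries_one
  | succ n ih => rw [pow_succ]; exact ih.mul hh₁

theorem IsIntSeries.int_smul {h₁ : PowerSeries ℂ} (hh₁ : IsIntSeries h₁) (c : ℤ) :
    IsIntSeries ((c : ℂ) • h₁) := fun n => by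
  obtain ⟨a, ha⟩ := hh₁ n
  exact ⟨c * a, by simp [ha]⟩

theorem IsIntSeries.map_ringHom {h₁ : PowerSeries ℂ} (hh₁ : IsIntSeries h₁) (σ : ℂ →+* ℂ) :
    PowerSeries.map σ h₁ = h₁ := by
  ext n
  obtain ⟨a, ha⟩ := hh₁ n
  simp [ha]

theorem IsIntSeries.isRatSeries {h₁ : PowerSeries ℂ} (hh₁ : IsIntSeries h₁) : IsRatSeries h₁ :=
  fun n => by
    obtain ⟨a, ha⟩ := hh₁ n
    exact ⟨a, by simp [ha]⟩

/-- the `q`-expansions of modular forms form a submodule. -/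
theorem isQM_zero (Γ : Subgroup (GL (Fin 2) ℝ)) (k : ℤ) : IsQM Γ k 0 :=
  ⟨0, by simpa using qExpansion_zero 1⟩

theorem IsQM.add {Γ : Subgroup (GL (Fin 2) ℝ)} (hΓ : (1 : ℝ) ∈ Γ.strictPeriods) {k : ℤ}
    {h₁ h₂ : PowerSeries ℂ} (hh₁ : IsQM Γ k h₁) (hh₂ : IsQM Γ k h₂) : IsQM Γ k (h₁ + h₂) := by
  obtain ⟨f₁, rfl⟩ := hh₁
  obtain ⟨f₂, rfl⟩ := hh₂
  exact ⟨f₁ + f₂, by
    rw [← ModularForm.qExpansion_add one_pos hΓ f₁ f₂]; rfl⟩

theorem IsQM.smul {Γ : Subgroup (GL (Fin 2) ℝ)} [Γ.HasDetOne]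
    (hΓ : (1 : ℝ) ∈ Γ.strictPeriods) {k : ℤ}
    {h₁ : PowerSeries ℂ} (c : ℂ) (hh₁ : IsQM Γ k h₁) : IsQM Γ k (c • h₁) := by
  obtain ⟨f₁, rfl⟩ := hh₁
  exact ⟨c • f₁, by
    rw [← ModularForm.qExpansion_smul one_pos hΓ c f₁]; rfl⟩

theorem IsQM.mul {Γ : Subgroup (GL (Fin 2) ℝ)} [Γ.HasDetPlusMinusOne]
    (hΓ : (1 : ℝ) ∈ Γ.strictPeriods) {k₁ k₂ : ℤ}
    {h₁ h₂ : PowerSeries ℂ} (hh₁ : IsQM Γ k₁ h₁) (hh₂ : IsQM Γ k₂ h₂) :
    IsQM Γ (k₁ + k₂) (h₁ * h₂) := by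
  obtain ⟨f₁, rfl⟩ := hh₁
  obtain ⟨f₂, rfl⟩ := hh₂
  exact ⟨f₁.mul f₂, ModularForm.qExpansion_mul one_pos hΓ f₁ f₂⟩

theorem IsQM.cast {Γ : Subgroup (GL (Fin 2) ℝ)} {k₁ k₂ : ℤ} (hk : k₁ = k₂)
    {h₁ : PowerSeries ℂ} (hh₁ : IsQM Γ k₁ h₁) : IsQM Γ k₂ h₁ := by
  subst hk; exact hh₁

theorem intSpanM_cast {Γ : Subgroup (GL (Fin 2) ℝ)} {k₁ k₂ : ℤ} (hk : k₁ = k₂)
    {h₁ : PowerSeries ℂ} (hh₁ : h₁ ∈ intSpanM Γ k₁) : h₁ ∈ intSpanM Γ k₂ := by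
  subst hk; exact hh₁

/-- elements of `intSpanM Γ k` are `q`-expansions of modular forms. -/
theorem isQM_of_mem_intSpanM' {Γ : Subgroup (GL (Fin 2) ℝ)} [Γ.HasDetOne]
    (hΓ : (1 : ℝ) ∈ Γ.strictPeriods)
    (k : ℤ) {h : PowerSeries ℂ} (hh : h ∈ intSpanM Γ k) : IsQM Γ k h := by
  induction hh using Submodule.span_induction with
  | mem x hx => exact hx.1
  | zero => exact isQM_zero Γ k
  | add x y _ _ hx hy => exact hx.add hΓ hy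
  | smul c x _ hx => exact hx.smul hΓ c

theorem isQM_of_mem_intSpanM (N : ℕ) [NeZero N] (k : ℤ) {h : PowerSeries ℂ}
    (hh : h ∈ intSpanM (G0 N) k) : IsQM (G0 N) k h :=
  isQM_of_mem_intSpanM' (one_mem_strictPeriods_G0 N) k hh

theorem isQM_of_mem_intSpanM_levelOne (k : ℤ) {h : PowerSeries ℂ}
    (hh : h ∈ intSpanM 𝒮ℒ k) : IsQM 𝒮ℒ k h :=
  isQM_of_mem_intSpanM' one_mem_strictPeriods_SL' k hh

theorem G0_le_SL (N : ℕ) : G0 N ≤ 𝒮ℒ := by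
  rintro _ ⟨γ, -, rfl⟩
  exact ⟨γ, rfl⟩

/-- restriction of a level one form to `Γ₀(N)` -/
noncomputable def restrictG0 (N : ℕ) {k : ℤ} (f : ModularForm 𝒮ℒ k) : ModularForm (G0 N) k where
  toFun := f
  slash_action_eq' γ hγ := f.slash_action_eq' γ (G0_le_SL N hγ)
  holo' := f.holo'
  bdd_at_cusps' hc := f.bdd_at_cusps' (hc.mono (G0_le_SL N))

@[simp] theorem coe_restrictG0 (N : ℕ) {k : ℤ} (f : ModularForm 𝒮ℒ k) :
    (restrictG0 N f : ℍ → ℂ) = f := rfl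

theorem IsQM.of_levelOne (N : ℕ) {k : ℤ} {h : PowerSeries ℂ} (hh : IsQM 𝒮ℒ k h) :
    IsQM (G0 N) k h := by
  obtain ⟨f, rfl⟩ := hh
  exact ⟨restrictG0 N f, rfl⟩

/-- level one forms are forms of level `Γ₀(N)`. -/
theorem intSpanM_levelOne_le (N : ℕ) (k : ℤ) :
    intSpanM 𝒮ℒ k ≤ intSpanM (G0 N) k :=
  Submodule.span_mono fun _ hx => ⟨hx.1.of_levelOne N, hx.2⟩

theorem mem_intSpanM_of_int {Γ : Subgroup (GL (Fin 2) ℝ)} {k : ℤ} {h : PowerSeries ℂ}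
    (h1 : IsQM Γ k h) (h2 : IsIntSeries h) : h ∈ intSpanM Γ k :=
  Submodule.subset_span ⟨h1, h2⟩

theorem intSpanM_mul' {Γ : Subgroup (GL (Fin 2) ℝ)} [Γ.HasDetPlusMinusOne]
    (hΓ : (1 : ℝ) ∈ Γ.strictPeriods) (k₁ k₂ : ℤ) {h₁ h₂ : PowerSeries ℂ}
    (hh₁ : h₁ ∈ intSpanM Γ k₁) (hh₂ : h₂ ∈ intSpanM Γ k₂) :
    h₁ * h₂ ∈ intSpanM Γ (k₁ + k₂) := by
  induction hh₁ using Submodule.span_induction with
  | mem x hx =>
    induction hh₂ using Submodule.span_induction with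
    | mem y hy => exact mem_intSpanM_of_int (hx.1.mul hΓ hy.1) (hx.2.mul hy.2)
    | zero => simp
    | add y z _ _ hy hz => rw [mul_add]; exact Submodule.add_mem _ hy hz
    | smul c y _ hy => rw [mul_smul_comm]; exact Submodule.smul_mem _ c hy
  | zero => simp
  | add x y _ _ hx hy => rw [add_mul]; exact Submodule.add_mem _ hx hy
  | smul c x _ hx => rw [smul_mul_assoc]; exact Submodule.smul_mem _ c hx

theorem intSpanM_mul (N : ℕ) [NeZero N] (k₁ k₂ : ℤ) {h₁ h₂ : PowerSeries ℂ}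
    (hh₁ : h₁ ∈ intSpanM (G0 N) k₁) (hh₂ : h₂ ∈ intSpanM (G0 N) k₂) :
    h₁ * h₂ ∈ intSpanM (G0 N) (k₁ + k₂) :=
  intSpanM_mul' (one_mem_strictPeriods_G0 N) k₁ k₂ hh₁ hh₂

/-- stability under coefficientwise ring homomorphisms -/
theorem intSpanM_map (Γ : Subgroup (GL (Fin 2) ℝ)) (k : ℤ) (σ : ℂ →+* ℂ) {h : PowerSeries ℂ}
    (hh : h ∈ intSpanM Γ k) : PowerSeries.map σ h ∈ intSpanM Γ k := by
  induction hh using Submodule.span_induction with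
  | mem x hx => rw [hx.2.map_ringHom σ]; exact Submodule.subset_span hx
  | zero => simp
  | add x y _ _ hx hy => rw [map_add]; exact Submodule.add_mem _ hx hy
  | smul c x _ hx =>
    have : PowerSeries.map σ (c • x) = σ c • PowerSeries.map σ x := by
      ext n; simp
    rw [this]; exact Submodule.smul_mem _ _ hx

end Fermat.Agent.S23
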