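import Mathlib

/-!
# Removable singularities on the upper half plane (package [D-b] of the S23 project)

* `removable_quotient_aux` : on an open preconnected subset of `ℂ`, a locally bounded quotient
  `g / d` of holomorphic functions (`d ≢ 0`) extends to a holomorphic `F` with `F * d = g`.
* `exists_mdiff_quotient` : the same statement for functions `ℍ → ℂ`, with the exact signature
  requested by the S23 assembly.
-/

namespace Fermat.Agent.S23

open Filter Topology Set UpperHalfPlane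
open scoped Manifold

/-- On an open preconnected subset `U` of `ℂ`, let `g, d` be holomorphic with `d ≢ 0`, and suppose
the quotient `g / d` is locally bounded off the zeros of `d`. Then there is a holomorphic `F` on
`U` with `F * d = g`. -/
theorem removable_quotient_aux {U : Set ℂ} (hU : IsOpen U) (hUc : IsPreconnected U)
    {g d : ℂ → ℂ} (hg : DifferentiableOn ℂ g U) (hd : DifferentiableOn ℂ d U)
    (hd0 : ∃ z ∈ U, d z ≠ 0)
    (hq : ∀ z ∈ U, ∃ C : ℝ, ∀ᶠ w in 𝓝 z, d w ≠ 0 → ‖g w / d w‖ ≤ C) :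
    ∃ F : ℂ → ℂ, DifferentiableOn ℂ F U ∧ ∀ z ∈ U, F z * d z = g z := by
  set q : ℂ → ℂ := fun z => g z / d z with hqdef
  set F : ℂ → ℂ := fun z => limUnder (𝓝[≠] z) q with hFdef
  have hda : AnalyticOnNhd ℂ d U := hd.analyticOnNhd hU
  -- zeros of `d` are isolated
  have hA : ∀ z ∈ U, ∀ᶠ w in 𝓝[≠] z, d w ≠ 0 := by
    intro z hz
    rcases (hda z hz).eventually_eq_zero_or_eventually_ne_zero with h | h
    · exfalso
      obtain ⟨w, hw, hdw⟩ := hd0
      exact hdw (hda.eqOn_zero_of_preconnected_of_eventuallyEq_zero hUc hz h hw)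
    · exact h
  have hA' : ∀ z ∈ U, ∀ᶠ w in 𝓝[≠] z, w ∈ U ∧ d w ≠ 0 := by
    intro z hz
    have h1 : ∀ᶠ w in 𝓝[≠] z, w ∈ U :=
      eventually_nhdsWithin_of_eventually_nhds (hU.mem_nhds hz)
    exact h1.and (hA z hz)
  -- differentiability of `q` away from zeros
  have hqd : ∀ z ∈ U, d z ≠ 0 → DifferentiableAt ℂ q z := by
    intro z hz hdz
    exact ((hg z hz).differentiableAt (hU.mem_nhds hz)).div
      ((hd z hz).differentiableAt (hU.mem_nhds hz)) hdz
  have hBq : ∀ z ∈ U, d z ≠ 0 → F z = q z := by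
    intro z hz hdz
    have h1 : Tendsto q (𝓝[≠] z) (𝓝 (q z)) :=
      ((hqd z hz hdz).continuousAt.tendsto).mono_left nhdsWithin_le_nhds
    exact h1.limUnder_eq
  have hC : ∀ z ∈ U, Tendsto q (𝓝[≠] z) (𝓝 (F z)) := by
    intro z hz
    apply Complex.tendsto_limUnder_of_differentiable_on_punctured_nhds_of_bounded_under
    · exact (hA' z hz).mono fun w hw => hqd w hw.1 hw.2
    · obtain ⟨C, hCz⟩ := hq z hz
      have h1 : ∀ᶠ w in 𝓝[≠] z, d w ≠ 0 → ‖g w / d w‖ ≤ C :=
        eventually_nhdsWithin_of_eventually_nhds hCz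
      refine ⟨C + ‖q z‖, ?_⟩
      rw [eventually_map]
      filter_upwards [h1, hA' z hz] with w hw1 hw2
      calc ‖q w - q z‖ ≤ ‖q w‖ + ‖q z‖ := norm_sub_le _ _
        _ ≤ C + ‖q z‖ := by
          have := hw1 hw2.2
          simp only [hqdef]
          linarith
  have hFq : ∀ z ∈ U, d z ≠ 0 → F =ᶠ[𝓝 z] q := by
    intro z hz hdz
    have h1 : ∀ᶠ w in 𝓝 z, w ∈ U := hU.mem_nhds hz
    have h2 : ∀ᶠ w in 𝓝 z, d w ≠ 0 :=
      ((hd z hz).differentiableAt (hU.mem_nhds hz)).continuousAt.eventually_ne hdz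
    filter_upwards [h1, h2] with w hw1 hw2 using hBq w hw1 hw2
  have hFq' : ∀ z ∈ U, F =ᶠ[𝓝[≠] z] q := by
    intro z hz
    exact (hA' z hz).mono fun w hw => hBq w hw.1 hw.2
  refine ⟨F, ?_, ?_⟩
  · intro z hz
    have h1 : ∀ᶠ w in 𝓝[≠] z, DifferentiableAt ℂ F w := by
      filter_upwards [hA' z hz] with w hw
      exact (hqd w hw.1 hw.2).congr_of_eventuallyEq (hFq w hw.1 hw.2)
    have h2 : ContinuousAt F z := by
      rw [continuousAt_iff_punctured_nhds]
      exact (hC z hz).congr' (hFq' z hz).symm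
    exact (Complex.analyticAt_of_differentiable_on_punctured_nhds_of_continuousAt h1
      h2).differentiableAt.differentiableWithinAt
  · intro z hz
    by_cases hdz : d z = 0
    · have hgc : Tendsto g (𝓝[≠] z) (𝓝 (g z)) :=
        (((hg z hz).differentiableAt (hU.mem_nhds hz)).continuousAt.tendsto).mono_left
          nhdsWithin_le_nhds
      have hdc : Tendsto d (𝓝[≠] z) (𝓝 (d z)) :=
        (((hd z hz).differentiableAt (hU.mem_nhds hz)).continuousAt.tendsto).mono_left
          nhdsWithin_le_nhds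
      have h1 : Tendsto (fun w => q w * d w) (𝓝[≠] z) (𝓝 (F z * d z)) := (hC z hz).mul hdc
      have h2 : (fun w => q w * d w) =ᶠ[𝓝[≠] z] g := by
        filter_upwards [hA z hz] with w hw
        simp only [hqdef]
        field_simp
      exact tendsto_nhds_unique (h1.congr' h2) hgc
    · rw [hBq z hz hdz]
      simp only [hqdef]
      field_simp

/-- **Removable singularities on `ℍ`** (package [D-b]). If `G, D : ℍ → ℂ` are holomorphic,
`D ≠ 0`, and `G / D` is locally bounded off the zeros of `D`, then there is a holomorphic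
`F : ℍ → ℂ` with `F * D = G`. -/
theorem exists_mdiff_quotient (G D : ℍ → ℂ) (hG : MDiff G) (hD : MDiff D) (hD0 : D ≠ 0)
    (hbdd : ∀ z₀ : ℍ, ∃ C : ℝ, ∀ᶠ z in nhds z₀, D z ≠ 0 → ‖G z / D z‖ ≤ C) :
    ∃ F : ℍ → ℂ, MDiff F ∧ ∀ z, F z * D z = G z := by
  have hUo : IsOpen {z : ℂ | 0 < z.im} := isOpen_upperHalfPlaneSet
  have hUc : IsPreconnected {z : ℂ | 0 < z.im} :=
    (Complex.isConnected_of_upperHalfPlane subset_rfl (by grind)).isPreconnected
  rw [UpperHalfPlane.mdifferentiable_iff] at hG hD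
  obtain ⟨z₀, hz₀⟩ : ∃ z, D z ≠ 0 := by
    by_contra h
    apply hD0
    funext z
    by_contra hz
    exact h ⟨z, hz⟩
  have hloc : ∀ z ∈ {z : ℂ | 0 < z.im}, ∃ C : ℝ, ∀ᶠ w in 𝓝 z,
      (D ∘ ofComplex) w ≠ 0 → ‖(G ∘ ofComplex) w / (D ∘ ofComplex) w‖ ≤ C := by
    intro z hz
    obtain ⟨C, hC⟩ := hbdd (ofComplex z)
    have h1 : ContinuousAt ofComplex z := (contMDiffAt_ofComplex (n := 0) hz).continuousAt
    exact ⟨C, h1.eventually hC⟩
  obtain ⟨F, hF, hFD⟩ := removable_quotient_aux hUo hUc hG hD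
    ⟨(z₀ : ℂ), z₀.im_pos, by simpa [ofComplex_apply] using hz₀⟩ hloc
  refine ⟨fun z => F (z : ℂ), ?_, fun z => ?_⟩
  · rw [UpperHalfPlane.mdifferentiable_iff]
    refine hF.congr fun z hz => ?_
    simp [Function.comp_apply, ofComplex_apply_of_im_pos hz]
  · have := hFD (z : ℂ) z.im_pos
    simpa [ofComplex_apply] using this

end Fermat.Agent.S23
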